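/-
Programme JAC (S25), work package A6c, part II: tensor products and duals of localisations of
modules are localisations.

`S` is a submonoid of `R`, `R'` an `R`-algebra with `IsLocalization S R'`; `f : M → M'` and
`g : N → N'` are `R`-linear maps into `R'`-modules.

* `tensorMap R' f g : M ⊗[R] N →ₗ[R] M' ⊗[R'] N'`, `m ⊗ n ↦ f m ⊗ g n`;
  `isLocalizedModule_tensorMap` : it is a localisation at `S` if `f` and `g` are.
* `dualMap S R' f : Dual R M →ₗ[R] Dual R' M'` for a localisation `f`, characterised by
  `dualMap_apply : dualMap S R' f φ (f x) = algebraMap R R' (φ x)`;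
  `isLocalizedModule_dualMap` : it is a localisation at `S` if `M` is finitely presented.
* compatibilities of `tensorMap` with `TensorProduct.congr`, `comm`, `assoc`, `lid` and with the
  contraction `Dual ⊗ M → R` (`congr_tensorMap`, `comm_tensorMap`, `assoc_tensorMap`,
  `lid_tensorMap`, `contractLeft_tensorMap`, `invertible_linearEquiv_tensorMap`).
-/
import Mathlib

set_option autoImplicit false

open TensorProduct

namespace Fermat.Agent.JAC.Grp.LocTensor33

section Tensor

variable {R : Type*} [CommRing R] (S : Submonoid R) (R' : Type*) [CommRing R'] [Algebra R R']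
variable {M N M' N' : Type*} [AddCommGroup M] [AddCommGroup N] [AddCommGroup M'] [AddCommGroup N']
  [Module R M] [Module R N] [Module R M'] [Module R' M'] [IsScalarTower R R' M']
  [Module R N'] [Module R' N'] [IsScalarTower R R' N']

/-- The natural map `M ⊗[R] N → M' ⊗[R'] N'` induced by `f : M → M'`, `g : N → N'`. -/
noncomputable def tensorMap (f : M →ₗ[R] M') (g : N →ₗ[R] N') : M ⊗[R] N →ₗ[R] M' ⊗[R'] N' :=
  TensorProduct.lift (((TensorProduct.mk R' M' N').restrictScalars₁₂ R R).compl₁₂ f g)

@[simp]
theorem tensorMap_tmul (f : M →ₗ[R] M') (g : N →ₗ[R] N') (m : M) (n : N) :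
    tensorMap R' f g (m ⊗ₜ n) = f m ⊗ₜ[R'] g n := rfl

variable [IsLocalization S R']

/-- The tensor product of two localisations of modules is a localisation. -/
theorem isLocalizedModule_tensorMap (f : M →ₗ[R] M') (g : N →ₗ[R] N')
    [IsLocalizedModule S f] [IsLocalizedModule S g] :
    IsLocalizedModule S (tensorMap R' f g) := by
  have hf : IsBaseChange R' f := IsLocalizedModule.isBaseChange S R' f
  have hg : IsBaseChange R' g := IsLocalizedModule.isBaseChange S R' g
  rw [isLocalizedModule_iff_isBaseChange S R']
  refine IsBaseChange.of_equiv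
    (TensorProduct.AlgebraTensorModule.distribBaseChange R R' M N ≪≫ₗ
      TensorProduct.congr hf.equiv hg.equiv) ?_
  intro x
  induction x using TensorProduct.induction_on with
  | zero => simp
  | tmul m n =>
    simp [TensorProduct.AlgebraTensorModule.distribBaseChange_tmul]
  | add x y hx hy =>
    rw [TensorProduct.tmul_add, map_add, hx, hy, map_add]

end Tensor

section Dual

variable {R : Type*} [CommRing R] (S : Submonoid R) (R' : Type*) [CommRing R'] [Algebra R R']
  [IsLocalization S R']
variable {M M' : Type*} [AddCommGroup M] [AddCommGroup M']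
  [Module R M] [Module R M'] [Module R' M'] [IsScalarTower R R' M']

/-- The natural map `Dual R M → Dual R' M'` for a localisation `f : M → M'`. -/
noncomputable def dualMap (f : M →ₗ[R] M') [IsLocalizedModule S f] :
    Module.Dual R M →ₗ[R] Module.Dual R' M' :=
  IsLocalizedModule.mapExtendScalars S f (Algebra.linearMap R R') R'

theorem dualMap_apply (f : M →ₗ[R] M') [IsLocalizedModule S f] (φ : Module.Dual R M) (x : M) :
    dualMap S R' f φ (f x) = algebraMap R R' (φ x) := by
  simp [dualMap]

/-- The dual of a localisation of a finitely presented module is a localisation. -/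
theorem isLocalizedModule_dualMap (f : M →ₗ[R] M') [IsLocalizedModule S f]
    [Module.FinitePresentation R M] : IsLocalizedModule S (dualMap S R' f) := by
  unfold dualMap
  infer_instance

end Dual

section Compat

variable {R : Type*} [CommRing R] (R' : Type*) [CommRing R'] [Algebra R R']
variable {M N L M' N' L' : Type*} [AddCommGroup M] [AddCommGroup N] [AddCommGroup L]
  [AddCommGroup M'] [AddCommGroup N'] [AddCommGroup L']
  [Module R M] [Module R N] [Module R L]
  [Module R M'] [Module R' M'] [IsScalarTower R R' M']
  [Module R N'] [Module R' N'] [IsScalarTower R R' N']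
  [Module R L'] [Module R' L'] [IsScalarTower R R' L']
variable {P Q P' Q' : Type*} [AddCommGroup P] [AddCommGroup Q] [AddCommGroup P'] [AddCommGroup Q']
  [Module R P] [Module R Q]
  [Module R P'] [Module R' P'] [IsScalarTower R R' P']
  [Module R Q'] [Module R' Q'] [IsScalarTower R R' Q']

theorem congr_tensorMap (f : M →ₗ[R] M') (g : N →ₗ[R] N') (f1 : P →ₗ[R] P') (g1 : Q →ₗ[R] Q')
    (e0 : M ≃ₗ[R] P) (e0' : N ≃ₗ[R] Q) (e01 : M' ≃ₗ[R'] P') (e01' : N' ≃ₗ[R'] Q')
    (h : ∀ x, e01 (f x) = f1 (e0 x)) (h' : ∀ x, e01' (g x) = g1 (e0' x)) (x : M ⊗[R] N) :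
    (TensorProduct.congr e01 e01') (tensorMap R' f g x) =
      tensorMap R' f1 g1 (TensorProduct.congr e0 e0' x) := by
  induction x using TensorProduct.induction_on with
  | zero => simp
  | tmul m n => simp [h, h']
  | add x y hx hy => simp only [map_add, hx, hy]

theorem comm_tensorMap (f : M →ₗ[R] M') (g : N →ₗ[R] N') (x : M ⊗[R] N) :
    (TensorProduct.comm R' M' N') (tensorMap R' f g x) =
      tensorMap R' g f (TensorProduct.comm R M N x) := by
  induction x using TensorProduct.induction_on with
  | zero => simp
  | tmul m n => simp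
  | add x y hx hy => simp only [map_add, hx, hy]

theorem assoc_tensorMap (f : M →ₗ[R] M') (g : N →ₗ[R] N') (h : L →ₗ[R] L')
    (x : (M ⊗[R] N) ⊗[R] L) :
    (TensorProduct.assoc R' M' N' L') (tensorMap R' (tensorMap R' f g) h x) =
      tensorMap R' f (tensorMap R' g h) (TensorProduct.assoc R M N L x) := by
  induction x using TensorProduct.induction_on with
  | zero => simp
  | tmul x l =>
    induction x using TensorProduct.induction_on with
    | zero => simp
    | tmul m n => simp
    | add x y hx hy => simp only [TensorProduct.add_tmul, map_add, hx, hy]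
  | add x y hx hy => simp only [map_add, hx, hy]

theorem lid_tensorMap (f : M →ₗ[R] M') (x : R ⊗[R] M) :
    (TensorProduct.lid R' M') (tensorMap R' (Algebra.linearMap R R') f x) =
      f (TensorProduct.lid R M x) := by
  induction x using TensorProduct.induction_on with
  | zero => simp
  | tmul r m => simp
  | add x y hx hy => simp only [map_add, hx, hy]

end Compat

section Contract
variable {R : Type*} [CommRing R] (S : Submonoid R) (R' : Type*) [CommRing R'] [Algebra R R']
  [IsLocalization S R']
variable {M M' : Type*} [AddCommGroup M] [AddCommGroup M']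
  [Module R M] [Module R M'] [Module R' M'] [IsScalarTower R R' M']

theorem contractLeft_tensorMap (f : M →ₗ[R] M') [IsLocalizedModule S f]
    (x : Module.Dual R M ⊗[R] M) :
    contractLeft R' M' (tensorMap R' (dualMap S R' f) f x) =
      algebraMap R R' (contractLeft R M x) := by
  induction x using TensorProduct.induction_on with
  | zero => simp
  | tmul φ m => simp [dualMap_apply]
  | add x y hx hy => simp only [map_add, hx, hy]

theorem invertible_linearEquiv_tensorMap (f : M →ₗ[R] M') [IsLocalizedModule S f]
    [Module.Invertible R M] [Module.Invertible R' M']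
    (x : Module.Dual R M ⊗[R] M) :
    Module.Invertible.linearEquiv R' M' (tensorMap R' (dualMap S R' f) f x) =
      algebraMap R R' (Module.Invertible.linearEquiv R M x) :=
  contractLeft_tensorMap S R' f x
end Contract

section DualCongr
variable {R : Type*} [CommRing R] (S : Submonoid R) (R' : Type*) [CommRing R'] [Algebra R R']
  [IsLocalization S R']
variable {M M' P P' : Type*} [AddCommGroup M] [AddCommGroup M'] [AddCommGroup P] [AddCommGroup P']
  [Module R M] [Module R M'] [Module R' M'] [IsScalarTower R R' M']
  [Module R P] [Module R P'] [Module R' P'] [IsScalarTower R R' P']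

theorem dual_ext (f : M →ₗ[R] M') [IsLocalizedModule S f] (ψ₁ ψ₂ : Module.Dual R' M')
    (h : ∀ x, ψ₁ (f x) = ψ₂ (f x)) : ψ₁ = ψ₂ :=
  (IsLocalizedModule.isBaseChange S R' f).algHom_ext ψ₁ ψ₂ h

theorem congr_dualMap (f : M →ₗ[R] M') [IsLocalizedModule S f] (f1 : P →ₗ[R] P')
    [IsLocalizedModule S f1] (e0 : M ≃ₗ[R] P) (e01 : M' ≃ₗ[R'] P')
    (h : ∀ x, e01 (f x) = f1 (e0 x)) (φ : Module.Dual R M) :
    e01.symm.dualMap (dualMap S R' f φ) = dualMap S R' f1 (e0.symm.dualMap φ) := by
  apply dual_ext S R' f1
  intro y
  rw [LinearEquiv.dualMap_apply, dualMap_apply]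
  have : e01.symm (f1 y) = f (e0.symm y) := by
    rw [LinearEquiv.symm_apply_eq, h, LinearEquiv.apply_symm_apply]
  rw [this, dualMap_apply, LinearEquiv.dualMap_apply]
end DualCongr

end Fermat.Agent.JAC.Grp.LocTensor33
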