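/-
Programme JAC (S25), work package A6c, part III: the Picard group of the two-chart curve.

On the bundled line diagrams `Core.Defs36.LineDiag t s R01` (requires `IsLocalization.Away t R01`,
`IsLocalization.Away s R01`):
* `tensor N N'`, `dual N` : tensor product and dual of line diagrams (vertexwise);
* `tensorCongr`, `dualCongr`, `tensorComm`, `tensorAssoc`, `unitTensor`, `dualTensor` :
  the corresponding isomorphisms of line diagrams;
* `commGroup : CommGroup (LineDiag.Classes t s R01)` with `cls_mul`, `cls_inv`, `cls_one`;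
* `toPic0`, `toPic1`, `toPic01` : the restriction homomorphisms to `Pic R0`, `Pic R1`, `Pic R01`;
* `rigidSubgroup B` : the subgroup of classes rigidified along `R01 → B`
  (`mem_rigidSubgroup_iff : cls N ∈ rigidSubgroup B ↔ LineDiag.IsRigid (B := B) N`).
-/
import Mathlib
import Fermat.Agent.JAC.Core.Defs36
import Fermat.Agent.JAC.Grp.LocTensor33

set_option autoImplicit false

open TensorProduct

universe u

namespace Fermat.Agent.JAC.Grp.Diag33

open Fermat.Agent.JAC.Core.Defs36 Fermat.Agent.JAC.Grp.LocTensor33

variable {R0 R1 R01 : Type u} [CommRing R0] [CommRing R1] [CommRing R01]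
  [Algebra R0 R01] [Algebra R1 R01] {t : R0} {s : R1}
  [IsLocalization.Away t R01] [IsLocalization.Away s R01]

/-- Tensor product of line diagrams. -/
noncomputable def tensor (N N' : LineDiag t s R01) : LineDiag t s R01 where
  M0 := N.M0 ⊗[R0] N'.M0
  M1 := N.M1 ⊗[R1] N'.M1
  M01 := N.M01 ⊗[R01] N'.M01
  rho0 := tensorMap R01 N.rho0 N'.rho0
  rho1 := tensorMap R01 N.rho1 N'.rho1
  isLocalizedModule0 := isLocalizedModule_tensorMap (Submonoid.powers t) R01 N.rho0 N'.rho0
  isLocalizedModule1 := isLocalizedModule_tensorMap (Submonoid.powers s) R01 N.rho1 N'.rho1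

/-- Dual of a line diagram. -/
noncomputable def dual (N : LineDiag t s R01) : LineDiag t s R01 where
  M0 := Module.Dual R0 N.M0
  M1 := Module.Dual R1 N.M1
  M01 := Module.Dual R01 N.M01
  rho0 := dualMap (Submonoid.powers t) R01 N.rho0
  rho1 := dualMap (Submonoid.powers s) R01 N.rho1
  isLocalizedModule0 :=
    haveI := Module.finitePresentation_of_projective R0 N.M0
    isLocalizedModule_dualMap (Submonoid.powers t) R01 N.rho0
  isLocalizedModule1 :=
    haveI := Module.finitePresentation_of_projective R1 N.M1
    isLocalizedModule_dualMap (Submonoid.powers s) R01 N.rho1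

/-- Tensor product of isomorphisms. -/
noncomputable def tensorCongr {N N' P P' : LineDiag t s R01} (e : LineDiag.Iso N P)
    (e' : LineDiag.Iso N' P') : LineDiag.Iso (tensor N N') (tensor P P') where
  e0 := TensorProduct.congr e.e0 e'.e0
  e1 := TensorProduct.congr e.e1 e'.e1
  e01 := TensorProduct.congr e.e01 e'.e01
  comm0 := congr_tensorMap R01 N.rho0 N'.rho0 P.rho0 P'.rho0 e.e0 e'.e0 e.e01 e'.e01
    e.comm0 e'.comm0
  comm1 := congr_tensorMap R01 N.rho1 N'.rho1 P.rho1 P'.rho1 e.e1 e'.e1 e.e01 e'.e01
    e.comm1 e'.comm1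

/-- Dual of an isomorphism. -/
noncomputable def dualCongr {N P : LineDiag t s R01} (e : LineDiag.Iso N P) :
    LineDiag.Iso (dual N) (dual P) where
  e0 := e.e0.symm.dualMap
  e1 := e.e1.symm.dualMap
  e01 := e.e01.symm.dualMap
  comm0 := congr_dualMap (Submonoid.powers t) R01 N.rho0 P.rho0 e.e0 e.e01 e.comm0
  comm1 := congr_dualMap (Submonoid.powers s) R01 N.rho1 P.rho1 e.e1 e.e01 e.comm1

/-- Commutativity of the tensor product. -/
noncomputable def tensorComm (N N' : LineDiag t s R01) :
    LineDiag.Iso (tensor N N') (tensor N' N) where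
  e0 := TensorProduct.comm R0 N.M0 N'.M0
  e1 := TensorProduct.comm R1 N.M1 N'.M1
  e01 := TensorProduct.comm R01 N.M01 N'.M01
  comm0 := comm_tensorMap R01 N.rho0 N'.rho0
  comm1 := comm_tensorMap R01 N.rho1 N'.rho1

/-- Associativity of the tensor product. -/
noncomputable def tensorAssoc (N N' N'' : LineDiag t s R01) :
    LineDiag.Iso (tensor (tensor N N') N'') (tensor N (tensor N' N'')) where
  e0 := TensorProduct.assoc R0 N.M0 N'.M0 N''.M0
  e1 := TensorProduct.assoc R1 N.M1 N'.M1 N''.M1
  e01 := TensorProduct.assoc R01 N.M01 N'.M01 N''.M01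
  comm0 := assoc_tensorMap R01 N.rho0 N'.rho0 N''.rho0
  comm1 := assoc_tensorMap R01 N.rho1 N'.rho1 N''.rho1

/-- The unit diagram is a left unit for the tensor product. -/
noncomputable def unitTensor (N : LineDiag t s R01) :
    LineDiag.Iso (tensor (LineDiag.unit t s R01) N) N where
  e0 := TensorProduct.lid R0 N.M0
  e1 := TensorProduct.lid R1 N.M1
  e01 := TensorProduct.lid R01 N.M01
  comm0 := lid_tensorMap R01 N.rho0
  comm1 := lid_tensorMap R01 N.rho1

instance invertible01 (N : LineDiag t s R01) : Module.Invertible R01 N.M01 :=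
  Module.Invertible.of_isLocalization (Submonoid.powers t) N.rho0

/-- The dual diagram is an inverse for the tensor product. -/
noncomputable def dualTensor (N : LineDiag t s R01) :
    LineDiag.Iso (tensor (dual N) N) (LineDiag.unit t s R01) where
  e0 := Module.Invertible.linearEquiv R0 N.M0
  e1 := Module.Invertible.linearEquiv R1 N.M1
  e01 := Module.Invertible.linearEquiv R01 N.M01
  comm0 := invertible_linearEquiv_tensorMap (Submonoid.powers t) R01 N.rho0
  comm1 := invertible_linearEquiv_tensorMap (Submonoid.powers s) R01 N.rho1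

/-- The class of a line diagram. -/
def cls (N : LineDiag t s R01) : LineDiag.Classes t s R01 := Quotient.mk _ N

omit [IsLocalization.Away t R01] [IsLocalization.Away s R01] in
theorem cls_eq_iff {N N' : LineDiag t s R01} : cls N = cls N' ↔ Nonempty (LineDiag.Iso N N') :=
  Quotient.eq

/-- The Picard group of the two-chart curve: isomorphism classes of line diagrams under tensor
product. -/
noncomputable instance commGroup : CommGroup (LineDiag.Classes t s R01) where
  mul := Quotient.map₂ tensor (fun _ _ ⟨e⟩ _ _ ⟨e'⟩ => ⟨tensorCongr e e'⟩)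
  one := cls (LineDiag.unit t s R01)
  inv := Quotient.map dual (fun _ _ ⟨e⟩ => ⟨dualCongr e⟩)
  mul_assoc a b c := by
    induction a using Quotient.inductionOn
    induction b using Quotient.inductionOn
    induction c using Quotient.inductionOn
    exact Quotient.sound ⟨tensorAssoc _ _ _⟩
  one_mul a := by
    induction a using Quotient.inductionOn
    exact Quotient.sound ⟨unitTensor _⟩
  mul_one a := by
    induction a using Quotient.inductionOn
    exact Quotient.sound ⟨(tensorComm _ _).trans (unitTensor _)⟩
  inv_mul_cancel a := by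
    induction a using Quotient.inductionOn
    exact Quotient.sound ⟨dualTensor _⟩
  mul_comm a b := by
    induction a using Quotient.inductionOn
    induction b using Quotient.inductionOn
    exact Quotient.sound ⟨tensorComm _ _⟩

theorem cls_mul (N N' : LineDiag t s R01) : cls N * cls N' = cls (tensor N N') := rfl

theorem cls_inv (N : LineDiag t s R01) : (cls N)⁻¹ = cls (dual N) := rfl

theorem cls_one : (1 : LineDiag.Classes t s R01) = cls (LineDiag.unit t s R01) := rfl

section Pic

open CommRing

/-- Restriction to the overlap, as a homomorphism to `Pic R01`. -/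
noncomputable def toPic01 : LineDiag.Classes t s R01 →* Pic R01 where
  toFun := Quotient.lift (fun N => Pic.mk R01 N.M01)
    (fun _ _ ⟨e⟩ => Pic.mk_eq_mk_iff.mpr ⟨e.e01⟩)
  map_one' := Pic.mk_self
  map_mul' a b := by
    induction a using Quotient.inductionOn
    induction b using Quotient.inductionOn
    exact Pic.mk_tensor

/-- Restriction to the first chart, as a homomorphism to `Pic R0`. -/
noncomputable def toPic0 : LineDiag.Classes t s R01 →* Pic R0 where
  toFun := Quotient.lift (fun N => Pic.mk R0 N.M0)
    (fun _ _ ⟨e⟩ => Pic.mk_eq_mk_iff.mpr ⟨e.e0⟩)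
  map_one' := Pic.mk_self
  map_mul' a b := by
    induction a using Quotient.inductionOn
    induction b using Quotient.inductionOn
    exact Pic.mk_tensor

/-- Restriction to the second chart, as a homomorphism to `Pic R1`. -/
noncomputable def toPic1 : LineDiag.Classes t s R01 →* Pic R1 where
  toFun := Quotient.lift (fun N => Pic.mk R1 N.M1)
    (fun _ _ ⟨e⟩ => Pic.mk_eq_mk_iff.mpr ⟨e.e1⟩)
  map_one' := Pic.mk_self
  map_mul' a b := by
    induction a using Quotient.inductionOn
    induction b using Quotient.inductionOn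
    exact Pic.mk_tensor

theorem toPic01_cls (N : LineDiag t s R01) : toPic01 (cls N) = Pic.mk R01 N.M01 := rfl
theorem toPic0_cls (N : LineDiag t s R01) : toPic0 (cls N) = Pic.mk R0 N.M0 := rfl
theorem toPic1_cls (N : LineDiag t s R01) : toPic1 (cls N) = Pic.mk R1 N.M1 := rfl

variable (B : Type u) [CommRing B] [Algebra R01 B]

/-- The subgroup of classes of line diagrams which become trivial along `R01 → B`
(rigidified line bundles). -/
noncomputable def rigidSubgroup : Subgroup (LineDiag.Classes t s R01) :=
  ((Pic.mapAlgebra R01 B).comp toPic01).ker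

theorem mem_rigidSubgroup_iff (N : LineDiag t s R01) :
    cls N ∈ rigidSubgroup (t := t) (s := s) B ↔ LineDiag.IsRigid (B := B) N := by
  rw [rigidSubgroup, MonoidHom.mem_ker, MonoidHom.comp_apply, toPic01_cls, Pic.mapAlgebra_apply,
    Pic.mk_eq_one_iff]
  constructor
  · rintro ⟨e⟩
    exact ⟨(TensorProduct.AlgebraTensorModule.congr (LinearEquiv.refl B B)
      (Pic.mk.linearEquiv R01 N.M01)).symm ≪≫ₗ e⟩
  · rintro ⟨e⟩
    exact ⟨(TensorProduct.AlgebraTensorModule.congr (LinearEquiv.refl B B)
      (Pic.mk.linearEquiv R01 N.M01)) ≪≫ₗ e⟩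

end Pic

end Fermat.Agent.JAC.Grp.Diag33
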