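/-
Programme JAC (S25), work package A6c, part III': base change of line diagrams along a morphism of
two-chart families, and the induced homomorphism of Picard groups.

A morphism of families `(R0 → R01 ← R1) → (R0' → R01' ← R1')` is given in typeclass form:
`[Algebra R0 R0'] [Algebra R1 R1'] [Algebra R01 R01'] [Algebra R0 R01'] [Algebra R1 R01']` with the
scalar towers `R0 → R01 → R01'`, `R0 → R0' → R01'`, `R1 → R01 → R01'`, `R1 → R1' → R01'`.

* `baseChangeMap f : T ⊗[R] M →ₗ[T] T' ⊗[R'] M'`, `x ⊗ m ↦ x ⊗ f m`, is a localisation at `S'`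
  (`IsLocalization S' T'`) when `f` is a localisation at `S` (`IsLocalization S R'`);
* `baseChange N : LineDiag t' s' R01'` with vertices `R_i' ⊗[R_i] M_i`;
* `baseChangeCongr`, `baseChangeTensor`, `baseChangeUnit` : compatibility isomorphisms;
* `baseChangeHom : LineDiag.Classes t s R01 →* LineDiag.Classes t' s' R01'`.
-/
import Mathlib
import Fermat.Agent.JAC.Core.Defs36
import Fermat.Agent.JAC.Grp.LocTensor33
import Fermat.Agent.JAC.Grp.Diag33

set_option autoImplicit false

open TensorProduct

universe u

namespace Fermat.Agent.JAC.Grp.BaseChange33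

open Fermat.Agent.JAC.Core.Defs36 Fermat.Agent.JAC.Grp.LocTensor33 Fermat.Agent.JAC.Grp.Diag33

/-- Two commutative algebras acting on a third commute. -/
theorem smulCommClass_of_algebra (A B C : Type*) [CommSemiring A] [CommSemiring B] [CommSemiring C]
    [Algebra A C] [Algebra B C] : SMulCommClass A B C :=
  ⟨fun a b c => by simp only [Algebra.smul_def]; ring⟩

attribute [local instance] smulCommClass_of_algebra

section Unbundled

variable {R R' T T' : Type*} [CommRing R] [CommRing R'] [CommRing T] [CommRing T']
  [Algebra R R'] [Algebra T T'] [Algebra R T] [Algebra R' T'] [Algebra R T']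
  [IsScalarTower R R' T'] [IsScalarTower R T T']
variable {M M' N N' P P' : Type*} [AddCommGroup M] [AddCommGroup M'] [AddCommGroup N]
  [AddCommGroup N'] [AddCommGroup P] [AddCommGroup P']
  [Module R M] [Module R M'] [Module R' M'] [IsScalarTower R R' M']
  [Module R N] [Module R N'] [Module R' N'] [IsScalarTower R R' N']
  [Module R P] [Module R P'] [Module R' P'] [IsScalarTower R R' P']

/-- The natural map `T ⊗[R] M → T' ⊗[R'] M'`, `x ⊗ m ↦ x ⊗ f m`. -/
noncomputable def baseChangeMap (f : M →ₗ[R] M') : T ⊗[R] M →ₗ[T] T' ⊗[R'] M' :=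
  LinearMap.liftBaseChange T
    ((TensorProduct.mk R' T' M' 1).restrictScalars R ∘ₗ f)

theorem baseChangeMap_tmul (f : M →ₗ[R] M') (x : T) (m : M) :
    baseChangeMap (T := T) (T' := T') (R' := R') f (x ⊗ₜ m) = algebraMap T T' x ⊗ₜ[R'] f m := by
  rw [baseChangeMap, LinearMap.liftBaseChange_tmul]
  simp [TensorProduct.smul_tmul', Algebra.smul_def]

section Loc

variable (S : Submonoid R) [IsLocalization S R'] (S' : Submonoid T) [IsLocalization S' T']

theorem isBaseChange_baseChangeMap (f : M →ₗ[R] M') [IsLocalizedModule S f] :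
    IsBaseChange T' (baseChangeMap (T := T) (T' := T') (R' := R') f) := by
  have hf : IsBaseChange R' f := IsLocalizedModule.isBaseChange S R' f
  refine IsBaseChange.of_equiv
    (TensorProduct.AlgebraTensorModule.cancelBaseChange R T T' T' M ≪≫ₗ
      (TensorProduct.AlgebraTensorModule.cancelBaseChange R R' T' T' M).symm ≪≫ₗ
      TensorProduct.AlgebraTensorModule.congr (LinearEquiv.refl T' T') hf.equiv) ?_
  intro x
  induction x using TensorProduct.induction_on with
  | zero => simp
  | tmul x m =>
    simp [baseChangeMap_tmul, Algebra.smul_def]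
  | add x y hx hy =>
    rw [TensorProduct.tmul_add, map_add, hx, hy, map_add]

/-- The base change of a localisation of modules is a localisation. -/
theorem isLocalizedModule_baseChangeMap (f : M →ₗ[R] M') [IsLocalizedModule S f] :
    IsLocalizedModule S' (baseChangeMap (T := T) (T' := T') (R' := R') f) :=
  (isLocalizedModule_iff_isBaseChange S' T' _).mpr (isBaseChange_baseChangeMap S f)

end Loc

theorem congr_baseChangeMap (f : M →ₗ[R] M') (f1 : P →ₗ[R] P') (e0 : M ≃ₗ[R] P)
    (e01 : M' ≃ₗ[R'] P') (h : ∀ x, e01 (f x) = f1 (e0 x)) (z : T ⊗[R] M) :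
    (LinearEquiv.baseChange R' T' M' P' e01)
        (baseChangeMap (T := T) (T' := T') (R' := R') f z) =
      baseChangeMap (T := T) (T' := T') (R' := R') f1 (LinearEquiv.baseChange R T M P e0 z) := by
  induction z using TensorProduct.induction_on with
  | zero => simp
  | tmul x m => simp [baseChangeMap_tmul, h]
  | add x y hx hy => simp only [map_add, hx, hy]

theorem distrib_baseChangeMap (f : M →ₗ[R] M') (g : N →ₗ[R] N') (z : T ⊗[R] (M ⊗[R] N)) :
    (TensorProduct.AlgebraTensorModule.distribBaseChange R' T' M' N')
        (baseChangeMap (T := T) (T' := T') (R' := R') (tensorMap R' f g) z) =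
      tensorMap T' (baseChangeMap (T := T) (T' := T') (R' := R') f)
        (baseChangeMap (T := T) (T' := T') (R' := R') g)
        (TensorProduct.AlgebraTensorModule.distribBaseChange R T M N z) := by
  induction z using TensorProduct.induction_on with
  | zero => simp
  | tmul x y =>
    induction y using TensorProduct.induction_on with
    | zero => simp
    | tmul m n =>
      simp [baseChangeMap_tmul, TensorProduct.AlgebraTensorModule.distribBaseChange_tmul]
    | add y y' hy hy' => simp only [TensorProduct.tmul_add, map_add, hy, hy']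
  | add x y hx hy => simp only [map_add, hx, hy]

theorem rid_baseChangeMap (z : T ⊗[R] R) :
    (TensorProduct.AlgebraTensorModule.rid R' T' T')
        (baseChangeMap (T := T) (T' := T') (R' := R') (Algebra.linearMap R R') z) =
      Algebra.linearMap T T' (TensorProduct.AlgebraTensorModule.rid R T T z) := by
  induction z using TensorProduct.induction_on with
  | zero => simp
  | tmul x r =>
    simp only [baseChangeMap_tmul, Algebra.linearMap_apply,
      TensorProduct.AlgebraTensorModule.rid_tmul, Algebra.smul_def, map_mul]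
    rw [← IsScalarTower.algebraMap_apply R R' T', ← IsScalarTower.algebraMap_apply R T T']
  | add x y hx hy => simp only [map_add, hx, hy]

end Unbundled

section Bundled

variable {R0 R1 R01 : Type u} [CommRing R0] [CommRing R1] [CommRing R01]
  [Algebra R0 R01] [Algebra R1 R01] {t : R0} {s : R1}
variable {R0' R1' R01' : Type u} [CommRing R0'] [CommRing R1'] [CommRing R01']
  [Algebra R0' R01'] [Algebra R1' R01']
  [Algebra R0 R0'] [Algebra R1 R1'] [Algebra R01 R01'] [Algebra R0 R01'] [Algebra R1 R01']
  [IsScalarTower R0 R01 R01'] [IsScalarTower R0 R0' R01']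
  [IsScalarTower R1 R01 R01'] [IsScalarTower R1 R1' R01']
  (t' : R0') (s' : R1')

variable (R01')

section Def

variable [IsLocalization.Away t R01] [IsLocalization.Away s R01]
  [IsLocalization.Away t' R01'] [IsLocalization.Away s' R01']

/-- Base change of a line diagram along a morphism of two-chart families. -/
noncomputable def baseChange (N : LineDiag t s R01) : LineDiag t' s' R01' where
  M0 := R0' ⊗[R0] N.M0
  M1 := R1' ⊗[R1] N.M1
  M01 := R01' ⊗[R01] N.M01
  rho0 := baseChangeMap N.rho0
  rho1 := baseChangeMap N.rho1
  isLocalizedModule0 :=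
    isLocalizedModule_baseChangeMap (Submonoid.powers t) (Submonoid.powers t') N.rho0
  isLocalizedModule1 :=
    isLocalizedModule_baseChangeMap (Submonoid.powers s) (Submonoid.powers s') N.rho1

/-- Base change of an isomorphism of line diagrams. -/
noncomputable def baseChangeCongr {N P : LineDiag t s R01} (e : LineDiag.Iso N P) :
    LineDiag.Iso (baseChange R01' t' s' N) (baseChange R01' t' s' P) where
  e0 := LinearEquiv.baseChange R0 R0' N.M0 P.M0 e.e0
  e1 := LinearEquiv.baseChange R1 R1' N.M1 P.M1 e.e1
  e01 := LinearEquiv.baseChange R01 R01' N.M01 P.M01 e.e01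
  comm0 := congr_baseChangeMap N.rho0 P.rho0 e.e0 e.e01 e.comm0
  comm1 := congr_baseChangeMap N.rho1 P.rho1 e.e1 e.e01 e.comm1

/-- Base change commutes with tensor products. -/
noncomputable def baseChangeTensor (N N' : LineDiag t s R01) :
    LineDiag.Iso (baseChange R01' t' s' (tensor N N'))
      (tensor (baseChange R01' t' s' N) (baseChange R01' t' s' N')) where
  e0 := TensorProduct.AlgebraTensorModule.distribBaseChange R0 R0' N.M0 N'.M0
  e1 := TensorProduct.AlgebraTensorModule.distribBaseChange R1 R1' N.M1 N'.M1
  e01 := TensorProduct.AlgebraTensorModule.distribBaseChange R01 R01' N.M01 N'.M01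
  comm0 := distrib_baseChangeMap N.rho0 N'.rho0
  comm1 := distrib_baseChangeMap N.rho1 N'.rho1

/-- Base change of the unit diagram. -/
noncomputable def baseChangeUnit :
    LineDiag.Iso (baseChange R01' t' s' (LineDiag.unit t s R01)) (LineDiag.unit t' s' R01') where
  e0 := (TensorProduct.AlgebraTensorModule.rid R0 R0' R0' : R0' ⊗[R0] R0 ≃ₗ[R0'] R0')
  e1 := (TensorProduct.AlgebraTensorModule.rid R1 R1' R1' : R1' ⊗[R1] R1 ≃ₗ[R1'] R1')
  e01 := (TensorProduct.AlgebraTensorModule.rid R01 R01' R01' : R01' ⊗[R01] R01 ≃ₗ[R01'] R01')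
  comm0 := rid_baseChangeMap (R := R0) (R' := R01) (T := R0') (T' := R01')
  comm1 := rid_baseChangeMap (R := R1) (R' := R01) (T := R1') (T' := R01')

/-- Base change as a homomorphism of Picard groups. -/
noncomputable def baseChangeHom :
    LineDiag.Classes t s R01 →* LineDiag.Classes t' s' R01' where
  toFun := Quotient.map (baseChange R01' t' s') (fun _ _ ⟨e⟩ => ⟨baseChangeCongr R01' t' s' e⟩)
  map_one' := Quotient.sound ⟨baseChangeUnit R01' t' s'⟩
  map_mul' a b := by
    induction a using Quotient.inductionOn
    induction b using Quotient.inductionOn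
    exact Quotient.sound ⟨baseChangeTensor R01' t' s' _ _⟩

theorem baseChangeHom_cls (N : LineDiag t s R01) :
    baseChangeHom R01' t' s' (cls N) = cls (baseChange R01' t' s' N) := rfl

section Rigid

variable {B B' : Type u} [CommRing B] [CommRing B'] [Algebra R01 B] [Algebra R01' B']
  [Algebra B B'] [Algebra R01 B'] [IsScalarTower R01 B B'] [IsScalarTower R01 R01' B']

/-- Rigidifications are preserved by base change. -/
theorem isRigid_baseChange (N : LineDiag t s R01) (h : LineDiag.IsRigid (B := B) N) :
    LineDiag.IsRigid (B := B') (baseChange R01' t' s' N) := by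
  obtain ⟨e⟩ := h
  exact ⟨TensorProduct.AlgebraTensorModule.cancelBaseChange R01 R01' B' B' N.M01 ≪≫ₗ
    (TensorProduct.AlgebraTensorModule.cancelBaseChange R01 B B' B' N.M01).symm ≪≫ₗ
    TensorProduct.AlgebraTensorModule.congr (LinearEquiv.refl B' B') e ≪≫ₗ
    TensorProduct.AlgebraTensorModule.rid B B' B'⟩

theorem baseChangeHom_mem_rigidSubgroup (x : LineDiag.Classes t s R01)
    (hx : x ∈ rigidSubgroup (t := t) (s := s) B) :
    baseChangeHom R01' t' s' x ∈ rigidSubgroup (t := t') (s := s') B' := by
  induction x using Quotient.inductionOn with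
  | _ N =>
    change cls N ∈ _ at hx
    rw [mem_rigidSubgroup_iff] at hx
    change cls (baseChange R01' t' s' N) ∈ _
    rw [mem_rigidSubgroup_iff]
    exact isRigid_baseChange R01' t' s' N hx

end Rigid

end Def

end Bundled

end Fermat.Agent.JAC.Grp.BaseChange33
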