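/-
Programme JAC (S25), work package A6c, part IV: base change of line diagrams in the fibred form of
`Core/Cart36` (`FamilyHom`, `LineDiag.CartHom`, `IsBaseChangeHom`), as requested in JAC COORD #3.

* bridge: `toSemilinear`, `isBaseChangeHom_of_isBaseChange` (Mathlib `IsBaseChange` ⇒ fibred),
  `isBaseChangeHom_of_isLocalizedModule`, `isBaseChangeHom_mk`, and the converse
  `isBaseChange_of_isBaseChangeHom`, `isBaseChangeHom_toSemilinear_iff`;
* calculus of `IsBaseChangeHom`: `isBaseChangeHom_hom_ext`, `isBaseChangeHom_id`,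
  `isBaseChangeHom_comp`, `isBaseChangeHom_of_linearEquiv`, `isBaseChangeHom_of_linearEquiv_left`;
* `familyHomId`, `familyHomComp`, `cartHomId`, `cartHomComp`, `cartHomOfIso`, `cartHomOfIsoLeft`;
* uniqueness `nonempty_iso_of_cartHom`; existence `baseChange ψ N`, `cartHomBaseChange ψ N`;
* `baseChangeClass ψ : LineDiag.Classes t s R01 →* LineDiag.Classes t' s' R01'` with
  `baseChangeClass_cls_eq_iff`, `baseChangeClass_id`, `baseChangeClass_comp`;
* `cartHom_tensor`, `cartHom_unit`, `cartHom_dual` : tensor, unit, dual commute with base change;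
* `isRigid_baseChange`, `isRigid_of_cartHom` : rigidity is preserved;
  `baseChangeClass_mem_rigidSubgroup`, `rigidMap ψ β hβ : rigidSubgroup B →* rigidSubgroup B'`.
-/
import Mathlib
import Fermat.Agent.JAC.Core.Defs36
import Fermat.Agent.JAC.Core.Cart36
import Fermat.Agent.JAC.Grp.Diag33
import Fermat.Agent.JAC.Grp.BaseChange33

set_option autoImplicit false
set_option linter.style.haveILetI false

open TensorProduct

universe u

namespace Fermat.Agent.JAC.Grp.Cart33

open Fermat.Agent.JAC.Core.Defs36 Fermat.Agent.JAC.Core.Cart36 Fermat.Agent.JAC.Grp.Diag33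

/-! ### Bridge to Mathlib's `IsBaseChange` -/

section Bridge

variable {R R' : Type u} [CommRing R] [CommRing R']
  {P P' : Type u} [AddCommGroup P] [Module R P] [AddCommGroup P'] [Module R' P']

/-- A linear map into a module over an `R`-algebra `R'`, viewed as a semilinear map over
`algebraMap R R'`. -/
def toSemilinear (R' : Type u) [CommRing R'] [Module R' P'] [Algebra R R'] [Module R P']
    [IsScalarTower R R' P'] (f : P →ₗ[R] P') :
    P →ₛₗ[algebraMap R R'] P' where
  toFun := f
  map_add' := f.map_add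
  map_smul' r x := by rw [f.map_smul, algebraMap_smul]

@[simp]
theorem toSemilinear_apply [Algebra R R'] [Module R P'] [IsScalarTower R R' P'] (f : P →ₗ[R] P')
    (x : P) : toSemilinear R' f x = f x := rfl

/-- Mathlib's `IsBaseChange` implies the fibred `IsBaseChangeHom`. -/
theorem isBaseChangeHom_of_isBaseChange [Algebra R R'] [Module R P'] [IsScalarTower R R' P']
    (f : P →ₗ[R] P') (h : IsBaseChange R' f) : IsBaseChangeHom (toSemilinear R' f) := by
  intro Q _ _ g
  letI : Module R Q := Module.compHom Q (algebraMap R R')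
  haveI : IsScalarTower R R' Q := IsScalarTower.of_algebraMap_smul fun r x => rfl
  let g₀ : P →ₗ[R] Q :=
    { toFun := g
      map_add' := g.map_add
      map_smul' := fun r x => by
        rw [g.map_smulₛₗ]; rfl }
  refine ⟨h.lift g₀, fun x => h.lift_eq g₀ x, fun g' hg' => ?_⟩
  apply h.algHom_ext
  intro x
  rw [h.lift_eq]
  exact hg' x

/-- A localisation of modules is a base change in the fibred sense. -/
theorem isBaseChangeHom_of_isLocalizedModule [Algebra R R'] [Module R P'] [IsScalarTower R R' P']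
    (S : Submonoid R) [IsLocalization S R'] (f : P →ₗ[R] P') [IsLocalizedModule S f] :
    IsBaseChangeHom (toSemilinear R' f) :=
  isBaseChangeHom_of_isBaseChange f (IsLocalizedModule.isBaseChange S R' f)

theorem isBaseChangeHom_mk (R R' : Type u) [CommRing R] [CommRing R'] [Algebra R R']
    (M : Type u) [AddCommGroup M] [Module R M] :
    IsBaseChangeHom (toSemilinear R' (TensorProduct.mk R R' M 1)) :=
  isBaseChangeHom_of_isBaseChange _ (TensorProduct.isBaseChange R M R')

/-- Conversely, the fibred `IsBaseChangeHom` implies Mathlib's `IsBaseChange`. -/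
theorem isBaseChange_of_isBaseChangeHom [Algebra R R'] [Module R P'] [IsScalarTower R R' P']
    (f : P →ₗ[R] P') (h : IsBaseChangeHom (toSemilinear R' f)) : IsBaseChange R' f := by
  obtain ⟨e, he⟩ := (isBaseChangeHom_mk R R' P).exists_linearEquiv h
  exact IsBaseChange.of_equiv e he

theorem isBaseChangeHom_toSemilinear_iff [Algebra R R'] [Module R P'] [IsScalarTower R R' P']
    (f : P →ₗ[R] P') : IsBaseChangeHom (toSemilinear R' f) ↔ IsBaseChange R' f :=
  ⟨isBaseChange_of_isBaseChangeHom f, isBaseChangeHom_of_isBaseChange f⟩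

end Bridge

/-! ### Calculus of `IsBaseChangeHom` -/

section General

variable {R R' R'' : Type u} [CommRing R] [CommRing R'] [CommRing R'']
  {φ : R →+* R'} {φ' : R' →+* R''}
  {P P' P'' : Type u} [AddCommGroup P] [Module R P] [AddCommGroup P'] [Module R' P']
  [AddCommGroup P''] [Module R'' P'']

theorem isBaseChangeHom_hom_ext {θ : P →ₛₗ[φ] P'} (h : IsBaseChangeHom θ)
    {Q : Type u} [AddCommGroup Q] [Module R' Q] (g₁ g₂ : P' →ₗ[R'] Q)
    (hg : ∀ x, g₁ (θ x) = g₂ (θ x)) : g₁ = g₂ := by
  let g : P →ₛₗ[φ] Q :=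
    { toFun := fun x => g₁ (θ x)
      map_add' := fun x y => by simp
      map_smul' := fun r x => by simp }
  obtain ⟨c, -, hc⟩ := h Q g
  rw [hc g₁ (fun x => rfl), hc g₂ (fun x => (hg x).symm)]

/-- The identity is a base change along the identity. -/
theorem isBaseChangeHom_id : IsBaseChangeHom (LinearMap.id : P →ₗ[R] P) := by
  intro Q _ _ g
  exact ⟨g, fun x => rfl, fun g' hg' => LinearMap.ext hg'⟩

/-- Composition of semilinear maps, with explicit composite ring homomorphism. -/
def compSemilinear (θ : P →ₛₗ[φ] P') (θ' : P' →ₛₗ[φ'] P'') : P →ₛₗ[φ'.comp φ] P'' where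
  toFun x := θ' (θ x)
  map_add' x y := by simp
  map_smul' r x := by simp

@[simp]
theorem compSemilinear_apply (θ : P →ₛₗ[φ] P') (θ' : P' →ₛₗ[φ'] P'') (x : P) :
    compSemilinear θ θ' x = θ' (θ x) := rfl

/-- Base changes compose. -/
theorem isBaseChangeHom_comp {θ : P →ₛₗ[φ] P'} {θ' : P' →ₛₗ[φ'] P''}
    (h : IsBaseChangeHom θ) (h' : IsBaseChangeHom θ') :
    IsBaseChangeHom (compSemilinear θ θ') := by
  intro Q _ _ g
  letI : Module R' Q := Module.compHom Q φ'
  let g₁ : P →ₛₗ[φ] Q :=
    { toFun := g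
      map_add' := g.map_add
      map_smul' := fun r x => by
        rw [g.map_smulₛₗ]; rfl }
  obtain ⟨a, ha, ha'⟩ := h Q g₁
  let a₁ : P' →ₛₗ[φ'] Q :=
    { toFun := a
      map_add' := a.map_add
      map_smul' := fun r x => by
        rw [a.map_smul]; rfl }
  obtain ⟨b, hb, hb'⟩ := h' Q a₁
  refine ⟨b, fun x => ?_, fun b' hb'' => ?_⟩
  · rw [compSemilinear_apply, hb]
    exact ha x
  · apply hb'
    intro y
    let c : P' →ₗ[R'] Q :=
      { toFun := fun y => b' (θ' y)
        map_add' := fun x y => by simp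
        map_smul' := fun r x => by
          rw [θ'.map_smulₛₗ, b'.map_smul]; rfl }
    have hc : c = a := ha' c (fun x => hb'' x)
    exact congrArg (fun f => f y) hc

/-- Postcomposing a base change with a linear equivalence gives a base change. -/
theorem isBaseChangeHom_of_linearEquiv {θ : P →ₛₗ[φ] P'} (h : IsBaseChangeHom θ)
    {P₁ : Type u} [AddCommGroup P₁] [Module R' P₁] (e : P' ≃ₗ[R'] P₁) (θ₁ : P →ₛₗ[φ] P₁)
    (he : ∀ x, θ₁ x = e (θ x)) : IsBaseChangeHom θ₁ := by
  intro Q _ _ g
  obtain ⟨a, ha, ha'⟩ := h Q g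
  refine ⟨a.comp e.symm.toLinearMap, fun x => by simp [he, ha], fun b hb => ?_⟩
  have : b.comp e.toLinearMap = a := ha' _ (fun x => by simp [← he, hb])
  rw [← this]
  ext y
  simp

/-- Precomposing a base change with a linear equivalence gives a base change. -/
theorem isBaseChangeHom_of_linearEquiv_left {θ : P →ₛₗ[φ] P'} (h : IsBaseChangeHom θ)
    {P₀ : Type u} [AddCommGroup P₀] [Module R P₀] (e : P₀ ≃ₗ[R] P) (θ₀ : P₀ →ₛₗ[φ] P')
    (he : ∀ x, θ₀ x = θ (e x)) : IsBaseChangeHom θ₀ := by
  intro Q _ _ g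
  let g₁ : P →ₛₗ[φ] Q :=
    { toFun := fun x => g (e.symm x)
      map_add' := fun x y => by simp
      map_smul' := fun r x => by simp }
  obtain ⟨a, ha, ha'⟩ := h Q g₁
  refine ⟨a, fun x => by rw [he, ha]; simp [g₁], fun b hb => ?_⟩
  apply ha'
  intro x
  have := hb (e.symm x)
  rw [he, LinearEquiv.apply_symm_apply] at this
  exact this

end General

/-! ### Morphisms of families and cartesian morphisms -/

section Family

variable {R0 R1 R01 : Type u} [CommRing R0] [CommRing R1] [CommRing R01]
  [Algebra R0 R01] [Algebra R1 R01] {t : R0} {s : R1}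
variable {R0' R1' R01' : Type u} [CommRing R0'] [CommRing R1'] [CommRing R01']
  [Algebra R0' R01'] [Algebra R1' R01'] {t' : R0'} {s' : R1'}
variable {R0'' R1'' R01'' : Type u} [CommRing R0''] [CommRing R1''] [CommRing R01'']
  [Algebra R0'' R01''] [Algebra R1'' R01''] {t'' : R0''} {s'' : R1''}

/-- The identity morphism of a two-chart family. -/
def familyHomId (t : R0) (s : R1) (R01 : Type u) [CommRing R01] [Algebra R0 R01] [Algebra R1 R01] :
    FamilyHom t s t s R01 R01 where
  ψ0 := RingHom.id R0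
  ψ1 := RingHom.id R1
  ψ01 := RingHom.id R01
  comm0 _ := rfl
  comm1 _ := rfl
  map_t := rfl
  map_s := rfl

/-- Composition of morphisms of two-chart families. -/
def familyHomComp (ψ : FamilyHom t s t' s' R01 R01') (ψ' : FamilyHom t' s' t'' s'' R01' R01'') :
    FamilyHom t s t'' s'' R01 R01'' where
  ψ0 := ψ'.ψ0.comp ψ.ψ0
  ψ1 := ψ'.ψ1.comp ψ.ψ1
  ψ01 := ψ'.ψ01.comp ψ.ψ01
  comm0 r := by simp [ψ.comm0, ψ'.comm0]
  comm1 r := by simp [ψ.comm1, ψ'.comm1]
  map_t := by simp [ψ.map_t, ψ'.map_t]
  map_s := by simp [ψ.map_s, ψ'.map_s]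

/-- The identity cartesian morphism. -/
def cartHomId (N : LineDiag t s R01) : LineDiag.CartHom (familyHomId t s R01) N N where
  f0 := LinearMap.id
  f1 := LinearMap.id
  f01 := LinearMap.id
  comm0 _ := rfl
  comm1 _ := rfl
  cart0 := isBaseChangeHom_id
  cart1 := isBaseChangeHom_id
  cart01 := isBaseChangeHom_id

/-- Composition of cartesian morphisms. -/
def cartHomComp {ψ : FamilyHom t s t' s' R01 R01'} {ψ' : FamilyHom t' s' t'' s'' R01' R01''}
    {N : LineDiag t s R01} {N' : LineDiag t' s' R01'} {N'' : LineDiag t'' s'' R01''}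
    (c : LineDiag.CartHom ψ N N') (c' : LineDiag.CartHom ψ' N' N'') :
    LineDiag.CartHom (familyHomComp ψ ψ') N N'' where
  f0 := compSemilinear c.f0 c'.f0
  f1 := compSemilinear c.f1 c'.f1
  f01 := compSemilinear c.f01 c'.f01
  comm0 x := by
    show c'.f01 (c.f01 (N.rho0 x)) = N''.rho0 (c'.f0 (c.f0 x))
    rw [c.comm0, c'.comm0]
  comm1 x := by
    show c'.f01 (c.f01 (N.rho1 x)) = N''.rho1 (c'.f1 (c.f1 x))
    rw [c.comm1, c'.comm1]
  cart0 := isBaseChangeHom_comp c.cart0 c'.cart0
  cart1 := isBaseChangeHom_comp c.cart1 c'.cart1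
  cart01 := isBaseChangeHom_comp c.cart01 c'.cart01

/-- Transport of a cartesian morphism along an isomorphism of the target. -/
def cartHomOfIso {ψ : FamilyHom t s t' s' R01 R01'} {N : LineDiag t s R01}
    {N' N'' : LineDiag t' s' R01'} (c : LineDiag.CartHom ψ N N') (e : LineDiag.Iso N' N'') :
    LineDiag.CartHom ψ N N'' where
  f0 := { toFun := fun x => e.e0 (c.f0 x), map_add' := by simp, map_smul' := by simp }
  f1 := { toFun := fun x => e.e1 (c.f1 x), map_add' := by simp, map_smul' := by simp }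
  f01 := { toFun := fun x => e.e01 (c.f01 x), map_add' := by simp, map_smul' := by simp }
  comm0 x := by
    show e.e01 (c.f01 (N.rho0 x)) = N''.rho0 (e.e0 (c.f0 x))
    rw [c.comm0, e.comm0]
  comm1 x := by
    show e.e01 (c.f01 (N.rho1 x)) = N''.rho1 (e.e1 (c.f1 x))
    rw [c.comm1, e.comm1]
  cart0 := isBaseChangeHom_of_linearEquiv c.cart0 e.e0 _ (fun _ => rfl)
  cart1 := isBaseChangeHom_of_linearEquiv c.cart1 e.e1 _ (fun _ => rfl)
  cart01 := isBaseChangeHom_of_linearEquiv c.cart01 e.e01 _ (fun _ => rfl)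

/-- Transport of a cartesian morphism along an isomorphism of the source. -/
def cartHomOfIsoLeft {ψ : FamilyHom t s t' s' R01 R01'} {N P : LineDiag t s R01}
    {N' : LineDiag t' s' R01'} (e : LineDiag.Iso P N) (c : LineDiag.CartHom ψ N N') :
    LineDiag.CartHom ψ P N' where
  f0 := { toFun := fun x => c.f0 (e.e0 x), map_add' := by simp, map_smul' := by simp }
  f1 := { toFun := fun x => c.f1 (e.e1 x), map_add' := by simp, map_smul' := by simp }
  f01 := { toFun := fun x => c.f01 (e.e01 x), map_add' := by simp, map_smul' := by simp }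
  comm0 x := by
    show c.f01 (e.e01 (P.rho0 x)) = N'.rho0 (c.f0 (e.e0 x))
    rw [e.comm0, c.comm0]
  comm1 x := by
    show c.f01 (e.e01 (P.rho1 x)) = N'.rho1 (c.f1 (e.e1 x))
    rw [e.comm1, c.comm1]
  cart0 := isBaseChangeHom_of_linearEquiv_left c.cart0 e.e0 _ (fun _ => rfl)
  cart1 := isBaseChangeHom_of_linearEquiv_left c.cart1 e.e1 _ (fun _ => rfl)
  cart01 := isBaseChangeHom_of_linearEquiv_left c.cart01 e.e01 _ (fun _ => rfl)

/-- Two base changes of a line diagram along the same morphism of families are isomorphic. -/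
theorem nonempty_iso_of_cartHom {ψ : FamilyHom t s t' s' R01 R01'} {N : LineDiag t s R01}
    {N' N'' : LineDiag t' s' R01'} (c : LineDiag.CartHom ψ N N') (c' : LineDiag.CartHom ψ N N'') :
    Nonempty (LineDiag.Iso N' N'') := by
  obtain ⟨e0, he0⟩ := IsBaseChangeHom.exists_linearEquiv c.cart0 c'.cart0
  obtain ⟨e1, he1⟩ := IsBaseChangeHom.exists_linearEquiv c.cart1 c'.cart1
  obtain ⟨e01, he01⟩ := IsBaseChangeHom.exists_linearEquiv c.cart01 c'.cart01
  refine ⟨⟨e0, e1, e01, ?_, ?_⟩⟩
  · intro y
    have := isBaseChangeHom_hom_ext c.cart0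
      ((e01.toLinearMap.restrictScalars R0').comp N'.rho0) (N''.rho0.comp e0.toLinearMap) (by
        intro x
        simp only [LinearMap.coe_comp, LinearMap.coe_restrictScalars, LinearEquiv.coe_coe,
          Function.comp_apply]
        rw [← c.comm0, he01, c'.comm0, he0])
    exact congrArg (fun f => f y) this
  · intro y
    have := isBaseChangeHom_hom_ext c.cart1
      ((e01.toLinearMap.restrictScalars R1').comp N'.rho1) (N''.rho1.comp e1.toLinearMap) (by
        intro x
        simp only [LinearMap.coe_comp, LinearMap.coe_restrictScalars, LinearEquiv.coe_coe,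
          Function.comp_apply]
        rw [← c.comm1, he01, c'.comm1, he1])
    exact congrArg (fun f => f y) this

end Family

/-! ### Existence of base change and the induced homomorphism of Picard groups -/

section Exists

variable {R0 R1 R01 : Type u} [CommRing R0] [CommRing R1] [CommRing R01]
  [Algebra R0 R01] [Algebra R1 R01] {t : R0} {s : R1}
variable {R0' R1' R01' : Type u} [CommRing R0'] [CommRing R1'] [CommRing R01']
  [Algebra R0' R01'] [Algebra R1' R01'] {t' : R0'} {s' : R1'}
  [IsLocalization.Away t R01] [IsLocalization.Away s R01]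
  [IsLocalization.Away t' R01'] [IsLocalization.Away s' R01']

/-- The base change of a line diagram along a morphism of families (tensor product model). -/
noncomputable def baseChange (ψ : FamilyHom t s t' s' R01 R01') (N : LineDiag t s R01) :
    LineDiag t' s' R01' :=
  letI : Algebra R0 R0' := ψ.ψ0.toAlgebra
  letI : Algebra R1 R1' := ψ.ψ1.toAlgebra
  letI : Algebra R01 R01' := ψ.ψ01.toAlgebra
  letI : Algebra R0 R01' := (ψ.ψ01.comp (algebraMap R0 R01)).toAlgebra
  letI : Algebra R1 R01' := (ψ.ψ01.comp (algebraMap R1 R01)).toAlgebra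
  haveI : IsScalarTower R0 R01 R01' := IsScalarTower.of_algebraMap_eq (fun _ => rfl)
  haveI : IsScalarTower R0 R0' R01' := IsScalarTower.of_algebraMap_eq (fun r => ψ.comm0 r)
  haveI : IsScalarTower R1 R01 R01' := IsScalarTower.of_algebraMap_eq (fun _ => rfl)
  haveI : IsScalarTower R1 R1' R01' := IsScalarTower.of_algebraMap_eq (fun r => ψ.comm1 r)
  BaseChange33.baseChange R01' t' s' N

/-- The canonical cartesian morphism to the base change. -/
noncomputable def cartHomBaseChange (ψ : FamilyHom t s t' s' R01 R01') (N : LineDiag t s R01) :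
    LineDiag.CartHom ψ N (baseChange ψ N) :=
  letI : Algebra R0 R0' := ψ.ψ0.toAlgebra
  letI : Algebra R1 R1' := ψ.ψ1.toAlgebra
  letI : Algebra R01 R01' := ψ.ψ01.toAlgebra
  letI : Algebra R0 R01' := (ψ.ψ01.comp (algebraMap R0 R01)).toAlgebra
  letI : Algebra R1 R01' := (ψ.ψ01.comp (algebraMap R1 R01)).toAlgebra
  haveI : IsScalarTower R0 R01 R01' := IsScalarTower.of_algebraMap_eq (fun _ => rfl)
  haveI : IsScalarTower R0 R0' R01' := IsScalarTower.of_algebraMap_eq (fun r => ψ.comm0 r)
  haveI : IsScalarTower R1 R01 R01' := IsScalarTower.of_algebraMap_eq (fun _ => rfl)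
  haveI : IsScalarTower R1 R1' R01' := IsScalarTower.of_algebraMap_eq (fun r => ψ.comm1 r)
  { f0 := (toSemilinear R0' (TensorProduct.mk R0 R0' N.M0 1) :
      N.M0 →ₛₗ[algebraMap R0 R0'] R0' ⊗[R0] N.M0)
    f1 := (toSemilinear R1' (TensorProduct.mk R1 R1' N.M1 1) :
      N.M1 →ₛₗ[algebraMap R1 R1'] R1' ⊗[R1] N.M1)
    f01 := (toSemilinear R01' (TensorProduct.mk R01 R01' N.M01 1) :
      N.M01 →ₛₗ[algebraMap R01 R01'] R01' ⊗[R01] N.M01)
    comm0 := fun x => by
      show (1 : R01') ⊗ₜ[R01] N.rho0 x = BaseChange33.baseChangeMap N.rho0 ((1 : R0') ⊗ₜ[R0] x)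
      rw [BaseChange33.baseChangeMap_tmul, map_one]
    comm1 := fun x => by
      show (1 : R01') ⊗ₜ[R01] N.rho1 x = BaseChange33.baseChangeMap N.rho1 ((1 : R1') ⊗ₜ[R1] x)
      rw [BaseChange33.baseChangeMap_tmul, map_one]
    cart0 := isBaseChangeHom_mk R0 R0' N.M0
    cart1 := isBaseChangeHom_mk R1 R1' N.M1
    cart01 := isBaseChangeHom_mk R01 R01' N.M01 }

/-- Existence of base change. -/
theorem exists_cartHom (ψ : FamilyHom t s t' s' R01 R01') (N : LineDiag t s R01) :
    ∃ N' : LineDiag t' s' R01', Nonempty (LineDiag.CartHom ψ N N') :=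
  ⟨baseChange ψ N, ⟨cartHomBaseChange ψ N⟩⟩

theorem nonempty_iso_baseChange_of_cartHom {ψ : FamilyHom t s t' s' R01 R01'}
    {N : LineDiag t s R01} {N' : LineDiag t' s' R01'} (c : LineDiag.CartHom ψ N N') :
    Nonempty (LineDiag.Iso (baseChange ψ N) N') :=
  nonempty_iso_of_cartHom (cartHomBaseChange ψ N) c

theorem nonempty_iso_baseChange_congr (ψ : FamilyHom t s t' s' R01 R01')
    {N P : LineDiag t s R01} (e : LineDiag.Iso N P) :
    Nonempty (LineDiag.Iso (baseChange ψ N) (baseChange ψ P)) :=
  nonempty_iso_of_cartHom (cartHomBaseChange ψ N) (cartHomOfIsoLeft e (cartHomBaseChange ψ P))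

theorem nonempty_iso_baseChange_tensor (ψ : FamilyHom t s t' s' R01 R01')
    (N P : LineDiag t s R01) :
    Nonempty (LineDiag.Iso (baseChange ψ (tensor N P))
      (tensor (baseChange ψ N) (baseChange ψ P))) := by
  letI : Algebra R0 R0' := ψ.ψ0.toAlgebra
  letI : Algebra R1 R1' := ψ.ψ1.toAlgebra
  letI : Algebra R01 R01' := ψ.ψ01.toAlgebra
  letI : Algebra R0 R01' := (ψ.ψ01.comp (algebraMap R0 R01)).toAlgebra
  letI : Algebra R1 R01' := (ψ.ψ01.comp (algebraMap R1 R01)).toAlgebra
  haveI : IsScalarTower R0 R01 R01' := IsScalarTower.of_algebraMap_eq (fun _ => rfl)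
  haveI : IsScalarTower R0 R0' R01' := IsScalarTower.of_algebraMap_eq (fun r => ψ.comm0 r)
  haveI : IsScalarTower R1 R01 R01' := IsScalarTower.of_algebraMap_eq (fun _ => rfl)
  haveI : IsScalarTower R1 R1' R01' := IsScalarTower.of_algebraMap_eq (fun r => ψ.comm1 r)
  exact ⟨BaseChange33.baseChangeTensor R01' t' s' N P⟩

theorem nonempty_iso_baseChange_unit (ψ : FamilyHom t s t' s' R01 R01') :
    Nonempty (LineDiag.Iso (baseChange ψ (LineDiag.unit t s R01)) (LineDiag.unit t' s' R01')) := by
  letI : Algebra R0 R0' := ψ.ψ0.toAlgebra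
  letI : Algebra R1 R1' := ψ.ψ1.toAlgebra
  letI : Algebra R01 R01' := ψ.ψ01.toAlgebra
  letI : Algebra R0 R01' := (ψ.ψ01.comp (algebraMap R0 R01)).toAlgebra
  letI : Algebra R1 R01' := (ψ.ψ01.comp (algebraMap R1 R01)).toAlgebra
  haveI : IsScalarTower R0 R01 R01' := IsScalarTower.of_algebraMap_eq (fun _ => rfl)
  haveI : IsScalarTower R0 R0' R01' := IsScalarTower.of_algebraMap_eq (fun r => ψ.comm0 r)
  haveI : IsScalarTower R1 R01 R01' := IsScalarTower.of_algebraMap_eq (fun _ => rfl)
  haveI : IsScalarTower R1 R1' R01' := IsScalarTower.of_algebraMap_eq (fun r => ψ.comm1 r)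
  exact ⟨BaseChange33.baseChangeUnit R01' t' s'⟩

/-- Base change along a morphism of families, as a homomorphism of Picard groups. -/
noncomputable def baseChangeClass (ψ : FamilyHom t s t' s' R01 R01') :
    LineDiag.Classes t s R01 →* LineDiag.Classes t' s' R01' where
  toFun := Quotient.map (baseChange ψ) (fun _ _ ⟨e⟩ => nonempty_iso_baseChange_congr ψ e)
  map_one' := Quotient.sound (nonempty_iso_baseChange_unit ψ)
  map_mul' a b := by
    induction a using Quotient.inductionOn
    induction b using Quotient.inductionOn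
    exact Quotient.sound (nonempty_iso_baseChange_tensor ψ _ _)

theorem baseChangeClass_cls (ψ : FamilyHom t s t' s' R01 R01') (N : LineDiag t s R01) :
    baseChangeClass ψ (cls N) = cls (baseChange ψ N) := rfl

/-- Characterisation of the base change class: `N'` is a base change of `N`. -/
theorem baseChangeClass_cls_eq_iff (ψ : FamilyHom t s t' s' R01 R01') (N : LineDiag t s R01)
    (N' : LineDiag t' s' R01') :
    baseChangeClass ψ (cls N) = cls N' ↔ Nonempty (LineDiag.CartHom ψ N N') := by
  rw [baseChangeClass_cls, cls_eq_iff]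
  constructor
  · rintro ⟨e⟩
    exact ⟨cartHomOfIso (cartHomBaseChange ψ N) e⟩
  · rintro ⟨c⟩
    exact nonempty_iso_baseChange_of_cartHom c

/-- Tensor products commute with base change. -/
theorem cartHom_tensor {ψ : FamilyHom t s t' s' R01 R01'} {N P : LineDiag t s R01}
    {N' P' : LineDiag t' s' R01'} (c : LineDiag.CartHom ψ N N') (d : LineDiag.CartHom ψ P P') :
    Nonempty (LineDiag.CartHom ψ (tensor N P) (tensor N' P')) := by
  rw [← baseChangeClass_cls_eq_iff, ← cls_mul, map_mul, ← cls_mul,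
    (baseChangeClass_cls_eq_iff ψ N N').mpr ⟨c⟩, (baseChangeClass_cls_eq_iff ψ P P').mpr ⟨d⟩]

/-- The unit diagram is stable under base change. -/
theorem cartHom_unit (ψ : FamilyHom t s t' s' R01 R01') :
    Nonempty (LineDiag.CartHom ψ (LineDiag.unit t s R01) (LineDiag.unit t' s' R01')) := by
  rw [← baseChangeClass_cls_eq_iff, ← cls_one, map_one, cls_one]

/-- Duals commute with base change. -/
theorem cartHom_dual {ψ : FamilyHom t s t' s' R01 R01'} {N : LineDiag t s R01}
    {N' : LineDiag t' s' R01'} (c : LineDiag.CartHom ψ N N') :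
    Nonempty (LineDiag.CartHom ψ (dual N) (dual N')) := by
  rw [← baseChangeClass_cls_eq_iff, ← cls_inv, map_inv, ← cls_inv,
    (baseChangeClass_cls_eq_iff ψ N N').mpr ⟨c⟩]

end Exists

section Functorial

variable {R0 R1 R01 : Type u} [CommRing R0] [CommRing R1] [CommRing R01]
  [Algebra R0 R01] [Algebra R1 R01] {t : R0} {s : R1}
variable {R0' R1' R01' : Type u} [CommRing R0'] [CommRing R1'] [CommRing R01']
  [Algebra R0' R01'] [Algebra R1' R01'] {t' : R0'} {s' : R1'}
variable {R0'' R1'' R01'' : Type u} [CommRing R0''] [CommRing R1''] [CommRing R01'']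
  [Algebra R0'' R01''] [Algebra R1'' R01''] {t'' : R0''} {s'' : R1''}
  [IsLocalization.Away t R01] [IsLocalization.Away s R01]
  [IsLocalization.Away t' R01'] [IsLocalization.Away s' R01']
  [IsLocalization.Away t'' R01''] [IsLocalization.Away s'' R01'']

theorem baseChangeClass_id :
    baseChangeClass (familyHomId t s R01) = MonoidHom.id (LineDiag.Classes t s R01) := by
  ext x
  induction x using Quotient.inductionOn with
  | _ N =>
    change baseChangeClass (familyHomId t s R01) (cls N) = cls N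
    rw [baseChangeClass_cls_eq_iff]
    exact ⟨cartHomId N⟩

theorem baseChangeClass_comp (ψ : FamilyHom t s t' s' R01 R01')
    (ψ' : FamilyHom t' s' t'' s'' R01' R01'') :
    baseChangeClass (familyHomComp ψ ψ') = (baseChangeClass ψ').comp (baseChangeClass ψ) := by
  ext x
  induction x using Quotient.inductionOn with
  | _ N =>
    change baseChangeClass (familyHomComp ψ ψ') (cls N) =
      baseChangeClass ψ' (baseChangeClass ψ (cls N))
    rw [baseChangeClass_cls ψ N, baseChangeClass_cls ψ' (baseChange ψ N),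
      baseChangeClass_cls_eq_iff]
    exact ⟨cartHomComp (cartHomBaseChange ψ N) (cartHomBaseChange ψ' (baseChange ψ N))⟩

end Functorial

/-! ### Rigidifications -/

section Rigid

variable {R0 R1 R01 : Type u} [CommRing R0] [CommRing R1] [CommRing R01]
  [Algebra R0 R01] [Algebra R1 R01] {t : R0} {s : R1}
variable {R0' R1' R01' : Type u} [CommRing R0'] [CommRing R1'] [CommRing R01']
  [Algebra R0' R01'] [Algebra R1' R01'] {t' : R0'} {s' : R1'}
  [IsLocalization.Away t R01] [IsLocalization.Away s R01]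
  [IsLocalization.Away t' R01'] [IsLocalization.Away s' R01']
variable {B B' : Type u} [CommRing B] [CommRing B'] [Algebra R01 B] [Algebra R01' B']

/-- Rigidity is preserved by the canonical base change, for a ring map `β : B → B'` over
`ψ.ψ01`. -/
theorem isRigid_baseChange (ψ : FamilyHom t s t' s' R01 R01') (β : B →+* B')
    (hβ : ∀ r : R01, β (algebraMap R01 B r) = algebraMap R01' B' (ψ.ψ01 r))
    (N : LineDiag t s R01) (h : LineDiag.IsRigid (B := B) N) :
    LineDiag.IsRigid (B := B') (baseChange ψ N) := by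
  letI : Algebra R0 R0' := ψ.ψ0.toAlgebra
  letI : Algebra R1 R1' := ψ.ψ1.toAlgebra
  letI : Algebra R01 R01' := ψ.ψ01.toAlgebra
  letI : Algebra R0 R01' := (ψ.ψ01.comp (algebraMap R0 R01)).toAlgebra
  letI : Algebra R1 R01' := (ψ.ψ01.comp (algebraMap R1 R01)).toAlgebra
  haveI : IsScalarTower R0 R01 R01' := IsScalarTower.of_algebraMap_eq (fun _ => rfl)
  haveI : IsScalarTower R0 R0' R01' := IsScalarTower.of_algebraMap_eq (fun r => ψ.comm0 r)
  haveI : IsScalarTower R1 R01 R01' := IsScalarTower.of_algebraMap_eq (fun _ => rfl)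
  haveI : IsScalarTower R1 R1' R01' := IsScalarTower.of_algebraMap_eq (fun r => ψ.comm1 r)
  letI : Algebra B B' := β.toAlgebra
  letI : Algebra R01 B' := ((algebraMap R01' B').comp ψ.ψ01).toAlgebra
  haveI : IsScalarTower R01 B B' := IsScalarTower.of_algebraMap_eq (fun r => (hβ r).symm)
  haveI : IsScalarTower R01 R01' B' := IsScalarTower.of_algebraMap_eq (fun _ => rfl)
  exact BaseChange33.isRigid_baseChange R01' t' s' N h

/-- Rigidity is preserved by any base change (cartesian morphism of diagrams). -/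
theorem isRigid_of_cartHom {ψ : FamilyHom t s t' s' R01 R01'} (β : B →+* B')
    (hβ : ∀ r : R01, β (algebraMap R01 B r) = algebraMap R01' B' (ψ.ψ01 r))
    {N : LineDiag t s R01} {N' : LineDiag t' s' R01'} (c : LineDiag.CartHom ψ N N')
    (h : LineDiag.IsRigid (B := B) N) : LineDiag.IsRigid (B := B') N' := by
  obtain ⟨e⟩ := nonempty_iso_baseChange_of_cartHom c
  exact LineDiag.IsRigid.of_iso e (isRigid_baseChange ψ β hβ N h)

/-- `baseChangeClass ψ` maps rigid classes to rigid classes. -/
theorem baseChangeClass_mem_rigidSubgroup (ψ : FamilyHom t s t' s' R01 R01') (β : B →+* B')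
    (hβ : ∀ r : R01, β (algebraMap R01 B r) = algebraMap R01' B' (ψ.ψ01 r))
    (x : LineDiag.Classes t s R01) (hx : x ∈ rigidSubgroup (t := t) (s := s) B) :
    baseChangeClass ψ x ∈ rigidSubgroup (t := t') (s := s') B' := by
  induction x using Quotient.inductionOn with
  | _ N =>
    change cls N ∈ _ at hx
    rw [mem_rigidSubgroup_iff] at hx
    change cls (baseChange ψ N) ∈ _
    rw [mem_rigidSubgroup_iff]
    exact isRigid_baseChange ψ β hβ N hx

/-- The homomorphism induced by `baseChangeClass ψ` on the rigid subgroups. -/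
noncomputable def rigidMap (ψ : FamilyHom t s t' s' R01 R01') (β : B →+* B')
    (hβ : ∀ r : R01, β (algebraMap R01 B r) = algebraMap R01' B' (ψ.ψ01 r)) :
    ↥(rigidSubgroup (t := t) (s := s) (R01 := R01) B) →*
      ↥(rigidSubgroup (t := t') (s := s') (R01 := R01') B') :=
  ((baseChangeClass ψ).comp (Subgroup.subtype _)).codRestrict _
    (fun x => baseChangeClass_mem_rigidSubgroup ψ β hβ x.1 x.2)

@[simp]
theorem rigidMap_coe (ψ : FamilyHom t s t' s' R01 R01') (β : B →+* B')
    (hβ : ∀ r : R01, β (algebraMap R01 B r) = algebraMap R01' B' (ψ.ψ01 r))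
    (x : ↥(rigidSubgroup (t := t) (s := s) (R01 := R01) B)) :
    (rigidMap ψ β hβ x : LineDiag.Classes t' s' R01') = baseChangeClass ψ x.1 := rfl

end Rigid

end Fermat.Agent.JAC.Grp.Cart33
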