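/-
Programme JAC (S25), work package A6c, part V: the base change maps `AlgAtlas36.bc ψ` of the
constant family are the fibred base change maps `Cart33.baseChangeClass (familyHom ψ t s)`;
functoriality of `bc`, stability of rigid classes and of degree zero classes.

* general: `semilinearOfEq`, `cartHomOfAlgebra`, `baseChangeHom_eq_baseChangeClass` (the typeclass
  form `BaseChange33.baseChangeHom` agrees with `Cart33.baseChangeClass ψ` as soon as the
  `algebraMap`s are the components of `ψ`);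
* `familyHom_ext`, `familyHom_id`, `familyHom_comp`;
* `bc_eq_baseChangeClass`, `bc_cls_eq_iff`, `bc_id`, `bc_comp`, `bc_bc`;
* `rigHom_comp_map`, `isRigidCl_bc`, `isDegZero_bc`.
-/
import Mathlib
import Fermat.Agent.JAC.Core.AlgAtlas36
import Fermat.Agent.JAC.Grp.Cart33

set_option autoImplicit false
set_option linter.style.haveILetI false
set_option linter.unusedSectionVars false

open TensorProduct

universe u

namespace Fermat.Agent.JAC.Grp.ConstBc33

open Fermat.Agent.JAC.Core.Defs36 Fermat.Agent.JAC.Core.Cart36 Fermat.Agent.JAC.Grp.Diag33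
  Fermat.Agent.JAC.Grp.Cart33

/-! ### Typeclass form versus fibred form -/

section General

variable {R R' : Type u} [CommRing R] [CommRing R']
  {P P' : Type u} [AddCommGroup P] [Module R P] [AddCommGroup P'] [Module R' P']

/-- Change the ring homomorphism of a semilinear map along an equality. -/
def semilinearOfEq {φ φ' : R →+* R'} (h : φ = φ') (θ : P →ₛₗ[φ] P') : P →ₛₗ[φ'] P' where
  toFun := θ
  map_add' := θ.map_add
  map_smul' r x := by subst h; exact θ.map_smulₛₗ r x

@[simp]
theorem semilinearOfEq_apply {φ φ' : R →+* R'} (h : φ = φ') (θ : P →ₛₗ[φ] P') (x : P) :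
    semilinearOfEq h θ x = θ x := rfl

theorem isBaseChangeHom_semilinearOfEq {φ φ' : R →+* R'} (h : φ = φ') {θ : P →ₛₗ[φ] P'}
    (hθ : IsBaseChangeHom θ) : IsBaseChangeHom (semilinearOfEq h θ) := by
  subst h
  exact hθ

variable {R0 R1 R01 : Type u} [CommRing R0] [CommRing R1] [CommRing R01]
  [Algebra R0 R01] [Algebra R1 R01] {t : R0} {s : R1}
variable {R0' R1' R01' : Type u} [CommRing R0'] [CommRing R1'] [CommRing R01']
  [Algebra R0' R01'] [Algebra R1' R01'] {t' : R0'} {s' : R1'}
  [IsLocalization.Away t R01] [IsLocalization.Away s R01]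
  [IsLocalization.Away t' R01'] [IsLocalization.Away s' R01']
  [Algebra R0 R0'] [Algebra R1 R1'] [Algebra R01 R01'] [Algebra R0 R01'] [Algebra R1 R01']
  [IsScalarTower R0 R01 R01'] [IsScalarTower R0 R0' R01']
  [IsScalarTower R1 R01 R01'] [IsScalarTower R1 R1' R01']

/-- The typeclass-form base change `BaseChange33.baseChange` is a base change along any morphism
of families whose components are the `algebraMap`s. -/
noncomputable def cartHomOfAlgebra (ψ : FamilyHom t s t' s' R01 R01')
    (h0 : algebraMap R0 R0' = ψ.ψ0) (h1 : algebraMap R1 R1' = ψ.ψ1)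
    (h01 : algebraMap R01 R01' = ψ.ψ01) (N : LineDiag t s R01) :
    LineDiag.CartHom ψ N (BaseChange33.baseChange R01' t' s' N) where
  f0 := semilinearOfEq h0 (toSemilinear R0' (TensorProduct.mk R0 R0' N.M0 1) :
      N.M0 →ₛₗ[algebraMap R0 R0'] R0' ⊗[R0] N.M0)
  f1 := semilinearOfEq h1 (toSemilinear R1' (TensorProduct.mk R1 R1' N.M1 1) :
      N.M1 →ₛₗ[algebraMap R1 R1'] R1' ⊗[R1] N.M1)
  f01 := semilinearOfEq h01 (toSemilinear R01' (TensorProduct.mk R01 R01' N.M01 1) :
      N.M01 →ₛₗ[algebraMap R01 R01'] R01' ⊗[R01] N.M01)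
  comm0 := fun x => by
    show (1 : R01') ⊗ₜ[R01] N.rho0 x = BaseChange33.baseChangeMap N.rho0 ((1 : R0') ⊗ₜ[R0] x)
    rw [BaseChange33.baseChangeMap_tmul, map_one]
  comm1 := fun x => by
    show (1 : R01') ⊗ₜ[R01] N.rho1 x = BaseChange33.baseChangeMap N.rho1 ((1 : R1') ⊗ₜ[R1] x)
    rw [BaseChange33.baseChangeMap_tmul, map_one]
  cart0 := isBaseChangeHom_semilinearOfEq h0 (isBaseChangeHom_mk R0 R0' N.M0)
  cart1 := isBaseChangeHom_semilinearOfEq h1 (isBaseChangeHom_mk R1 R1' N.M1)
  cart01 := isBaseChangeHom_semilinearOfEq h01 (isBaseChangeHom_mk R01 R01' N.M01)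

/-- The typeclass form and the fibred form of the base change homomorphism agree. -/
theorem baseChangeHom_eq_baseChangeClass (ψ : FamilyHom t s t' s' R01 R01')
    (h0 : algebraMap R0 R0' = ψ.ψ0) (h1 : algebraMap R1 R1' = ψ.ψ1)
    (h01 : algebraMap R01 R01' = ψ.ψ01) :
    BaseChange33.baseChangeHom R01' t' s' = baseChangeClass ψ := by
  ext x
  induction x using Quotient.inductionOn with
  | _ N =>
    change cls (BaseChange33.baseChange R01' t' s' N) = baseChangeClass ψ (cls N)
    exact ((baseChangeClass_cls_eq_iff ψ N _).mpr ⟨cartHomOfAlgebra ψ h0 h1 h01 N⟩).symm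

end General

/-! ### Morphisms of families: extensionality -/

section FamilyExt

variable {R0 R1 R01 : Type u} [CommRing R0] [CommRing R1] [CommRing R01]
  [Algebra R0 R01] [Algebra R1 R01] {t : R0} {s : R1}
variable {R0' R1' R01' : Type u} [CommRing R0'] [CommRing R1'] [CommRing R01']
  [Algebra R0' R01'] [Algebra R1' R01'] {t' : R0'} {s' : R1'}

theorem familyHom_ext {ψ ψ' : FamilyHom t s t' s' R01 R01'} (h0 : ψ.ψ0 = ψ'.ψ0)
    (h1 : ψ.ψ1 = ψ'.ψ1) (h01 : ψ.ψ01 = ψ'.ψ01) : ψ = ψ' := by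
  cases ψ
  cases ψ'
  simp only at h0 h1 h01
  subst h0 h1 h01
  rfl

end FamilyExt

/-! ### The constant family -/

section Const

open scoped Fermat.Agent.JAC.Core.ConstFamily36
open Fermat.Agent.JAC.Core.ConstFamily36 Fermat.Agent.JAC.Core.Degree36
  Fermat.Agent.JAC.Core.AlgAtlas36

variable {k : Type u} [Field k] {A0 A1 A01 : Type u} [CommRing A0] [CommRing A1] [CommRing A01]
  [Algebra k A0] [Algebra k A1] [Algebra k A01] [Algebra A0 A01] [Algebra A1 A01]
  [IsScalarTower k A0 A01] [IsScalarTower k A1 A01] {t : A0} {s : A1}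
  [IsLocalization.Away t A01] [IsLocalization.Away s A01]
  {B B' B'' : Type u} [CommRing B] [CommRing B'] [CommRing B''] [Algebra k B] [Algebra k B']
  [Algebra k B'']

theorem bcMap_self (ψ : B →ₐ[k] B') (A : Type u) [CommRing A] [Algebra k A] :
    bcMap ψ A A = (Algebra.TensorProduct.map ψ (AlgHom.id k A)).toRingHom := rfl

/-- `AlgAtlas36.bc ψ` is the fibred base change along `ConstFamily36.familyHom ψ t s`. -/
theorem bc_eq_baseChangeClass (ψ : B →ₐ[k] B') :
    (bc ψ : Cl k A0 A1 A01 t s B →* Cl k A0 A1 A01 t s B') =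
      baseChangeClass (familyHom ψ t s) := by
  letI : Algebra (B ⊗[k] A0) (B' ⊗[k] A0) := (bcMap ψ A0 A0).toAlgebra
  letI : Algebra (B ⊗[k] A1) (B' ⊗[k] A1) := (bcMap ψ A1 A1).toAlgebra
  letI : Algebra (B ⊗[k] A01) (B' ⊗[k] A01) := (bcMap ψ A01 A01).toAlgebra
  letI : Algebra (B ⊗[k] A0) (B' ⊗[k] A01) := (bcMap ψ A0 A01).toAlgebra
  letI : Algebra (B ⊗[k] A1) (B' ⊗[k] A01) := (bcMap ψ A1 A01).toAlgebra
  haveI : IsScalarTower (B ⊗[k] A0) (B ⊗[k] A01) (B' ⊗[k] A01) :=
    IsScalarTower.of_algebraMap_eq (fun x => by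
      induction x using TensorProduct.induction_on with
      | zero => simp
      | tmul b a => rfl
      | add x y hx hy => simp only [map_add, hx, hy])
  haveI : IsScalarTower (B ⊗[k] A0) (B' ⊗[k] A0) (B' ⊗[k] A01) :=
    IsScalarTower.of_algebraMap_eq (fun x => by
      induction x using TensorProduct.induction_on with
      | zero => simp
      | tmul b a => rfl
      | add x y hx hy => simp only [map_add, hx, hy])
  haveI : IsScalarTower (B ⊗[k] A1) (B ⊗[k] A01) (B' ⊗[k] A01) :=
    IsScalarTower.of_algebraMap_eq (fun x => by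
      induction x using TensorProduct.induction_on with
      | zero => simp
      | tmul b a => rfl
      | add x y hx hy => simp only [map_add, hx, hy])
  haveI : IsScalarTower (B ⊗[k] A1) (B' ⊗[k] A1) (B' ⊗[k] A01) :=
    IsScalarTower.of_algebraMap_eq (fun x => by
      induction x using TensorProduct.induction_on with
      | zero => simp
      | tmul b a => rfl
      | add x y hx hy => simp only [map_add, hx, hy])
  exact baseChangeHom_eq_baseChangeClass (familyHom ψ t s) rfl rfl rfl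

/-- Any model of the base change computes `bc ψ`. -/
theorem bc_cls_eq_iff (ψ : B →ₐ[k] B')
    (N : LineDiag ((1 : B) ⊗ₜ[k] t) ((1 : B) ⊗ₜ[k] s) (B ⊗[k] A01))
    (N' : LineDiag ((1 : B') ⊗ₜ[k] t) ((1 : B') ⊗ₜ[k] s) (B' ⊗[k] A01)) :
    bc ψ (cls N) = cls N' ↔ Nonempty (LineDiag.CartHom (familyHom ψ t s) N N') := by
  rw [bc_eq_baseChangeClass, baseChangeClass_cls_eq_iff]

theorem bc_cls (ψ : B →ₐ[k] B')
    (N : LineDiag ((1 : B) ⊗ₜ[k] t) ((1 : B) ⊗ₜ[k] s) (B ⊗[k] A01)) :
    bc ψ (cls N) = cls (baseChange (familyHom ψ t s) N) := by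
  rw [bc_eq_baseChangeClass, baseChangeClass_cls]

theorem familyHom_id :
    familyHom (AlgHom.id k B) t s =
      familyHomId ((1 : B) ⊗ₜ[k] t) ((1 : B) ⊗ₜ[k] s) (B ⊗[k] A01) := by
  apply familyHom_ext
  · show (Algebra.TensorProduct.map (AlgHom.id k B) (AlgHom.id k A0)).toRingHom = RingHom.id _
    rw [Algebra.TensorProduct.map_id]
    rfl
  · show (Algebra.TensorProduct.map (AlgHom.id k B) (AlgHom.id k A1)).toRingHom = RingHom.id _
    rw [Algebra.TensorProduct.map_id]
    rfl
  · show (Algebra.TensorProduct.map (AlgHom.id k B) (AlgHom.id k A01)).toRingHom = RingHom.id _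
    rw [Algebra.TensorProduct.map_id]
    rfl

theorem map_comp_id (ψ : B →ₐ[k] B') (ψ' : B' →ₐ[k] B'') (A : Type u) [CommRing A]
    [Algebra k A] :
    (Algebra.TensorProduct.map (ψ'.comp ψ) (AlgHom.id k A)).toRingHom =
      (Algebra.TensorProduct.map ψ' (AlgHom.id k A)).toRingHom.comp
        (Algebra.TensorProduct.map ψ (AlgHom.id k A)).toRingHom := by
  refine RingHom.ext fun x => ?_
  induction x using TensorProduct.induction_on with
  | zero => simp
  | tmul b a => simp
  | add x y hx hy => simp only [map_add, hx, hy]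

theorem familyHom_comp (ψ : B →ₐ[k] B') (ψ' : B' →ₐ[k] B'') :
    (familyHom (ψ'.comp ψ) t s : FamilyHom ((1 : B) ⊗ₜ[k] t) ((1 : B) ⊗ₜ[k] s)
        ((1 : B'') ⊗ₜ[k] t) ((1 : B'') ⊗ₜ[k] s) (B ⊗[k] A01) (B'' ⊗[k] A01)) =
      familyHomComp (familyHom ψ t s) (familyHom ψ' t s) :=
  familyHom_ext (map_comp_id ψ ψ' A0) (map_comp_id ψ ψ' A1) (map_comp_id ψ ψ' A01)

/-- `bc` of the identity is the identity. -/
theorem bc_id :
    (bc (AlgHom.id k B) : Cl k A0 A1 A01 t s B →* Cl k A0 A1 A01 t s B) = MonoidHom.id _ := by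
  rw [bc_eq_baseChangeClass, familyHom_id, baseChangeClass_id]

/-- `bc` is compatible with composition. -/
theorem bc_comp (ψ : B →ₐ[k] B') (ψ' : B' →ₐ[k] B'') :
    (bc (ψ'.comp ψ) : Cl k A0 A1 A01 t s B →* Cl k A0 A1 A01 t s B'') =
      (bc ψ').comp (bc ψ) := by
  rw [bc_eq_baseChangeClass, bc_eq_baseChangeClass, bc_eq_baseChangeClass, familyHom_comp,
    baseChangeClass_comp]

theorem bc_bc (ψ : B →ₐ[k] B') (ψ' : B' →ₐ[k] B'') (x : Cl k A0 A1 A01 t s B) :
    bc ψ' (bc ψ x) = bc (ψ'.comp ψ) x := by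
  rw [bc_comp]
  rfl

@[simp]
theorem bc_id_apply (x : Cl k A0 A1 A01 t s B) : bc (AlgHom.id k B) x = x := by
  rw [bc_id]
  rfl

/-- The base point is compatible with change of `B`. -/
theorem rigHom_map (e : A01 →ₐ[k] k) (ψ : B →ₐ[k] B') (r : B ⊗[k] A01) :
    ψ (rigHom B e r) = rigHom B' e ((Algebra.TensorProduct.map ψ (AlgHom.id k A01)) r) := by
  induction r using TensorProduct.induction_on with
  | zero => simp
  | tmul b a => simp
  | add x y hx hy => simp only [map_add, hx, hy]

/-- Rigid classes are stable under base change. -/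
theorem isRigidCl_bc (e : A01 →ₐ[k] k) (ψ : B →ₐ[k] B') (x : Cl k A0 A1 A01 t s B)
    (hx : IsRigidCl e B x) : IsRigidCl e B' (bc ψ x) := by
  rw [bc_eq_baseChangeClass]
  letI := rigAlgebra B e
  letI := rigAlgebra B' e
  exact baseChangeClass_mem_rigidSubgroup (familyHom ψ t s) (ψ : B →+* B')
    (fun r => rigHom_map e ψ r) x hx

/-- Degree zero classes are stable under base change. -/
theorem isDegZero_bc (ψ : B →ₐ[k] B') (x : Cl k A0 A1 A01 t s B)
    (hx : IsDegZero B x) : IsDegZero B' (bc ψ x) := by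
  intro K _ _ _ φ
  rw [bc_bc]
  exact hx K (φ.comp ψ)

end Const

end Fermat.Agent.JAC.Grp.ConstBc33
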