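/-
Programme JAC (S25), chapter Grp.  Owner: helper33.

RIGIDITY IS ZARISKI-LOCAL ON THE BASE: the bricks (G3) and (G5) of `Hilb/ChartSpec24`.

* `isRigid_baseChange_of_equiv` (typeclass form) and `isRigid_baseChange_of_equiv'` (fibred form):
  the base change of a line diagram `N` along `B → B'` is rigid as soon as the invertible
  `B`-module `e^* N = B ⊗[R01] N.M01` becomes free after base change to `B'`.
* `isRigidCl_of_isLocalRing'`: over a local ring (e.g. a field) every class is rigid.
* `exists_away_isRigidCl`: every class over `B` becomes rigid on a basic open neighbourhood of any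
  prime of `B`.
* `g3`, `g5`: the bricks `ChartSpec24.Brick.G3`, `ChartSpec24.Brick.G5`.
-/
import Mathlib
import Fermat.Agent.JAC.Grp.ConstBc33
import Fermat.Agent.JAC.Hilb.ChartSpec24

set_option autoImplicit false
set_option linter.style.haveILetI false

universe u

namespace Fermat.Agent.JAC.Grp.RigidLocal33

open scoped TensorProduct
open Fermat.Agent.JAC.Core.Defs36 Fermat.Agent.JAC.Core.Cart36 Fermat.Agent.JAC.Grp.Diag33
  Fermat.Agent.JAC.Grp.Cart33

/-! ### The typeclass form -/

section Typeclass

variable {R0 R1 R01 : Type u} [CommRing R0] [CommRing R1] [CommRing R01]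
  [Algebra R0 R01] [Algebra R1 R01] {t : R0} {s : R1}
variable {R0' R1' R01' : Type u} [CommRing R0'] [CommRing R1'] [CommRing R01']
  [Algebra R0' R01'] [Algebra R1' R01']
  [Algebra R0 R0'] [Algebra R1 R1'] [Algebra R01 R01'] [Algebra R0 R01'] [Algebra R1 R01']
  [IsScalarTower R0 R01 R01'] [IsScalarTower R0 R0' R01']
  [IsScalarTower R1 R01 R01'] [IsScalarTower R1 R1' R01']
  (t' : R0') (s' : R1')
variable (R01')
variable [IsLocalization.Away t R01] [IsLocalization.Away s R01]
  [IsLocalization.Away t' R01'] [IsLocalization.Away s' R01']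
variable {B B' : Type u} [CommRing B] [CommRing B'] [Algebra R01 B] [Algebra R01' B']
  [Algebra B B'] [Algebra R01 B'] [IsScalarTower R01 B B'] [IsScalarTower R01 R01' B']

/-- The base change of `N` is rigid as soon as `B ⊗[R01] N.M01` becomes free over `B'`. -/
theorem isRigid_baseChange_of_equiv (N : LineDiag t s R01)
    (h : Nonempty (B' ⊗[B] (B ⊗[R01] N.M01) ≃ₗ[B'] B')) :
    LineDiag.IsRigid (B := B') (BaseChange33.baseChange R01' t' s' N) := by
  obtain ⟨e⟩ := h
  exact ⟨TensorProduct.AlgebraTensorModule.cancelBaseChange R01 R01' B' B' N.M01 ≪≫ₗ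
    (TensorProduct.AlgebraTensorModule.cancelBaseChange R01 B B' B' N.M01).symm ≪≫ₗ e⟩

end Typeclass

/-! ### The fibred form -/

section Fibred

variable {R0 R1 R01 : Type u} [CommRing R0] [CommRing R1] [CommRing R01]
  [Algebra R0 R01] [Algebra R1 R01] {t : R0} {s : R1}
variable {R0' R1' R01' : Type u} [CommRing R0'] [CommRing R1'] [CommRing R01']
  [Algebra R0' R01'] [Algebra R1' R01'] {t' : R0'} {s' : R1'}
  [IsLocalization.Away t R01] [IsLocalization.Away s R01]
  [IsLocalization.Away t' R01'] [IsLocalization.Away s' R01']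
variable {B B' : Type u} [CommRing B] [CommRing B'] [Algebra R01 B] [Algebra R01' B']

/-- Fibred form of `isRigid_baseChange_of_equiv`: `B → B'` is a ring map over `ψ.ψ01`. -/
theorem isRigid_baseChange_of_equiv' (ψ : FamilyHom t s t' s' R01 R01') [Algebra B B']
    (hβ : ∀ r : R01, algebraMap B B' (algebraMap R01 B r) = algebraMap R01' B' (ψ.ψ01 r))
    (N : LineDiag t s R01) (h : Nonempty (B' ⊗[B] (B ⊗[R01] N.M01) ≃ₗ[B'] B')) :
    LineDiag.IsRigid (B := B') (baseChange ψ N) := by
  letI : Algebra R0 R0' := ψ.ψ0.toAlgebra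
  letI : Algebra R1 R1' := ψ.ψ1.toAlgebra
  letI : Algebra R01 R01' := ψ.ψ01.toAlgebra
  letI : Algebra R0 R01' := (ψ.ψ01.comp (algebraMap R0 R01)).toAlgebra
  letI : Algebra R1 R01' := (ψ.ψ01.comp (algebraMap R1 R01)).toAlgebra
  haveI : IsScalarTower R0 R01 R01' := IsScalarTower.of_algebraMap_eq (fun _ => rfl)
  haveI : IsScalarTower R0 R0' R01' := IsScalarTower.of_algebraMap_eq (fun r => ψ.comm0 r)
  haveI : IsScalarTower R1 R01 R01' := IsScalarTower.of_algebraMap_eq (fun _ => rfl)
  haveI : IsScalarTower R1 R1' R01' := IsScalarTower.of_algebraMap_eq (fun r => ψ.comm1 r)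
  letI : Algebra R01 B' := ((algebraMap R01' B').comp ψ.ψ01).toAlgebra
  haveI : IsScalarTower R01 B B' := IsScalarTower.of_algebraMap_eq (fun r => (hβ r).symm)
  haveI : IsScalarTower R01 R01' B' := IsScalarTower.of_algebraMap_eq (fun _ => rfl)
  exact isRigid_baseChange_of_equiv R01' t' s' N h

end Fibred

/-! ### Local freeness of invertible modules at a prime -/

section LocFree

variable {R : Type u} [CommRing R] (M : Type u) [AddCommGroup M] [Module R M]

/-- An invertible module is free of rank one on a basic open neighbourhood of any prime. -/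
theorem exists_away_nonempty_equiv [Module.Invertible R M] (p : PrimeSpectrum R) :
    ∃ f : R, f ∉ p.asIdeal ∧
      Nonempty (Localization.Away f ⊗[R] M ≃ₗ[Localization.Away f] Localization.Away f) := by
  obtain ⟨T, hT, h⟩ := Module.Invertible.exists_finset_free_localization R M
  have hex : ∃ f ∈ T, f ∉ p.asIdeal := by
    by_contra hcon
    push Not at hcon
    have : Ideal.span (T : Set R) ≤ p.asIdeal := Ideal.span_le.mpr (fun f hf => hcon f hf)
    rw [hT] at this
    exact p.isPrime.ne_top (top_le_iff.mp this)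
  obtain ⟨f, hfT, hfp⟩ := hex
  refine ⟨f, hfp, ?_⟩
  have hfree := h f hfT
  obtain ⟨e1⟩ := Module.Invertible.free_iff_linearEquiv.1 hfree
  have hbc : IsBaseChange (Localization.Away f)
      (LocalizedModule.mkLinearMap (Submonoid.powers f) M) :=
    IsLocalizedModule.isBaseChange (Submonoid.powers f) (Localization.Away f) _
  exact ⟨hbc.equiv ≪≫ₗ e1⟩

end LocFree

/-! ### The constant family -/

section Const

open scoped Fermat.Agent.JAC.Core.ConstFamily36
open Fermat.Agent.JAC.Core.ConstFamily36 Fermat.Agent.JAC.Core.Degree36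
  Fermat.Agent.JAC.Core.AlgAtlas36 Fermat.Agent.JAC.Grp.ConstBc33
  Fermat.Agent.JAC.Hilb.ChartSpec24

variable {k : Type u} [Field k] {A0 A1 A01 : Type u} [CommRing A0] [CommRing A1] [CommRing A01]
  [Algebra k A0] [Algebra k A1] [Algebra k A01] [Algebra A0 A01] [Algebra A1 A01]
  [IsScalarTower k A0 A01] [IsScalarTower k A1 A01] {t : A0} {s : A1}
  [IsLocalization.Away t A01] [IsLocalization.Away s A01] (e : A01 →ₐ[k] k)

/-- Over a local ring every class is rigid (`Pic B = 1`). -/
theorem isRigidCl_of_isLocalRing' (B : Type u) [CommRing B] [Algebra k B] [IsLocalRing B]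
    (ξ : Cl k A0 A1 A01 t s B) : IsRigidCl e B ξ := by
  letI := rigAlgebra B e
  change ξ ∈ rigidSubgroup (t := (1 : B) ⊗ₜ[k] t) (s := (1 : B) ⊗ₜ[k] s) B
  rw [rigidSubgroup, MonoidHom.mem_ker]
  exact Subsingleton.elim _ _

/-- Every class over `B` becomes rigid on a basic open neighbourhood of any prime of `B`. -/
theorem exists_away_isRigidCl (B : Type u) [CommRing B] [Algebra k B] (p : PrimeSpectrum B)
    (ξ : Cl k A0 A1 A01 t s B) :
    ∃ f : B, f ∉ p.asIdeal ∧ IsRigidCl e (Localization.Away f)
      (bc (IsScalarTower.toAlgHom k B (Localization.Away f)) ξ) := by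
  induction ξ using Quotient.inductionOn with
  | _ N =>
    letI : Algebra (B ⊗[k] A01) B := rigAlgebra B e
    obtain ⟨f, hfp, hf⟩ := exists_away_nonempty_equiv (B ⊗[B ⊗[k] A01] N.M01) p
    refine ⟨f, hfp, ?_⟩
    letI : Algebra ((Localization.Away f) ⊗[k] A01) (Localization.Away f) :=
      rigAlgebra (Localization.Away f) e
    change bc (IsScalarTower.toAlgHom k B (Localization.Away f)) (cls N) ∈
      rigidSubgroup (t := (1 : Localization.Away f) ⊗ₜ[k] t)
        (s := (1 : Localization.Away f) ⊗ₜ[k] s) (Localization.Away f)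
    rw [bc_eq_baseChangeClass, baseChangeClass_cls, mem_rigidSubgroup_iff]
    exact isRigid_baseChange_of_equiv'
      (familyHom (IsScalarTower.toAlgHom k B (Localization.Away f)) t s)
      (fun r => rigHom_map e (IsScalarTower.toAlgHom k B (Localization.Away f)) r) N hf

/-- **Brick (G3)**: rigidity and degree zero are stable under base change; over a field every class
is rigid. -/
theorem g3 : Brick.G3 k A0 A1 A01 t s e :=
  ⟨fun _ _ _ _ _ _ ψ ξ h => isRigidCl_bc e ψ ξ h, fun _ _ _ _ _ _ ψ ξ h => isDegZero_bc ψ ξ h,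
    fun K _ _ ξ => isRigidCl_of_isLocalRing' e K ξ⟩

/-- **Brick (G5)**: every class becomes rigid on a basic open neighbourhood of any prime. -/
theorem g5 : Brick.G5 k A0 A1 A01 t s e :=
  fun B _ _ p ξ => exists_away_isRigidCl e B p ξ

end Const

end Fermat.Agent.JAC.Grp.RigidLocal33
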