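/-
B6.0 (JAC): affine Yoneda lemma for schemes.

A morphism of schemes `W ⟶ X` is the same thing as a natural family of maps on affine points
`(Spec R ⟶ W) → (Spec R ⟶ X)`.  No separatedness, no sheaf hypothesis.
-/
import Mathlib

universe u

open CategoryTheory CategoryTheory.Limits AlgebraicGeometry

namespace Fermat.Agent.JAC.Grp.AffYoneda6

variable {W X : Scheme.{u}}

/-- (Y1) Two morphisms of schemes agreeing on all affine points are equal. -/
theorem hom_ext_of_affine {f g : W ⟶ X}
    (h : ∀ (R : CommRingCat.{u}) (a : Spec R ⟶ W), a ≫ f = a ≫ g) : f = g := by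
  refine W.affineOpenCover.openCover.hom_ext f g fun i => ?_
  exact h _ _

/-- A natural family of maps on affine points. -/
structure AffFamily (W X : Scheme.{u}) where
  /-- the map on `R`-points -/
  app : ∀ (R : CommRingCat.{u}), (Spec R ⟶ W) → (Spec R ⟶ X)
  /-- naturality in `R` -/
  naturality : ∀ {R R' : CommRingCat.{u}} (φ : R ⟶ R') (a : Spec R ⟶ W),
    app R' (Spec.map φ ≫ a) = Spec.map φ ≫ app R a

namespace AffFamily

variable (Φ : AffFamily W X)

/-- Naturality with respect to an arbitrary morphism between spectra. -/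
theorem naturality' {R R' : CommRingCat.{u}} (ψ : Spec R' ⟶ Spec R) (a : Spec R ⟶ W) :
    Φ.app R' (ψ ≫ a) = ψ ≫ Φ.app R a := by
  obtain ⟨φ, rfl⟩ := Spec.map_surjective ψ
  exact Φ.naturality φ a

/-- Key compatibility: two affine points which become equal on a scheme `Z` have images which
become equal on `Z`. -/
theorem comp_app_eq {Z : Scheme.{u}} {R R' : CommRingCat.{u}} (p : Z ⟶ Spec R) (p' : Z ⟶ Spec R')
    (a : Spec R ⟶ W) (a' : Spec R' ⟶ W) (h : p ≫ a = p' ≫ a') :
    p ≫ Φ.app R a = p' ≫ Φ.app R' a' := by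
  refine hom_ext_of_affine fun A c => ?_
  rw [← Category.assoc, ← Category.assoc, ← Φ.naturality', ← Φ.naturality', Category.assoc,
    Category.assoc, h]

/-- The morphism glued from a natural family of maps on affine points. -/
noncomputable def glue : W ⟶ X :=
  W.affineOpenCover.openCover.glueMorphisms
    (fun i => Φ.app (W.affineOpenCover.X i) (W.affineOpenCover.f i))
    (fun _ _ => Φ.comp_app_eq _ _ _ _ pullback.condition)

theorem cover_comp_glue (i : W.affineOpenCover.I₀) :
    W.affineOpenCover.f i ≫ Φ.glue = Φ.app _ (W.affineOpenCover.f i) :=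
  W.affineOpenCover.openCover.ι_glueMorphisms _ _ i

/-- (Y2), existence: the glued morphism induces the given family on affine points. -/
theorem comp_glue {R : CommRingCat.{u}} (a : Spec R ⟶ W) : a ≫ Φ.glue = Φ.app R a := by
  refine Scheme.Cover.hom_ext (W.affineOpenCover.openCover.pullback₁ a) _ _
    fun (i : W.affineOpenCover.I₀) => ?_
  change pullback.fst a (W.affineOpenCover.f i) ≫ a ≫ Φ.glue =
    pullback.fst a (W.affineOpenCover.f i) ≫ Φ.app R a
  rw [← Category.assoc, pullback.condition, Category.assoc, cover_comp_glue]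
  exact (Φ.comp_app_eq _ _ _ _ pullback.condition).symm

/-- (Y2), uniqueness. -/
theorem eq_glue {f : W ⟶ X} (hf : ∀ (R : CommRingCat.{u}) (a : Spec R ⟶ W), a ≫ f = Φ.app R a) :
    f = Φ.glue :=
  hom_ext_of_affine fun R a => (hf R a).trans (Φ.comp_glue a).symm

/-- (Y2) A natural family of maps on affine points comes from a unique morphism of schemes. -/
theorem existsUnique :
    ∃! f : W ⟶ X, ∀ (R : CommRingCat.{u}) (a : Spec R ⟶ W), a ≫ f = Φ.app R a :=
  ⟨Φ.glue, fun _ a => Φ.comp_glue a, fun _ hf => Φ.eq_glue hf⟩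

end AffFamily

/-- The family of maps on affine points induced by a morphism. -/
@[simps]
noncomputable def AffFamily.ofHom (f : W ⟶ X) : AffFamily W X where
  app _ a := a ≫ f
  naturality _ _ := Category.assoc _ _ _

theorem AffFamily.glue_ofHom (f : W ⟶ X) : (AffFamily.ofHom f).glue = f :=
  ((AffFamily.ofHom f).eq_glue fun _ _ => rfl).symm

end Fermat.Agent.JAC.Grp.AffYoneda6
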