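/-
B6.0 (JAC): group objects from group structures on a dense family of test objects.

Abstract category theory: `C` cartesian monoidal, `τ : D → C` a family of test objects such that
morphisms `W ⟶ X` are the same as natural families of maps `(τ d ⟶ W) → (τ d ⟶ X)`.
A natural group structure on the sets `τ d ⟶ X` then makes `X` a group object, and the induced
group structure on `τ d ⟶ X` is the given one.
-/
import Mathlib

universe w v u

open CategoryTheory MonoidalCategory CartesianMonoidalCategory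

namespace Fermat.Agent.JAC.Grp.DenseGrp6

variable {C : Type u} [Category.{v} C] {D : Type w}

/-- A family of test objects `τ d` is *dense* if morphisms of `C` are the same as natural
families of maps on `τ d`-valued points. -/
structure IsDenseFamily (τ : D → C) : Prop where
  hom_ext : ∀ {W X : C} (f g : W ⟶ X), (∀ (d : D) (a : τ d ⟶ W), a ≫ f = a ≫ g) → f = g
  exists_hom : ∀ {W X : C} (Φ : ∀ d, (τ d ⟶ W) → (τ d ⟶ X)),
    (∀ (d d' : D) (f : τ d' ⟶ τ d) (a : τ d ⟶ W), Φ d' (f ≫ a) = f ≫ Φ d a) →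
      ∃ g : W ⟶ X, ∀ (d : D) (a : τ d ⟶ W), a ≫ g = Φ d a

/-- A natural group structure on the `τ d`-valued points of `X`. -/
structure PointGroupData (τ : D → C) (X : C) where
  /-- the group structure on `τ d`-valued points -/
  grp : ∀ d, Group (τ d ⟶ X)
  /-- precomposition is multiplicative -/
  comp_mul : ∀ {d d' : D} (f : τ d' ⟶ τ d) (a b : τ d ⟶ X),
    f ≫ (@HMul.hMul _ _ _ (@instHMul _ (grp d).toMul) a b) =
      @HMul.hMul _ _ _ (@instHMul _ (grp d').toMul) (f ≫ a) (f ≫ b)

namespace PointGroupData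

variable {τ : D → C} {X : C} (G : PointGroupData τ X)

/-- multiplication of points -/
def mul {d : D} (a b : τ d ⟶ X) : τ d ⟶ X := @HMul.hMul _ _ _ (@instHMul _ (G.grp d).toMul) a b

/-- the neutral point -/
def one (d : D) : τ d ⟶ X := @One.one _ (G.grp d).toOne

/-- inverse of a point -/
def inv {d : D} (a : τ d ⟶ X) : τ d ⟶ X := @Inv.inv _ (G.grp d).toInv a

theorem mul_assoc' {d : D} (a b c : τ d ⟶ X) : G.mul (G.mul a b) c = G.mul a (G.mul b c) :=
  @mul_assoc _ (G.grp d).toSemigroup a b c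

theorem one_mul' {d : D} (a : τ d ⟶ X) : G.mul (G.one d) a = a :=
  @one_mul _ (G.grp d).toMulOneClass a

theorem mul_one' {d : D} (a : τ d ⟶ X) : G.mul a (G.one d) = a :=
  @mul_one _ (G.grp d).toMulOneClass a

theorem inv_mul' {d : D} (a : τ d ⟶ X) : G.mul (G.inv a) a = G.one d :=
  @inv_mul_cancel _ (G.grp d) a

theorem mul_inv' {d : D} (a : τ d ⟶ X) : G.mul a (G.inv a) = G.one d :=
  @mul_inv_cancel _ (G.grp d) a

theorem comp_mul' {d d' : D} (f : τ d' ⟶ τ d) (a b : τ d ⟶ X) :
    f ≫ G.mul a b = G.mul (f ≫ a) (f ≫ b) := G.comp_mul f a b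

theorem comp_one' {d d' : D} (f : τ d' ⟶ τ d) : f ≫ G.one d = G.one d' := by
  let _ := G.grp d'
  have h := G.comp_mul' f (G.one d) (G.one d)
  rw [G.one_mul'] at h
  exact (mul_eq_left (a := f ≫ G.one d) (b := f ≫ G.one d)).mp h.symm

theorem comp_inv' {d d' : D} (f : τ d' ⟶ τ d) (a : τ d ⟶ X) :
    f ≫ G.inv a = G.inv (f ≫ a) := by
  let _ := G.grp d'
  have h := G.comp_mul' f (G.inv a) a
  rw [G.inv_mul', G.comp_one'] at h
  exact eq_inv_of_mul_eq_one_left h.symm

end PointGroupData

variable [CartesianMonoidalCategory C] {τ : D → C} {X : C}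

section Construction

variable (hτ : IsDenseFamily τ) (G : PointGroupData τ X)
include hτ

theorem exists_mulHom :
    ∃ m : X ⊗ X ⟶ X, ∀ (d : D) (a : τ d ⟶ X ⊗ X), a ≫ m = G.mul (a ≫ fst X X) (a ≫ snd X X) :=
  hτ.exists_hom (fun _ a => G.mul (a ≫ fst X X) (a ≫ snd X X)) fun _ _ f a => by
    simp only [Category.assoc, G.comp_mul']

theorem exists_oneHom :
    ∃ e : 𝟙_ C ⟶ X, ∀ (d : D) (a : τ d ⟶ 𝟙_ C), a ≫ e = G.one d :=
  hτ.exists_hom (fun d _ => G.one d) fun _ _ f _ => (G.comp_one' f).symm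

omit [CartesianMonoidalCategory C] in
theorem exists_invHom :
    ∃ i : X ⟶ X, ∀ (d : D) (a : τ d ⟶ X), a ≫ i = G.inv a :=
  hτ.exists_hom (fun _ a => G.inv a) fun _ _ f a => (G.comp_inv' f a).symm

/-- The multiplication morphism. -/
noncomputable def mulHom : X ⊗ X ⟶ X := (exists_mulHom hτ G).choose

/-- The unit morphism. -/
noncomputable def oneHom : 𝟙_ C ⟶ X := (exists_oneHom hτ G).choose

/-- The inversion morphism. -/
noncomputable def invHom : X ⟶ X := (exists_invHom hτ G).choose

theorem comp_mulHom {d : D} (a : τ d ⟶ X ⊗ X) :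
    a ≫ mulHom hτ G = G.mul (a ≫ fst X X) (a ≫ snd X X) :=
  (exists_mulHom hτ G).choose_spec d a

theorem comp_oneHom {d : D} (a : τ d ⟶ 𝟙_ C) : a ≫ oneHom hτ G = G.one d :=
  (exists_oneHom hτ G).choose_spec d a

theorem comp_invHom {d : D} (a : τ d ⟶ X) : a ≫ invHom hτ G = G.inv a :=
  (exists_invHom hτ G).choose_spec d a

theorem comp_mulHom' {W : C} {d : D} (p : τ d ⟶ W) (q : W ⟶ X ⊗ X) :
    p ≫ q ≫ mulHom hτ G = G.mul (p ≫ q ≫ fst X X) (p ≫ q ≫ snd X X) := by
  rw [← Category.assoc, comp_mulHom, Category.assoc, Category.assoc]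

theorem comp_oneHom' {W : C} {d : D} (p : τ d ⟶ W) (q : W ⟶ 𝟙_ C) :
    p ≫ q ≫ oneHom hτ G = G.one d := by
  rw [← Category.assoc, comp_oneHom]

theorem comp_invHom' {W : C} {d : D} (p : τ d ⟶ W) (q : W ⟶ X) :
    p ≫ q ≫ invHom hτ G = G.inv (p ≫ q) := by
  rw [← Category.assoc, comp_invHom]

/-- The group object structure on `X` induced by a natural group structure on the points of `X`
with values in a dense family of test objects. -/
@[instance_reducible]
noncomputable def grpObj : GrpObj X where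
  one := oneHom hτ G
  mul := mulHom hτ G
  one_mul := hτ.hom_ext _ _ fun d a => by
    rw [comp_mulHom', whiskerRight_fst, whiskerRight_snd, comp_oneHom', G.one_mul',
      leftUnitor_hom]
  mul_one := hτ.hom_ext _ _ fun d a => by
    rw [comp_mulHom', whiskerLeft_fst, whiskerLeft_snd, comp_oneHom', G.mul_one',
      rightUnitor_hom]
  mul_assoc := hτ.hom_ext _ _ fun d a => by
    have h1 : a ≫ (mulHom hτ G ▷ X) ≫ mulHom hτ G =
        G.mul (G.mul (a ≫ fst _ _ ≫ fst _ _) (a ≫ fst _ _ ≫ snd _ _)) (a ≫ snd _ _) := by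
      rw [comp_mulHom', whiskerRight_fst, whiskerRight_snd, comp_mulHom']
    have h2 : a ≫ (α_ X X X).hom ≫ (X ◁ mulHom hτ G) ≫ mulHom hτ G =
        G.mul (a ≫ fst _ _ ≫ fst _ _) (G.mul (a ≫ fst _ _ ≫ snd _ _) (a ≫ snd _ _)) := by
      rw [← Category.assoc, comp_mulHom', whiskerLeft_fst, whiskerLeft_snd, comp_mulHom']
      simp only [Category.assoc, associator_hom_fst, associator_hom_snd_fst,
        associator_hom_snd_snd]
    rw [h1, h2, G.mul_assoc']
  inv := invHom hτ G
  left_inv := hτ.hom_ext _ _ fun d a => by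
    rw [comp_mulHom', lift_fst, lift_snd, comp_invHom, Category.comp_id,
      G.inv_mul', comp_oneHom']
  right_inv := hτ.hom_ext _ _ fun d a => by
    rw [comp_mulHom', lift_fst, lift_snd, comp_invHom, Category.comp_id,
      G.mul_inv', comp_oneHom']

open MonObj in
/-- The group structure induced by `grpObj` on points with values in test objects is the given
one. -/
theorem grpObj_mul_eq {d : D} (a b : τ d ⟶ X) :
    letI := grpObj hτ G
    a * b = G.mul a b := by
  letI := grpObj hτ G
  change lift a b ≫ mulHom hτ G = _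
  rw [comp_mulHom, lift_fst, lift_snd]

open MonObj in
theorem grpObj_one_eq (d : D) :
    letI := grpObj hτ G
    (1 : τ d ⟶ X) = G.one d := by
  letI := grpObj hτ G
  change toUnit (τ d) ≫ oneHom hτ G = _
  rw [comp_oneHom]

open MonObj in
theorem grpObj_inv_eq {d : D} (a : τ d ⟶ X) :
    letI := grpObj hτ G
    a⁻¹ = G.inv a := by
  letI := grpObj hτ G
  change a ≫ invHom hτ G = _
  rw [comp_invHom]

/-- If all the point groups are commutative, the group object is commutative. -/
theorem isCommMonObj_grpObj [BraidedCategory C]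
    (hcomm : ∀ {d : D} (a b : τ d ⟶ X), G.mul a b = G.mul b a) :
    letI := grpObj hτ G
    IsCommMonObj X := by
  letI := grpObj hτ G
  refine ⟨hτ.hom_ext _ _ fun d a => ?_⟩
  change a ≫ (β_ X X).hom ≫ mulHom hτ G = a ≫ mulHom hτ G
  rw [← Category.assoc, comp_mulHom, comp_mulHom, Category.assoc, Category.assoc,
    braiding_hom_fst, braiding_hom_snd, hcomm]

end Construction

end Fermat.Agent.JAC.Grp.DenseGrp6
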