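/-
B6.0 (JAC): the affine schemes over `S` form a dense family of test objects in `Over S`;
hence a natural group structure on the affine points of `X : Over S` makes `X` a group scheme
over `S`.
-/
import Mathlib
import Fermat.Agent.JAC.Grp.AffYoneda6
import Fermat.Agent.JAC.Grp.DenseGrp6

universe u

open CategoryTheory CategoryTheory.Limits AlgebraicGeometry MonoidalCategory
  CartesianMonoidalCategory

namespace Fermat.Agent.JAC.Grp.OverAff6

open Fermat.Agent.JAC.Grp.AffYoneda6 Fermat.Agent.JAC.Grp.DenseGrp6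

variable (S : Scheme.{u})

/-- The index type of affine schemes over `S`. -/
abbrev AffIdx : Type (u + 1) := Σ R : CommRingCat.{u}, (Spec R ⟶ S)

/-- The family of affine schemes over `S`, as objects of `Over S`. -/
noncomputable abbrev affTest : AffIdx S → Over S := fun d => Over.mk d.2

variable {S}

/-- The affine point of `W : Over S` defined by a morphism `Spec R ⟶ W.left`. -/
noncomputable abbrev pt {W : Over S} {R : CommRingCat.{u}} (a : Spec R ⟶ W.left) :
    affTest S ⟨R, a ≫ W.hom⟩ ⟶ W :=
  Over.homMk a rfl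

theorem eq_pt {W : Over S} {d : AffIdx S} (a : affTest S d ⟶ W) :
    ∃ f : affTest S ⟨d.1, a.left ≫ W.hom⟩ ⟶ affTest S d, f.left = 𝟙 _ ∧ f ≫ a = pt a.left := by
  refine ⟨Over.homMk (𝟙 _) ?_, rfl, ?_⟩
  · simp
  · ext
    simp

/-- (Y1) over `S`: morphisms in `Over S` agreeing on all affine points are equal. -/
theorem over_hom_ext {W X : Over S} (f g : W ⟶ X)
    (h : ∀ (d : AffIdx S) (a : affTest S d ⟶ W), a ≫ f = a ≫ g) : f = g := by
  ext1
  refine hom_ext_of_affine fun R a => ?_
  have := congrArg CommaMorphism.left (h _ (pt a))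
  simpa using this

/-- The absolute natural family attached to a natural family of maps on affine points over `S`. -/
noncomputable def affFamily {W X : Over S} (Φ : ∀ d, (affTest S d ⟶ W) → (affTest S d ⟶ X))
    (hΦ : ∀ (d d' : AffIdx S) (f : affTest S d' ⟶ affTest S d) (a : affTest S d ⟶ W),
      Φ d' (f ≫ a) = f ≫ Φ d a) : AffFamily W.left X.left where
  app R a := (Φ ⟨R, a ≫ W.hom⟩ (pt a)).left
  naturality {R R'} φ a := by
    let f : affTest S ⟨R', (Spec.map φ ≫ a) ≫ W.hom⟩ ⟶ affTest S ⟨R, a ≫ W.hom⟩ :=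
      Over.homMk (Spec.map φ) (by simp)
    have h1 : f ≫ pt a = pt (Spec.map φ ≫ a) := by ext; simp [f]
    have h2 := hΦ _ _ f (pt a)
    rw [h1] at h2
    rw [h2]
    simp [f]

theorem affFamily_app_left {W X : Over S} (Φ : ∀ d, (affTest S d ⟶ W) → (affTest S d ⟶ X))
    (hΦ : ∀ (d d' : AffIdx S) (f : affTest S d' ⟶ affTest S d) (a : affTest S d ⟶ W),
      Φ d' (f ≫ a) = f ≫ Φ d a) {d : AffIdx S} (a : affTest S d ⟶ W) :
    (affFamily Φ hΦ).app d.1 a.left = (Φ d a).left := by
  obtain ⟨f, hf1, hf2⟩ := eq_pt a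
  change (Φ _ (pt a.left)).left = _
  rw [← hf2, hΦ]
  simp [hf1]

/-- (Y2) over `S`: natural families of maps on affine points over `S` come from morphisms. -/
theorem over_exists_hom {W X : Over S} (Φ : ∀ d, (affTest S d ⟶ W) → (affTest S d ⟶ X))
    (hΦ : ∀ (d d' : AffIdx S) (f : affTest S d' ⟶ affTest S d) (a : affTest S d ⟶ W),
      Φ d' (f ≫ a) = f ≫ Φ d a) :
    ∃ g : W ⟶ X, ∀ (d : AffIdx S) (a : affTest S d ⟶ W), a ≫ g = Φ d a := by
  have hw : (affFamily Φ hΦ).glue ≫ X.hom = W.hom := by
    refine hom_ext_of_affine fun R a => ?_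
    rw [← Category.assoc, AffFamily.comp_glue]
    exact Over.w (Φ ⟨R, a ≫ W.hom⟩ (pt a))
  refine ⟨Over.homMk (affFamily Φ hΦ).glue hw, fun d a => ?_⟩
  ext1
  rw [Over.comp_left]
  change a.left ≫ (affFamily Φ hΦ).glue = _
  rw [AffFamily.comp_glue, affFamily_app_left]

/-- The affine schemes over `S` are dense in `Over S`. -/
theorem isDenseFamily_affTest : IsDenseFamily (affTest S) where
  hom_ext := over_hom_ext
  exists_hom := over_exists_hom

/-- A natural group structure on the affine points of `X : Over S`. -/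
abbrev AffGroupData (X : Over S) := PointGroupData (affTest S) X

/-- Constructor: a group structure on `Over.mk t ⟶ X` for every affine `t : Spec R ⟶ S`, with
multiplicative precomposition maps. -/
def AffGroupData.mk' {X : Over S}
    (grp : ∀ (R : CommRingCat.{u}) (t : Spec R ⟶ S), Group (Over.mk t ⟶ X))
    (comp_mul : ∀ {R R' : CommRingCat.{u}} {t : Spec R ⟶ S} {t' : Spec R' ⟶ S}
      (f : Over.mk t' ⟶ Over.mk t) (a b : Over.mk t ⟶ X), f ≫ (a * b) = (f ≫ a) * (f ≫ b)) :
    AffGroupData X where
  grp d := grp d.1 d.2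
  comp_mul f a b := comp_mul f a b

variable {X : Over S}

/-- **Group scheme from affine points.** A natural group structure on the affine points of
`X : Over S` makes `X` a group object of `Over S`. -/
@[instance_reducible]
noncomputable def grpObjOfAffine (G : AffGroupData X) : GrpObj X :=
  grpObj isDenseFamily_affTest G

open MonObj in
/-- On affine points, the group structure induced by `grpObjOfAffine` is the given one. -/
theorem grpObjOfAffine_mul_eq (G : AffGroupData X) {R : CommRingCat.{u}} {t : Spec R ⟶ S}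
    (a b : Over.mk t ⟶ X) :
    letI := grpObjOfAffine G
    a * b = G.mul (d := ⟨R, t⟩) a b :=
  grpObj_mul_eq isDenseFamily_affTest G (d := ⟨R, t⟩) a b

open MonObj in
theorem grpObjOfAffine_one_eq (G : AffGroupData X) {R : CommRingCat.{u}} (t : Spec R ⟶ S) :
    letI := grpObjOfAffine G
    (1 : Over.mk t ⟶ X) = G.one ⟨R, t⟩ :=
  grpObj_one_eq isDenseFamily_affTest G ⟨R, t⟩

open MonObj in
theorem grpObjOfAffine_inv_eq (G : AffGroupData X) {R : CommRingCat.{u}} {t : Spec R ⟶ S}
    (a : Over.mk t ⟶ X) :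
    letI := grpObjOfAffine G
    a⁻¹ = G.inv (d := ⟨R, t⟩) a :=
  grpObj_inv_eq isDenseFamily_affTest G (d := ⟨R, t⟩) a

/-- If the groups of affine points are commutative, the group scheme is commutative. -/
theorem isCommMonObj_grpObjOfAffine (G : AffGroupData X)
    (hcomm : ∀ {d : AffIdx S} (a b : affTest S d ⟶ X), G.mul a b = G.mul b a) :
    letI := grpObjOfAffine G
    IsCommMonObj X :=
  isCommMonObj_grpObj isDenseFamily_affTest G hcomm

end Fermat.Agent.JAC.Grp.OverAff6
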