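/-
B6.0 (JAC): transport of a natural group structure to the points of a representing object.

If the `τ d`-valued points of `X` are in natural bijection with groups `A d`, and the restriction
maps of `A` are multiplicative, then the points of `X` carry a natural group structure
(`PointGroupData`), so that `DenseGrp6.grpObj` applies.
-/
import Mathlib
import Fermat.Agent.JAC.Grp.DenseGrp6

universe w w' v u

open CategoryTheory

namespace Fermat.Agent.JAC.Grp.Transport6

open Fermat.Agent.JAC.Grp.DenseGrp6

variable {C : Type u} [Category.{v} C] {D : Type w} {τ : D → C} {X : C}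

/-- Transport of group structures along natural bijections `e d : (τ d ⟶ X) ≃ A d`.
`res f` is the restriction map `A d → A d'` attached to `f : τ d' ⟶ τ d`. -/
def pointGroupDataOfEquiv (A : D → Type w') [∀ d, Group (A d)]
    (e : ∀ d, (τ d ⟶ X) ≃ A d)
    (res : ∀ {d d' : D}, (τ d' ⟶ τ d) → A d → A d')
    (res_mul : ∀ {d d' : D} (f : τ d' ⟶ τ d) (x y : A d), res f (x * y) = res f x * res f y)
    (e_comp : ∀ {d d' : D} (f : τ d' ⟶ τ d) (a : τ d ⟶ X), e d' (f ≫ a) = res f (e d a)) :
    PointGroupData τ X where
  grp d := (e d).group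
  comp_mul {d d'} f a b := by
    apply (e d').injective
    rw [e_comp]
    change res f (e d ((e d).symm (e d a * e d b))) =
      e d' ((e d').symm (e d' (f ≫ a) * e d' (f ≫ b)))
    rw [Equiv.apply_symm_apply, Equiv.apply_symm_apply, res_mul, e_comp, e_comp]

section

variable (A : D → Type w') [∀ d, Group (A d)]
    (e : ∀ d, (τ d ⟶ X) ≃ A d)
    (res : ∀ {d d' : D}, (τ d' ⟶ τ d) → A d → A d')
    (res_mul : ∀ {d d' : D} (f : τ d' ⟶ τ d) (x y : A d), res f (x * y) = res f x * res f y)
    (e_comp : ∀ {d d' : D} (f : τ d' ⟶ τ d) (a : τ d ⟶ X), e d' (f ≫ a) = res f (e d a))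

theorem pointGroupDataOfEquiv_mul {d : D} (a b : τ d ⟶ X) :
    e d ((pointGroupDataOfEquiv A e res res_mul e_comp).mul a b) = e d a * e d b := by
  change e d ((e d).symm (e d a * e d b)) = _
  rw [Equiv.apply_symm_apply]

theorem pointGroupDataOfEquiv_one (d : D) :
    e d ((pointGroupDataOfEquiv A e res res_mul e_comp).one d) = 1 := by
  change e d ((e d).symm 1) = _
  rw [Equiv.apply_symm_apply]

theorem pointGroupDataOfEquiv_inv {d : D} (a : τ d ⟶ X) :
    e d ((pointGroupDataOfEquiv A e res res_mul e_comp).inv a) = (e d a)⁻¹ := by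
  change e d ((e d).symm (e d a)⁻¹) = _
  rw [Equiv.apply_symm_apply]

theorem pointGroupDataOfEquiv_comm
    (hA : ∀ (d : D) (x y : A d), x * y = y * x) {d : D} (a b : τ d ⟶ X) :
    (pointGroupDataOfEquiv A e res res_mul e_comp).mul a b =
      (pointGroupDataOfEquiv A e res res_mul e_comp).mul b a := by
  apply (e d).injective
  rw [pointGroupDataOfEquiv_mul, pointGroupDataOfEquiv_mul, hA]

end

end Fermat.Agent.JAC.Grp.Transport6
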