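/-
B6.0 (JAC): from an absolute functor of points to a group scheme over `Spec k`.

Input (= output shape of `Repr/Main10.exists_representing_scheme`): a scheme `J` whose affine
points are naturally `F.obj B` for a functor `F : CommRingCat ⥤ Type u`, together with a natural
projection `π : F.obj B → (k ⟶ B)` ("`F` lives over `k`-algebras").
Output: the structure morphism `toBase : J ⟶ Spec k`, the description of the affine points of
`Over.mk toBase`, and, from natural group structures on the fibres of `π`, a group object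
structure on `Over.mk toBase` in `Over (Spec k)`.
-/
import Mathlib
import Fermat.Agent.JAC.Grp.AffYoneda6
import Fermat.Agent.JAC.Grp.OverAff6
import Fermat.Agent.JAC.Grp.Transport6

universe u

open CategoryTheory CategoryTheory.Limits AlgebraicGeometry

namespace Fermat.Agent.JAC.Grp.AbsOver6

open Fermat.Agent.JAC.Grp.AffYoneda6 Fermat.Agent.JAC.Grp.DenseGrp6
  Fermat.Agent.JAC.Grp.OverAff6 Fermat.Agent.JAC.Grp.Transport6

/-- A scheme `J` whose affine points are described by a functor `F` living over `k`-algebras. -/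
structure AbsRep (k : CommRingCat.{u}) (J : Scheme.{u}) (F : CommRingCat.{u} ⥤ Type u) where
  /-- affine points of `J` are elements of `F` -/
  e : ∀ B : CommRingCat.{u}, (Spec B ⟶ J) ≃ F.obj B
  e_comp : ∀ {B B' : CommRingCat.{u}} (ψ : B ⟶ B') (g : Spec B ⟶ J),
    e B' (Spec.map ψ ≫ g) = F.map ψ (e B g)
  /-- the `k`-algebra structure underlying an element of `F` -/
  π : ∀ B : CommRingCat.{u}, F.obj B → (k ⟶ B)
  π_map : ∀ {B B' : CommRingCat.{u}} (ψ : B ⟶ B') (x : F.obj B), π B' (F.map ψ x) = π B x ≫ ψ

namespace AbsRep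

variable {k : CommRingCat.{u}} {J : Scheme.{u}} {F : CommRingCat.{u} ⥤ Type u}
  (r : AbsRep k J F)

/-- The natural family of maps on affine points defining the structure morphism. -/
noncomputable def baseFamily : AffFamily J (Spec k) where
  app B a := Spec.map (r.π B (r.e B a))
  naturality ψ a := by rw [r.e_comp, r.π_map, Spec.map_comp]

/-- The structure morphism `J ⟶ Spec k`. -/
noncomputable def toBase : J ⟶ Spec k := r.baseFamily.glue

theorem comp_toBase {B : CommRingCat.{u}} (a : Spec B ⟶ J) :
    a ≫ r.toBase = Spec.map (r.π B (r.e B a)) :=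
  r.baseFamily.comp_glue a

/-- `J` as a scheme over `Spec k`. -/
noncomputable abbrev overBase : Over (Spec k) := Over.mk r.toBase

/-- The fibre of `F` over a `k`-algebra structure `φ : k ⟶ B`. -/
abbrev Fib (B : CommRingCat.{u}) (φ : k ⟶ B) : Type u := {x : F.obj B // r.π B x = φ}

/-- Functoriality of the fibres. -/
def mapFib {B B' : CommRingCat.{u}} (ψ : B ⟶ B') {φ : k ⟶ B} {φ' : k ⟶ B'} (h : φ ≫ ψ = φ') :
    r.Fib B φ → r.Fib B' φ' :=
  fun x => ⟨F.map ψ x.1, by rw [r.π_map, x.2, h]⟩

/-- The affine points of `J` over `t : Spec B ⟶ Spec k` are the elements of the fibre of `F` over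
the corresponding `k`-algebra structure. -/
noncomputable def ptsEquiv {B : CommRingCat.{u}} (t : Spec B ⟶ Spec k) :
    (Over.mk t ⟶ r.overBase) ≃ r.Fib B (Spec.preimage t) where
  toFun a := ⟨r.e B a.left, by
    apply Spec.map_injective
    rw [← r.comp_toBase, Spec.map_preimage]
    exact Over.w a⟩
  invFun x := Over.homMk ((r.e B).symm x.1) (by
    change (r.e B).symm x.1 ≫ r.toBase = t
    rw [r.comp_toBase, Equiv.apply_symm_apply, x.2, Spec.map_preimage])
  left_inv a := by
    ext1
    simp
  right_inv x := by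
    apply Subtype.ext
    simp

/-- Restriction of fibres along a morphism of affine schemes over `Spec k`. -/
noncomputable def resFib {d d' : AffIdx (Spec k)} (f : affTest (Spec k) d' ⟶ affTest (Spec k) d) :
    r.Fib d.1 (Spec.preimage d.2) → r.Fib d'.1 (Spec.preimage d'.2) :=
  r.mapFib (Spec.preimage f.left) (by
    apply Spec.map_injective
    rw [Spec.map_comp, Spec.map_preimage, Spec.map_preimage, Spec.map_preimage]
    exact Over.w f)

theorem ptsEquiv_comp {d d' : AffIdx (Spec k)} (f : affTest (Spec k) d' ⟶ affTest (Spec k) d)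
    (a : affTest (Spec k) d ⟶ r.overBase) :
    r.ptsEquiv d'.2 (f ≫ a) = r.resFib f (r.ptsEquiv d.2 a) := by
  apply Subtype.ext
  change r.e d'.1 (f.left ≫ a.left) = F.map (Spec.preimage f.left) (r.e d.1 a.left)
  rw [← r.e_comp, Spec.map_preimage]

section Group

variable (grp : ∀ (B : CommRingCat.{u}) (φ : k ⟶ B), Group (r.Fib B φ))
  (map_mul : ∀ {B B' : CommRingCat.{u}} (ψ : B ⟶ B') {φ : k ⟶ B} {φ' : k ⟶ B'}
    (h : φ ≫ ψ = φ') (x y : r.Fib B φ), r.mapFib ψ h (x * y) = r.mapFib ψ h x * r.mapFib ψ h y)

/-- The group structures on the fibres, indexed by affine schemes over `Spec k`. -/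
@[instance_reducible]
noncomputable def fibGroup (d : AffIdx (Spec k)) : Group (r.Fib d.1 (Spec.preimage d.2)) := grp _ _

include map_mul in
theorem resFib_mul {d d' : AffIdx (Spec k)} (f : affTest (Spec k) d' ⟶ affTest (Spec k) d)
    (x y : r.Fib d.1 (Spec.preimage d.2)) :
    letI := r.fibGroup grp
    r.resFib f (x * y) = r.resFib f x * r.resFib f y :=
  map_mul _ _ x y

/-- The natural group structure on the affine points of `J` over `Spec k` transported from the
group structures on the fibres of `F`. -/
noncomputable def affGroupData : AffGroupData r.overBase :=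
  @pointGroupDataOfEquiv _ _ _ (affTest (Spec k)) r.overBase
    (fun d => r.Fib d.1 (Spec.preimage d.2)) (r.fibGroup grp) (fun d => r.ptsEquiv d.2)
    (fun f => r.resFib f) (fun f x y => r.resFib_mul grp map_mul f x y)
    (fun f a => r.ptsEquiv_comp f a)

theorem affGroupData_mul {d : AffIdx (Spec k)} (a b : affTest (Spec k) d ⟶ r.overBase) :
    letI := r.fibGroup grp
    r.ptsEquiv d.2 ((r.affGroupData grp map_mul).mul a b) = r.ptsEquiv d.2 a * r.ptsEquiv d.2 b :=
  @pointGroupDataOfEquiv_mul _ _ _ (affTest (Spec k)) r.overBase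
    (fun d => r.Fib d.1 (Spec.preimage d.2)) (r.fibGroup grp) (fun d => r.ptsEquiv d.2)
    (fun f => r.resFib f) (fun f x y => r.resFib_mul grp map_mul f x y)
    (fun f a => r.ptsEquiv_comp f a) d a b

theorem affGroupData_one (d : AffIdx (Spec k)) :
    letI := r.fibGroup grp
    r.ptsEquiv d.2 ((r.affGroupData grp map_mul).one d) = 1 :=
  @pointGroupDataOfEquiv_one _ _ _ (affTest (Spec k)) r.overBase
    (fun d => r.Fib d.1 (Spec.preimage d.2)) (r.fibGroup grp) (fun d => r.ptsEquiv d.2)
    (fun f => r.resFib f) (fun f x y => r.resFib_mul grp map_mul f x y)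
    (fun f a => r.ptsEquiv_comp f a) d

theorem affGroupData_inv {d : AffIdx (Spec k)} (a : affTest (Spec k) d ⟶ r.overBase) :
    letI := r.fibGroup grp
    r.ptsEquiv d.2 ((r.affGroupData grp map_mul).inv a) = (r.ptsEquiv d.2 a)⁻¹ :=
  @pointGroupDataOfEquiv_inv _ _ _ (affTest (Spec k)) r.overBase
    (fun d => r.Fib d.1 (Spec.preimage d.2)) (r.fibGroup grp) (fun d => r.ptsEquiv d.2)
    (fun f => r.resFib f) (fun f x y => r.resFib_mul grp map_mul f x y)
    (fun f a => r.ptsEquiv_comp f a) d a

/-- **`J` is a group scheme over `Spec k`.** -/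
@[instance_reducible]
noncomputable def grpObj : GrpObj r.overBase := grpObjOfAffine (r.affGroupData grp map_mul)

open MonObj in
/-- The group law on affine points of `J` is the group law of the fibres of `F`. -/
theorem ptsEquiv_mul {B : CommRingCat.{u}} {t : Spec B ⟶ Spec k}
    (a b : Over.mk t ⟶ r.overBase) :
    letI := r.grpObj grp map_mul
    letI := grp B (Spec.preimage t)
    r.ptsEquiv t (a * b) = r.ptsEquiv t a * r.ptsEquiv t b := by
  rw [grpObjOfAffine_mul_eq]
  exact r.affGroupData_mul grp map_mul (d := ⟨B, t⟩) a b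

open MonObj in
theorem ptsEquiv_one {B : CommRingCat.{u}} (t : Spec B ⟶ Spec k) :
    letI := r.grpObj grp map_mul
    letI := grp B (Spec.preimage t)
    r.ptsEquiv t 1 = 1 := by
  rw [grpObjOfAffine_one_eq]
  exact r.affGroupData_one grp map_mul ⟨B, t⟩

open MonObj in
theorem ptsEquiv_inv {B : CommRingCat.{u}} {t : Spec B ⟶ Spec k} (a : Over.mk t ⟶ r.overBase) :
    letI := r.grpObj grp map_mul
    letI := grp B (Spec.preimage t)
    r.ptsEquiv t a⁻¹ = (r.ptsEquiv t a)⁻¹ := by
  rw [grpObjOfAffine_inv_eq]
  exact r.affGroupData_inv grp map_mul (d := ⟨B, t⟩) a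

/-- If the fibres of `F` are commutative groups, `J` is a commutative group scheme. -/
theorem isCommMonObj (hcomm : ∀ (B : CommRingCat.{u}) (φ : k ⟶ B) (x y : r.Fib B φ),
    x * y = y * x) :
    letI := r.grpObj grp map_mul
    IsCommMonObj r.overBase :=
  isCommMonObj_grpObjOfAffine (r.affGroupData grp map_mul) fun {d} a b => by
    apply (r.ptsEquiv d.2).injective
    rw [affGroupData_mul, affGroupData_mul]
    exact hcomm _ _ _ _

end Group

end AbsRep

end Fermat.Agent.JAC.Grp.AbsOver6
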