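/-
B6.0 (JAC): finite sums of morphisms into a commutative monoid (group) object, and their values
on points.  Model-free in the source object `W` (think `W = C^g` with its `g` projections).
-/
import Mathlib

universe v u

open CategoryTheory MonoidalCategory CartesianMonoidalCategory MonObj

namespace Fermat.Agent.JAC.Grp.SumMap6

variable {C : Type u} [Category.{v} C] [CartesianMonoidalCategory C] [BraidedCategory C]
  {G : C} [MonObj G] [IsCommMonObj G]

omit [BraidedCategory C] [IsCommMonObj G] in
/-- Precomposition with `p : T ⟶ W` as a monoid homomorphism `(W ⟶ G) →* (T ⟶ G)`. -/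
def precompHom {T W : C} (p : T ⟶ W) : (W ⟶ G) →* (T ⟶ G) where
  toFun g := p ≫ g
  map_one' := MonObj.comp_one p
  map_mul' g₁ g₂ := MonObj.comp_mul p g₁ g₂

omit [BraidedCategory C] [IsCommMonObj G] in
@[simp]
theorem precompHom_apply {T W : C} (p : T ⟶ W) (g : W ⟶ G) : precompHom p g = p ≫ g := rfl

/-- Precomposition commutes with finite products in `Hom(-, G)`. -/
theorem comp_prod {T W : C} {κ : Type*} (s : Finset κ) (p : T ⟶ W) (g : κ → (W ⟶ G)) :
    p ≫ ∏ i ∈ s, g i = ∏ i ∈ s, p ≫ g i :=
  map_prod (precompHom p) g s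

/-- The sum (written multiplicatively) of the morphisms `q i ≫ f : W ⟶ G`: if `W = Y^n` with
projections `q i`, this is the morphism `(y_1, …, y_n) ↦ f y_1 * ⋯ * f y_n`. -/
def sumMap {W Y : C} {κ : Type*} [Fintype κ] (q : κ → (W ⟶ Y)) (f : Y ⟶ G) : W ⟶ G :=
  ∏ i, q i ≫ f

/-- Value of `sumMap` on a `T`-valued point `p` of `W`: the product of the values of `f` on the
components `p ≫ q i` of `p`. -/
theorem comp_sumMap {T W Y : C} {κ : Type*} [Fintype κ] (p : T ⟶ W) (q : κ → (W ⟶ Y))
    (f : Y ⟶ G) : p ≫ sumMap q f = ∏ i, (p ≫ q i) ≫ f := by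
  simp only [sumMap, comp_prod, Category.assoc]

/-- `sumMap` for the family of all projections from a product-like object, evaluated at the point
with prescribed components. -/
theorem comp_sumMap_of_components {T W Y : C} {κ : Type*} [Fintype κ] (p : T ⟶ W)
    (q : κ → (W ⟶ Y)) (f : Y ⟶ G) (y : κ → (T ⟶ Y)) (hy : ∀ i, p ≫ q i = y i) :
    p ≫ sumMap q f = ∏ i, y i ≫ f := by
  rw [comp_sumMap]
  exact Finset.prod_congr rfl fun i _ => by rw [hy]

/-- Postcomposition with a morphism of monoid objects commutes with `sumMap`. -/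
theorem sumMap_comp {W Y : C} {κ : Type*} [Fintype κ] (q : κ → (W ⟶ Y)) (f : Y ⟶ G)
    {H : C} [MonObj H] [IsCommMonObj H] (h : G ⟶ H) [IsMonHom h] :
    sumMap q f ≫ h = sumMap q (f ≫ h) := by
  simp only [sumMap]
  rw [← IsMonHom.monoidHom_apply (f := h), map_prod]
  simp [IsMonHom.monoidHom_apply, Category.assoc]

end Fermat.Agent.JAC.Grp.SumMap6
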