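/-
B6.0 (JAC): surjectivity from surjectivity on geometric points, and surjectivity of the sum map
`W ⟶ G` when every geometric point of `G` is a sum of `n` geometric points of `Y`.
-/
import Mathlib
import Fermat.Agent.JAC.Grp.SumMap6

universe u

open CategoryTheory CategoryTheory.Limits AlgebraicGeometry MonoidalCategory
  CartesianMonoidalCategory MonObj

namespace Fermat.Agent.JAC.Grp.GeomSurj6

open Fermat.Agent.JAC.Grp.SumMap6

/-- A morphism of schemes which is surjective on `K`-points for every algebraically closed field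
`K` is surjective. -/
theorem surjective_of_forall_geometric_point {X Y : Scheme.{u}} (f : X ⟶ Y)
    (h : ∀ (K : Type u) [Field K] [IsAlgClosed K] (y : Spec (CommRingCat.of K) ⟶ Y),
      ∃ x : Spec (CommRingCat.of K) ⟶ X, x ≫ f = y) : Surjective f := by
  refine ⟨fun y₀ => ?_⟩
  let K := AlgebraicClosure (Y.residueField y₀)
  let y : Spec (CommRingCat.of K) ⟶ Y :=
    Spec.map (CommRingCat.ofHom (algebraMap (Y.residueField y₀) K)) ≫ Y.fromSpecResidueField y₀
  obtain ⟨x, hx⟩ := h K y
  have : Nonempty (Spec (CommRingCat.of K)) := inferInstance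
  obtain ⟨s⟩ := this
  refine ⟨x s, ?_⟩
  have h1 : f (x s) = y s := by
    rw [← hx]
    simp
  rw [h1]
  change (Y.fromSpecResidueField y₀)
    ((Spec.map (CommRingCat.ofHom (algebraMap (Y.residueField y₀) K))) s) = y₀
  exact Scheme.fromSpecResidueField_apply y₀ _

section Sum

variable {S : Scheme.{u}} {Y G W : Over S} [GrpObj G] [IsCommMonObj G]

/-- **Surjectivity of the sum map.** Let `G` be a commutative group scheme over `S`,
`f : Y ⟶ G` a morphism over `S` and `W` an `S`-scheme with morphisms `q i : W ⟶ Y`, `i : κ`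
(think `W = Y^n` with its projections).  Assume that geometric points of `W` with prescribed
components exist, and that every geometric point of `G` is a product of values of `f` at `κ`
geometric points of `Y`.  Then `sumMap q f : W ⟶ G` is surjective. -/
theorem surjective_sumMap {κ : Type*} [Fintype κ] (q : κ → (W ⟶ Y)) (f : Y ⟶ G)
    (hW : ∀ (K : Type u) [Field K] [IsAlgClosed K] (t : Spec (CommRingCat.of K) ⟶ S)
      (y : κ → (Over.mk t ⟶ Y)), ∃ p : Over.mk t ⟶ W, ∀ i, p ≫ q i = y i)
    (hG : ∀ (K : Type u) [Field K] [IsAlgClosed K] (t : Spec (CommRingCat.of K) ⟶ S)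
      (z : Over.mk t ⟶ G), ∃ y : κ → (Over.mk t ⟶ Y), ∏ i, y i ≫ f = z) :
    Surjective (sumMap q f).left := by
  refine surjective_of_forall_geometric_point _ fun K _ _ z₀ => ?_
  let z : Over.mk (z₀ ≫ G.hom) ⟶ G := Over.homMk z₀ rfl
  obtain ⟨y, hy⟩ := hG K (z₀ ≫ G.hom) z
  obtain ⟨p, hp⟩ := hW K (z₀ ≫ G.hom) y
  refine ⟨p.left, ?_⟩
  have h1 : p ≫ sumMap q f = z := by
    rw [comp_sumMap_of_components p q f y hp, hy]
  have := congrArg CommaMorphism.left h1
  simpa [z] using this

end Sum

end Fermat.Agent.JAC.Grp.GeomSurj6
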