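import Mathlib
import Fermat.Prelude.Def_GoodReductionJacobian_RelativeGroupLawKernel

/-!
# JAC (S27 track C4 / MW Div2), helper63: the relative group law of a group scheme

A group object `Over.mk f` of `Over (Spec R)` gives a `RelativeGroupLaw R f` (the structure used
by the frozen statements S26, S27), by Yoneda: `Hom_S(T, A)` is a group, naturally in `T`.
-/

set_option autoImplicit false

universe u

open CategoryTheory CategoryTheory.Limits AlgebraicGeometry NeronModelInfra GoodReductionJacobian
  MonoidalCategory CartesianMonoidalCategory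
open scoped CategoryTheory.MonObj

namespace Fermat.Agent.JAC.Grp.LawOfGrpObj63

noncomputable section

variable {R : Type u} [CommRing R] {A : Scheme.{u}} (f : A ⟶ Spec (CommRingCat.of R))

/-- Precomposition, in `Over`-language. -/
def overOfHom {T T' : Scheme.{u}} {t : T ⟶ Spec (CommRingCat.of R)}
    {t' : T' ⟶ Spec (CommRingCat.of R)} (ψ : T' ⟶ T) (hψ : ψ ≫ t = t') :
    Over.mk t' ⟶ Over.mk t :=
  Over.homMk ψ (by simpa using hψ)

omit f in
theorem toOverHom_comp {T T' : Scheme.{u}} {t : T ⟶ Spec (CommRingCat.of R)}
    {t' : T' ⟶ Spec (CommRingCat.of R)} (ψ : T' ⟶ T) (hψ : ψ ≫ t = t')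
    {f : A ⟶ Spec (CommRingCat.of R)} (x : SchemeHomOver t f) :
    schemeHomOverToOverHom (schemeHomOverComp ψ hψ x) =
      overOfHom ψ hψ ≫ schemeHomOverToOverHom x := by
  ext
  rfl

variable [GrpObj (Over.mk f)]

/-- **The relative group law of a group scheme over `Spec R`.** -/
def lawOfGrpObj : RelativeGroupLaw R f where
  mul t x y := overHomToSchemeHomOver (schemeHomOverToOverHom x * schemeHomOverToOverHom y)
  one t := overHomToSchemeHomOver (1 : Over.mk t ⟶ Over.mk f)
  inv t x := overHomToSchemeHomOver (schemeHomOverToOverHom x)⁻¹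
  mul_assoc t x y z := by
    simp only [schemeHomOverToOverHom_overHomToSchemeHomOver, mul_assoc]
  one_mul t x := by
    simp only [schemeHomOverToOverHom_overHomToSchemeHomOver, one_mul,
      overHomToSchemeHomOver_schemeHomOverToOverHom]
  mul_one t x := by
    simp only [schemeHomOverToOverHom_overHomToSchemeHomOver, mul_one,
      overHomToSchemeHomOver_schemeHomOverToOverHom]
  inv_mul_cancel t x := by
    simp only [schemeHomOverToOverHom_overHomToSchemeHomOver, inv_mul_cancel]
  mul_natural t t' ψ hψ x y := by
    apply (schemeHomOverEquivOverHom t' f).injective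
    simp only [schemeHomOverEquivOverHom_apply, toOverHom_comp,
      schemeHomOverToOverHom_overHomToSchemeHomOver, MonObj.comp_mul]

@[simp]
theorem toOverHom_mul {T : Scheme.{u}} (t : T ⟶ Spec (CommRingCat.of R))
    (x y : SchemeHomOver t f) :
    schemeHomOverToOverHom ((lawOfGrpObj f).mul t x y) =
      schemeHomOverToOverHom x * schemeHomOverToOverHom y :=
  schemeHomOverToOverHom_overHomToSchemeHomOver _

@[simp]
theorem toOverHom_one {T : Scheme.{u}} (t : T ⟶ Spec (CommRingCat.of R)) :
    schemeHomOverToOverHom ((lawOfGrpObj f).one t) = 1 :=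
  schemeHomOverToOverHom_overHomToSchemeHomOver _

@[simp]
theorem toOverHom_inv {T : Scheme.{u}} (t : T ⟶ Spec (CommRingCat.of R))
    (x : SchemeHomOver t f) :
    schemeHomOverToOverHom ((lawOfGrpObj f).inv t x) = (schemeHomOverToOverHom x)⁻¹ :=
  schemeHomOverToOverHom_overHomToSchemeHomOver _

/-- The points of `lawOfGrpObj f` over `t`, with their group structure, are the Yoneda group. -/
def pointsMulEquiv {T : Scheme.{u}} (t : T ⟶ Spec (CommRingCat.of R)) :
    letI := (lawOfGrpObj f).pointGroup t
    SchemeHomOver t f ≃* (Over.mk t ⟶ Over.mk f) :=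
  letI := (lawOfGrpObj f).pointGroup t
  { schemeHomOverEquivOverHom t f with
    map_mul' := fun x y => toOverHom_mul f t x y }

theorem isCommutative [IsCommMonObj (Over.mk f)] : (lawOfGrpObj f).IsCommutative := by
  intro T t x y
  apply (schemeHomOverEquivOverHom t f).injective
  simp only [schemeHomOverEquivOverHom_apply, toOverHom_mul]
  exact mul_comm _ _

/-- `nsmul` of the relative group law is the power in the Yoneda group. -/
theorem toOverHom_nsmul {T : Scheme.{u}} (t : T ⟶ Spec (CommRingCat.of R)) (n : ℕ)
    (x : SchemeHomOver t f) :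
    schemeHomOverToOverHom ((lawOfGrpObj f).nsmul t n x) = schemeHomOverToOverHom x ^ n := by
  induction n with
  | zero => rw [RelativeGroupLaw.nsmul_zero, toOverHom_one, pow_zero]
  | succ n ih =>
    rw [RelativeGroupLaw.nsmul_succ, toOverHom_mul, ih, pow_succ]

end

end Fermat.Agent.JAC.Grp.LawOfGrpObj63
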