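import Mathlib
import Fermat.Prelude.Def_JacJ1Iface
import Fermat.Agent.JAC.Grp.LawOfGrpObj63
import Fermat.Agent.JAC.AV.Divisible66

/-!
# JAC (S27 track C4 / MW Div2), helper63: a smooth proper connected commutative group scheme over
an algebraically closed field has divisible groups of rational points

Input: `GrpObj (Over.mk f)` + `IsCommMonObj` (e.g. the Jacobian `jacRep` of `S25Assembly10`),
`Smooth f`, `IsProper f`, `ConnectedSpace J`.  Output: `AbelianSchemePropertyBundle K f` and
`∀ z : J(K), ∃ y, y ^ n = z` for `(n : K) ≠ 0`, in the Yoneda group `Over.mk (𝟙 _) ⟶ Over.mk f`.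
-/

set_option autoImplicit false

universe u

open CategoryTheory CategoryTheory.Limits AlgebraicGeometry NeronModelInfra GoodReductionJacobian
  MonoidalCategory CartesianMonoidalCategory
open scoped CategoryTheory.MonObj

namespace Fermat.Agent.JAC.Grp.AbelianOfGrpObj63

open Fermat.Agent.JAC.Grp.LawOfGrpObj63 Fermat.Agent.JAC.AV.Points66

noncomputable section

variable {K : Type u} [Field K] {J : Scheme.{u}} (f : J ⟶ Spec (CommRingCat.of K))

/-- A smooth, proper, connected group scheme over a field is an "abelian scheme" in the sense of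
the Prelude bundle. -/
theorem abelianSchemePropertyBundle [GrpObj (Over.mk f)] (hsm : Smooth f) (hpr : IsProper f)
    [ConnectedSpace J] : AbelianSchemePropertyBundle K f where
  smooth := hsm
  proper := hpr
  connectedFibres s := by
    have h : f.base ⁻¹' {s} = Set.univ := by
      ext x
      simp only [Set.mem_preimage, Set.mem_singleton_iff, Set.mem_univ, iff_true]
      exact Subsingleton.elim _ _
    rw [h]
    exact isConnected_univ
  hasGroupLaw := ⟨lawOfGrpObj f⟩

omit f in
theorem specStr_self : specStr K K = 𝟙 (Spec (CommRingCat.of K)) := by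
  unfold specStr
  rw [Algebra.algebraMap_self]
  exact Spec.map_id _

variable [GrpObj (Over.mk f)] [IsCommMonObj (Over.mk f)]

/-- Divisibility of the group of `K`-points, over the structure map `specStr K K`. -/
theorem exists_pow_eq_specStr [IsAlgClosed K] (hsm : Smooth f) (hpr : IsProper f)
    [ConnectedSpace J] (n : ℕ) (hn : (n : K) ≠ 0)
    (z : Over.mk (specStr K K) ⟶ Over.mk f) :
    ∃ y : Over.mk (specStr K K) ⟶ Over.mk f, y ^ n = z := by
  let L := lawOfGrpObj f
  have h1 : ∀ (x : PtG L K) (m : ℕ),
      (x ^ m : PtG L K) = L.nsmul (specStr K K) m (x : SchemeHomOver (specStr K K) f) := by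
    intro x m
    induction m with
    | zero => rw [pow_zero]; rfl
    | succ m ih => rw [pow_succ, ih]; rfl
  obtain ⟨x, hx⟩ := Fermat.Agent.JAC.AV.Divisible66.exists_pow_eq L (isCommutative f)
    (abelianSchemePropertyBundle f hsm hpr) n hn (overHomToSchemeHomOver z : PtG L K)
  let x' : SchemeHomOver (specStr K K) f := x
  refine ⟨schemeHomOverToOverHom x', ?_⟩
  have h2 : L.nsmul (specStr K K) n x' = overHomToSchemeHomOver z := (h1 x n).symm.trans hx
  rw [← toOverHom_nsmul, h2]
  exact schemeHomOverToOverHom_overHomToSchemeHomOver z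

/-- **Divisibility of `J(K)`** for a smooth proper connected commutative group scheme over an
algebraically closed field, `(n : K) ≠ 0`, in the Yoneda group of sections. -/
theorem exists_pow_eq_of_grpObj [IsAlgClosed K] (hsm : Smooth f) (hpr : IsProper f)
    [ConnectedSpace J] (n : ℕ) (hn : (n : K) ≠ 0)
    (z : Over.mk (𝟙 (Spec (CommRingCat.of K))) ⟶ Over.mk f) :
    ∃ y : Over.mk (𝟙 (Spec (CommRingCat.of K))) ⟶ Over.mk f, y ^ n = z := by
  have key : ∀ (t : Spec (CommRingCat.of K) ⟶ Spec (CommRingCat.of K)), t = specStr K K →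
      ∀ z : Over.mk t ⟶ Over.mk f, ∃ y : Over.mk t ⟶ Over.mk f, y ^ n = z := by
    intro t ht
    subst ht
    exact exists_pow_eq_specStr f hsm hpr n hn
  exact key _ specStr_self.symm z

end

end Fermat.Agent.JAC.Grp.AbelianOfGrpObj63
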