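/-
Programme JAC (S25), work package A6c, part VI: constant diagrams and the rigidification
retraction (requested in JAC COORD #5, item 4(ii)).

Setting: a two-chart family `(R0 → R01 ← R1; t, s)` of algebras over a base ring `B`.

* `constDiag B t s R01 Q`: the constant diagram `R0 ⊗[B] Q → R01 ⊗[B] Q ← R1 ⊗[B] Q` of an invertible
  `B`-module `Q` (pull-back of `Q` along `C_B → Spec B`); `constDiagCongr`, `constDiagTensor`,
  `constDiagUnit`;
* `piStar : Pic B →* LineDiag.Classes t s R01`, `piStar_mk`;
* for a section `R01 → B` (`[Algebra R01 B] [IsScalarTower B R01 B]`):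
  `eStar : LineDiag.Classes t s R01 →* Pic B`, `ker_eStar : eStar.ker = rigidSubgroup B`,
  `eStar_piStar : eStar (piStar y) = y`;
* `rigidify : LineDiag.Classes t s R01 →* LineDiag.Classes t s R01`, `x ↦ x * (piStar (eStar x))⁻¹`:
  `rigidify_mem`, `rigidify_of_mem`, `rigidify_rigidify`, `rigidify_piStar`,
  `rigidify_eq_self` (if `Pic B` is trivial), `range_rigidify`.
-/
import Mathlib
import Fermat.Agent.JAC.Core.Defs36
import Fermat.Agent.JAC.Grp.Diag33
import Fermat.Agent.JAC.Grp.BaseChange33

set_option autoImplicit false
set_option linter.style.haveILetI false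
set_option linter.unusedSectionVars false

open TensorProduct

universe u

namespace Fermat.Agent.JAC.Grp.Rigidify33

open Fermat.Agent.JAC.Core.Defs36 Fermat.Agent.JAC.Grp.LocTensor33 Fermat.Agent.JAC.Grp.Diag33
open CommRing

attribute [local instance] Fermat.Agent.JAC.Grp.BaseChange33.smulCommClass_of_algebra

section Const

variable {B R0 R1 : Type u} [CommRing B] [CommRing R0] [CommRing R1]
  [Algebra B R0] [Algebra B R1] (t : R0) (s : R1)
  (R01 : Type u) [CommRing R01] [Algebra B R01] [Algebra R0 R01] [Algebra R1 R01]
  [IsScalarTower B R0 R01] [IsScalarTower B R1 R01]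

section Map

variable {T : Type u} [CommRing T] [Algebra B T] (T' : Type u) [CommRing T'] [Algebra B T']
  [Algebra T T'] [IsScalarTower B T T']
  (Q : Type u) [AddCommGroup Q] [Module B Q]

/-- The map `T ⊗[B] Q → T' ⊗[B] Q`, `x ⊗ q ↦ algebraMap T T' x ⊗ q`. -/
noncomputable def constMap : T ⊗[B] Q →ₗ[T] T' ⊗[B] Q :=
  TensorProduct.AlgebraTensorModule.map (Algebra.linearMap T T') (LinearMap.id : Q →ₗ[B] Q)

@[simp]
theorem constMap_tmul (x : T) (q : Q) :
    constMap T' Q (x ⊗ₜ[B] q) = algebraMap T T' x ⊗ₜ[B] q := rfl

theorem isBaseChange_constMap : IsBaseChange T' (constMap (B := B) (T := T) T' Q) := by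
  refine IsBaseChange.of_equiv
    (TensorProduct.AlgebraTensorModule.cancelBaseChange B T T' T' Q) ?_
  intro x
  induction x using TensorProduct.induction_on with
  | zero => simp
  | tmul x q => simp [Algebra.smul_def]
  | add x y hx hy => rw [TensorProduct.tmul_add, map_add, hx, hy, map_add]

theorem isLocalizedModule_constMap (S : Submonoid T) [IsLocalization S T'] :
    IsLocalizedModule S (constMap (B := B) (T := T) T' Q) :=
  (isLocalizedModule_iff_isBaseChange S T' _).mpr (isBaseChange_constMap T' Q)

theorem congr_constMap {Q' : Type u} [AddCommGroup Q'] [Module B Q'] (e : Q ≃ₗ[B] Q')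
    (z : T ⊗[B] Q) :
    LinearEquiv.baseChange B T' Q Q' e (constMap T' Q z) =
      constMap T' Q' (LinearEquiv.baseChange B T Q Q' e z) := by
  induction z using TensorProduct.induction_on with
  | zero => simp
  | tmul x q => simp
  | add x y hx hy => simp only [map_add, hx, hy]

theorem distrib_constMap (Q' : Type u) [AddCommGroup Q'] [Module B Q']
    (z : T ⊗[B] (Q ⊗[B] Q')) :
    TensorProduct.AlgebraTensorModule.distribBaseChange B T' Q Q' (constMap T' (Q ⊗[B] Q') z) =
      tensorMap T' (constMap (B := B) (T := T) T' Q) (constMap (B := B) (T := T) T' Q')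
        (TensorProduct.AlgebraTensorModule.distribBaseChange B T Q Q' z) := by
  induction z using TensorProduct.induction_on with
  | zero => simp
  | tmul x y =>
    induction y using TensorProduct.induction_on with
    | zero => simp
    | tmul m n => simp [TensorProduct.AlgebraTensorModule.distribBaseChange_tmul]
    | add y y' hy hy' => simp only [TensorProduct.tmul_add, map_add, hy, hy']
  | add x y hx hy => simp only [map_add, hx, hy]

theorem rid_constMap (z : T ⊗[B] B) :
    TensorProduct.AlgebraTensorModule.rid B T' T' (constMap T' B z) =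
      Algebra.linearMap T T' (TensorProduct.AlgebraTensorModule.rid B T T z) := by
  induction z using TensorProduct.induction_on with
  | zero => simp
  | tmul x b =>
    simp only [constMap_tmul, TensorProduct.AlgebraTensorModule.rid_tmul, Algebra.linearMap_apply,
      Algebra.smul_def, map_mul]
    rw [← IsScalarTower.algebraMap_apply B T T']
  | add x y hx hy => simp only [map_add, hx, hy]

end Map

variable [IsLocalization.Away t R01] [IsLocalization.Away s R01]

variable (B) in
/-- The constant line diagram attached to an invertible module over the base ring. -/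
noncomputable def constDiag (Q : Type u) [AddCommGroup Q] [Module B Q] [Module.Invertible B Q] :
    LineDiag t s R01 where
  M0 := R0 ⊗[B] Q
  M1 := R1 ⊗[B] Q
  M01 := R01 ⊗[B] Q
  rho0 := constMap R01 Q
  rho1 := constMap R01 Q
  isLocalizedModule0 := isLocalizedModule_constMap R01 Q (Submonoid.powers t)
  isLocalizedModule1 := isLocalizedModule_constMap R01 Q (Submonoid.powers s)

variable {t s R01}

/-- Functoriality of constant diagrams in the module. -/
noncomputable def constDiagCongr {Q Q' : Type u} [AddCommGroup Q] [Module B Q]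
    [Module.Invertible B Q] [AddCommGroup Q'] [Module B Q'] [Module.Invertible B Q']
    (e : Q ≃ₗ[B] Q') : LineDiag.Iso (constDiag B t s R01 Q) (constDiag B t s R01 Q') where
  e0 := LinearEquiv.baseChange B R0 Q Q' e
  e1 := LinearEquiv.baseChange B R1 Q Q' e
  e01 := LinearEquiv.baseChange B R01 Q Q' e
  comm0 := congr_constMap (T := R0) R01 Q e
  comm1 := congr_constMap (T := R1) R01 Q e

/-- Constant diagrams are compatible with tensor products. -/
noncomputable def constDiagTensor (Q Q' : Type u) [AddCommGroup Q] [Module B Q]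
    [Module.Invertible B Q] [AddCommGroup Q'] [Module B Q'] [Module.Invertible B Q'] :
    LineDiag.Iso (constDiag B t s R01 (Q ⊗[B] Q'))
      (tensor (constDiag B t s R01 Q) (constDiag B t s R01 Q')) where
  e0 := TensorProduct.AlgebraTensorModule.distribBaseChange B R0 Q Q'
  e1 := TensorProduct.AlgebraTensorModule.distribBaseChange B R1 Q Q'
  e01 := TensorProduct.AlgebraTensorModule.distribBaseChange B R01 Q Q'
  comm0 := distrib_constMap (T := R0) R01 Q Q'
  comm1 := distrib_constMap (T := R1) R01 Q Q'

variable (B t s R01) in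
/-- The constant diagram of the base ring is the unit diagram. -/
noncomputable def constDiagUnit :
    LineDiag.Iso (constDiag B t s R01 B) (LineDiag.unit t s R01) where
  e0 := (TensorProduct.AlgebraTensorModule.rid B R0 R0 : R0 ⊗[B] B ≃ₗ[R0] R0)
  e1 := (TensorProduct.AlgebraTensorModule.rid B R1 R1 : R1 ⊗[B] B ≃ₗ[R1] R1)
  e01 := (TensorProduct.AlgebraTensorModule.rid B R01 R01 : R01 ⊗[B] B ≃ₗ[R01] R01)
  comm0 := rid_constMap (B := B) (T := R0) R01
  comm1 := rid_constMap (B := B) (T := R1) R01

/-! ### Pull-back from the base: `piStar` -/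

variable (B t s R01) in
/-- Pull-back of line bundles from the base: the class of the constant diagram. -/
noncomputable def piStar : Pic B →* LineDiag.Classes t s R01 where
  toFun y := cls (constDiag B t s R01 y)
  map_one' := by
    obtain ⟨e⟩ := Pic.mk_eq_one_iff.mp (Pic.mk_eq_self (R := B) (M := (1 : Pic B)))
    exact cls_eq_iff.mpr ⟨(constDiagCongr e).trans (constDiagUnit B t s R01)⟩
  map_mul' y z := by
    obtain ⟨e⟩ := Pic.mk_eq_iff.mp (Pic.mul_eq_tensor y z).symm
    rw [cls_mul]
    exact cls_eq_iff.mpr ⟨(constDiagCongr e.symm).trans (constDiagTensor y z)⟩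

theorem piStar_apply (y : Pic B) : piStar B t s R01 y = cls (constDiag B t s R01 y) := rfl

theorem piStar_mk (Q : Type u) [AddCommGroup Q] [Module B Q] [Module.Invertible B Q] :
    piStar B t s R01 (Pic.mk B Q) = cls (constDiag B t s R01 Q) :=
  cls_eq_iff.mpr ⟨constDiagCongr (Pic.mk.linearEquiv B Q)⟩

theorem toPic01_piStar (y : Pic B) :
    toPic01 (piStar B t s R01 y) = Pic.mapAlgebra B R01 y := rfl

theorem toPic0_piStar (y : Pic B) :
    toPic0 (piStar B t s R01 y) = Pic.mapAlgebra B R0 y := rfl

theorem toPic1_piStar (y : Pic B) :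
    toPic1 (piStar B t s R01 y) = Pic.mapAlgebra B R1 y := rfl

/-! ### Restriction to the section: `eStar`, and the retraction `rigidify` -/

section Section

variable [Algebra R01 B]

variable (B t s R01) in
/-- Pull-back of a line diagram along the section `R01 → B`. -/
noncomputable def eStar : LineDiag.Classes t s R01 →* Pic B :=
  (Pic.mapAlgebra R01 B).comp toPic01

theorem eStar_cls (N : LineDiag t s R01) :
    eStar B t s R01 (cls N) = Pic.mk B (B ⊗[R01] N.M01) := by
  rw [eStar, MonoidHom.comp_apply, toPic01_cls, Pic.mapAlgebra_apply]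
  exact Pic.mk_eq_mk_iff.mpr ⟨TensorProduct.AlgebraTensorModule.congr (LinearEquiv.refl B B)
    (Pic.mk.linearEquiv R01 N.M01)⟩

theorem ker_eStar : (eStar B t s R01).ker = rigidSubgroup (t := t) (s := s) (R01 := R01) B := rfl

theorem mem_rigidSubgroup_iff_eStar (x : LineDiag.Classes t s R01) :
    x ∈ rigidSubgroup (t := t) (s := s) (R01 := R01) B ↔ eStar B t s R01 x = 1 := Iff.rfl

variable [IsScalarTower B R01 B]

/-- `e ∘ π = id`: restricting a constant diagram to the section gives back the module. -/
theorem eStar_piStar (y : Pic B) : eStar B t s R01 (piStar B t s R01 y) = y := by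
  rw [eStar, MonoidHom.comp_apply, toPic01_piStar, Pic.mapAlgebra_mapAlgebra,
    Pic.mapAlgebra_self_apply]

theorem piStar_injective : Function.Injective (piStar B t s R01) :=
  Function.LeftInverse.injective (g := eStar B t s R01) eStar_piStar

variable (B t s R01) in
/-- The rigidification retraction `x ↦ x * π^*(e^* x)⁻¹` onto the rigid classes. -/
noncomputable def rigidify : LineDiag.Classes t s R01 →* LineDiag.Classes t s R01 :=
  MonoidHom.id _ * ((piStar B t s R01).comp (eStar B t s R01))⁻¹

theorem rigidify_apply (x : LineDiag.Classes t s R01) :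
    rigidify B t s R01 x = x * (piStar B t s R01 (eStar B t s R01 x))⁻¹ := rfl

theorem eStar_rigidify (x : LineDiag.Classes t s R01) :
    eStar B t s R01 (rigidify B t s R01 x) = 1 := by
  rw [rigidify_apply, map_mul, map_inv, eStar_piStar, mul_inv_cancel]

/-- `rigidify` takes values in the rigid classes. -/
theorem rigidify_mem (x : LineDiag.Classes t s R01) :
    rigidify B t s R01 x ∈ rigidSubgroup (t := t) (s := s) (R01 := R01) B :=
  eStar_rigidify x

/-- `rigidify` is the identity on rigid classes. -/
theorem rigidify_of_mem {x : LineDiag.Classes t s R01}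
    (hx : x ∈ rigidSubgroup (t := t) (s := s) (R01 := R01) B) : rigidify B t s R01 x = x := by
  rw [rigidify_apply, (mem_rigidSubgroup_iff_eStar x).mp hx, map_one, inv_one, mul_one]

theorem rigidify_rigidify (x : LineDiag.Classes t s R01) :
    rigidify B t s R01 (rigidify B t s R01 x) = rigidify B t s R01 x :=
  rigidify_of_mem (rigidify_mem x)

/-- `rigidify` kills the classes pulled back from the base. -/
theorem rigidify_piStar (y : Pic B) : rigidify B t s R01 (piStar B t s R01 y) = 1 := by
  rw [rigidify_apply, eStar_piStar, mul_inv_cancel]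

theorem rigidify_eq_one_iff (x : LineDiag.Classes t s R01) :
    rigidify B t s R01 x = 1 ↔ x ∈ (piStar B t s R01).range := by
  constructor
  · intro h
    rw [rigidify_apply, mul_inv_eq_one] at h
    exact ⟨_, h.symm⟩
  · rintro ⟨y, rfl⟩
    exact rigidify_piStar y

/-- Every class is the product of a rigid class and a class pulled back from the base. -/
theorem mul_piStar_eStar (x : LineDiag.Classes t s R01) :
    rigidify B t s R01 x * piStar B t s R01 (eStar B t s R01 x) = x := by
  rw [rigidify_apply, inv_mul_cancel_right]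

/-- If the Picard group of the base is trivial (e.g. a field or a local ring), every class is
rigid and `rigidify` is the identity. -/
theorem rigidify_eq_self [Subsingleton (Pic B)] (x : LineDiag.Classes t s R01) :
    rigidify B t s R01 x = x := by
  rw [rigidify_apply, Subsingleton.elim (eStar B t s R01 x) 1, map_one, inv_one, mul_one]

theorem rigidSubgroup_eq_top [Subsingleton (Pic B)] :
    rigidSubgroup (t := t) (s := s) (R01 := R01) B = ⊤ := by
  rw [← ker_eStar, eq_top_iff]
  intro x _
  exact Subsingleton.elim _ _

theorem range_rigidify :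
    (rigidify B t s R01).range = rigidSubgroup (t := t) (s := s) (R01 := R01) B := by
  ext x
  constructor
  · rintro ⟨y, rfl⟩
    exact rigidify_mem y
  · intro hx
    exact ⟨x, rigidify_of_mem hx⟩

end Section

end Const

/-! ### Naturality (typeclass form) -/

section NatMap

variable {B B' : Type u} [CommRing B] [CommRing B'] [Algebra B B']
  {T T' U U' : Type u} [CommRing T] [CommRing T'] [CommRing U] [CommRing U']
  [Algebra B T] [Algebra B T'] [Algebra T T'] [IsScalarTower B T T']
  [Algebra B' U] [Algebra B' U'] [Algebra U U'] [IsScalarTower B' U U']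
  [Algebra T U] [Algebra T' U'] [Algebra T U'] [IsScalarTower T T' U'] [IsScalarTower T U U']
  [Algebra B U] [IsScalarTower B T U] [IsScalarTower B B' U]
  [Algebra B U'] [IsScalarTower B T' U'] [IsScalarTower B B' U']
  (Q : Type u) [AddCommGroup Q] [Module B Q]

variable (B' T U) in
/-- `U ⊗[T] (T ⊗[B] Q) ≃ U ⊗[B'] (B' ⊗[B] Q)`: both are `U ⊗[B] Q`. -/
noncomputable def constEquiv : U ⊗[T] (T ⊗[B] Q) ≃ₗ[U] U ⊗[B'] (B' ⊗[B] Q) :=
  TensorProduct.AlgebraTensorModule.cancelBaseChange B T U U Q ≪≫ₗ
    (TensorProduct.AlgebraTensorModule.cancelBaseChange B B' U U Q).symm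

theorem constEquiv_tmul (u : U) (x : T) (q : Q) :
    constEquiv B' T U Q (u ⊗ₜ[T] (x ⊗ₜ[B] q)) = (x • u) ⊗ₜ[B'] ((1 : B') ⊗ₜ[B] q) := rfl

theorem constEquiv_baseChangeMap (z : U ⊗[T] (T ⊗[B] Q)) :
    constEquiv B' T' U' Q
        (BaseChange33.baseChangeMap (T := U) (T' := U') (R' := T') (constMap (B := B) T' Q) z) =
      constMap U' (B' ⊗[B] Q) (constEquiv B' T U Q z) := by
  induction z using TensorProduct.induction_on with
  | zero => simp
  | tmul u y =>
    induction y using TensorProduct.induction_on with
    | zero => simp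
    | tmul x q =>
      rw [BaseChange33.baseChangeMap_tmul, constMap_tmul, constEquiv_tmul, constEquiv_tmul,
        constMap_tmul]
      congr 1
      rw [Algebra.smul_def, Algebra.smul_def, map_mul, ← IsScalarTower.algebraMap_apply T T' U',
        ← IsScalarTower.algebraMap_apply T U U']
    | add y y' hy hy' => simp only [TensorProduct.tmul_add, map_add, hy, hy']
  | add x y hx hy => simp only [map_add, hx, hy]

end NatMap

section Natural

variable {B R0 R1 R01 : Type u} [CommRing B] [CommRing R0] [CommRing R1] [CommRing R01]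
  [Algebra B R0] [Algebra B R1] [Algebra B R01] [Algebra R0 R01] [Algebra R1 R01]
  [IsScalarTower B R0 R01] [IsScalarTower B R1 R01] {t : R0} {s : R1}
  [IsLocalization.Away t R01] [IsLocalization.Away s R01]
variable {B' R0' R1' R01' : Type u} [CommRing B'] [CommRing R0'] [CommRing R1'] [CommRing R01']
  [Algebra B' R0'] [Algebra B' R1'] [Algebra B' R01'] [Algebra R0' R01'] [Algebra R1' R01']
  [IsScalarTower B' R0' R01'] [IsScalarTower B' R1' R01'] (t' : R0') (s' : R1')
  [IsLocalization.Away t' R01'] [IsLocalization.Away s' R01']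
variable [Algebra R0 R0'] [Algebra R1 R1'] [Algebra R01 R01'] [Algebra R0 R01'] [Algebra R1 R01']
  [IsScalarTower R0 R01 R01'] [IsScalarTower R0 R0' R01']
  [IsScalarTower R1 R01 R01'] [IsScalarTower R1 R1' R01']

variable (R01')

/-- Restriction to the overlap is natural. -/
theorem toPic01_baseChangeHom (x : LineDiag.Classes t s R01) :
    toPic01 (BaseChange33.baseChangeHom R01' t' s' x) = Pic.mapAlgebra R01 R01' (toPic01 x) := by
  induction x using Quotient.inductionOn with
  | _ N =>
    change toPic01 (cls (BaseChange33.baseChange R01' t' s' N)) =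
      Pic.mapAlgebra R01 R01' (toPic01 (cls N))
    rw [toPic01_cls, toPic01_cls, Pic.mapAlgebra_apply]
    exact Pic.mk_eq_mk_iff.mpr ⟨(TensorProduct.AlgebraTensorModule.congr
      (LinearEquiv.refl R01' R01') (Pic.mk.linearEquiv R01 N.M01)).symm⟩

/-- Restriction to the first chart is natural. -/
theorem toPic0_baseChangeHom (x : LineDiag.Classes t s R01) :
    toPic0 (BaseChange33.baseChangeHom R01' t' s' x) = Pic.mapAlgebra R0 R0' (toPic0 x) := by
  induction x using Quotient.inductionOn with
  | _ N =>
    change toPic0 (cls (BaseChange33.baseChange R01' t' s' N)) =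
      Pic.mapAlgebra R0 R0' (toPic0 (cls N))
    rw [toPic0_cls, toPic0_cls, Pic.mapAlgebra_apply]
    exact Pic.mk_eq_mk_iff.mpr ⟨(TensorProduct.AlgebraTensorModule.congr
      (LinearEquiv.refl R0' R0') (Pic.mk.linearEquiv R0 N.M0)).symm⟩

/-- Restriction to the second chart is natural. -/
theorem toPic1_baseChangeHom (x : LineDiag.Classes t s R01) :
    toPic1 (BaseChange33.baseChangeHom R01' t' s' x) = Pic.mapAlgebra R1 R1' (toPic1 x) := by
  induction x using Quotient.inductionOn with
  | _ N =>
    change toPic1 (cls (BaseChange33.baseChange R01' t' s' N)) =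
      Pic.mapAlgebra R1 R1' (toPic1 (cls N))
    rw [toPic1_cls, toPic1_cls, Pic.mapAlgebra_apply]
    exact Pic.mk_eq_mk_iff.mpr ⟨(TensorProduct.AlgebraTensorModule.congr
      (LinearEquiv.refl R1' R1') (Pic.mk.linearEquiv R1 N.M1)).symm⟩

variable [Algebra B B']

section SectionA

variable [Algebra R01 B] [Algebra R01' B'] [Algebra R01 B'] [IsScalarTower R01 B B']
  [IsScalarTower R01 R01' B']

/-- `eStar` is natural in the base. -/
theorem eStar_baseChangeHom (x : LineDiag.Classes t s R01) :
    eStar B' t' s' R01' (BaseChange33.baseChangeHom R01' t' s' x) =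
      Pic.mapAlgebra B B' (eStar B t s R01 x) := by
  rw [eStar, eStar, MonoidHom.comp_apply, MonoidHom.comp_apply, toPic01_baseChangeHom,
    Pic.mapAlgebra_mapAlgebra, Pic.mapAlgebra_mapAlgebra]

end SectionA

variable
  [Algebra B R0'] [IsScalarTower B R0 R0'] [IsScalarTower B B' R0']
  [Algebra B R1'] [IsScalarTower B R1 R1'] [IsScalarTower B B' R1']
  [Algebra B R01'] [IsScalarTower B R01 R01'] [IsScalarTower B B' R01']

/-- The base change of a constant diagram is the constant diagram of the base change. -/
noncomputable def baseChangeConst (Q : Type u) [AddCommGroup Q] [Module B Q]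
    [Module.Invertible B Q] :
    LineDiag.Iso (BaseChange33.baseChange R01' t' s' (constDiag B t s R01 Q))
      (constDiag B' t' s' R01' (B' ⊗[B] Q)) where
  e0 := constEquiv B' R0 R0' Q
  e1 := constEquiv B' R1 R1' Q
  e01 := constEquiv B' R01 R01' Q
  comm0 := constEquiv_baseChangeMap (T := R0) (T' := R01) (U := R0') (U' := R01') Q
  comm1 := constEquiv_baseChangeMap (T := R1) (T' := R01) (U := R1') (U' := R01') Q

/-- `piStar` is natural in the base. -/
theorem baseChangeHom_piStar (y : Pic B) :
    BaseChange33.baseChangeHom R01' t' s' (piStar B t s R01 y) =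
      piStar B' t' s' R01' (Pic.mapAlgebra B B' y) := by
  rw [Pic.mapAlgebra_apply, piStar_mk, piStar_apply, BaseChange33.baseChangeHom_cls]
  exact cls_eq_iff.mpr ⟨baseChangeConst R01' t' s' y⟩

section Section

variable [Algebra R01 B] [Algebra R01' B'] [Algebra R01 B'] [IsScalarTower R01 B B']
  [IsScalarTower R01 R01' B']

variable [IsScalarTower B R01 B] [IsScalarTower B' R01' B']

/-- `rigidify` is natural in the base. -/
theorem baseChangeHom_rigidify (x : LineDiag.Classes t s R01) :
    BaseChange33.baseChangeHom R01' t' s' (rigidify B t s R01 x) =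
      rigidify B' t' s' R01' (BaseChange33.baseChangeHom R01' t' s' x) := by
  rw [rigidify_apply, rigidify_apply, map_mul, map_inv,
    baseChangeHom_piStar (B := B) (B' := B') (t := t) (s := s) (R01 := R01) R01' t' s',
    eStar_baseChangeHom (B := B) (B' := B') (t := t) (s := s) (R01 := R01) R01' t' s']

end Section

end Natural

end Fermat.Agent.JAC.Grp.Rigidify33
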