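/-
Programme JAC (S25), work package A6c, part VII: naturality of the rigidification retraction in
fibred form, and its specialisation to the constant family of `Core/AlgAtlas36`
(JAC COORD #5, item 4(ii)).

* fibred form, for `ψ : FamilyHom ..` over a ring map `β : B →+* B'` of the bases:
  `baseChangeClass_piStar`, `eStar_baseChangeClass`, `baseChangeClass_rigidify`;
* constant family: `piStarCl B : Pic B →* Cl B`, `eStarCl e B : Cl B →* Pic B`,
  `rigidifyCl e B : Cl B →* Cl B` with `isRigidCl_rigidifyCl`, `rigidifyCl_of_isRigidCl`,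
  `isRigidCl_iff_eStarCl`, `bc_rigidifyCl`, `bc_piStarCl`, `eStarCl_bc`, `rigidifyCl_eq_self`,
  `isRigidCl_of_subsingleton_pic`, `isDegZero_piStarCl`, `isDegZero_rigidifyCl_iff`.
-/
import Mathlib
import Fermat.Agent.JAC.Core.AlgAtlas36
import Fermat.Agent.JAC.Grp.Cart33
import Fermat.Agent.JAC.Grp.ConstBc33
import Fermat.Agent.JAC.Grp.Rigidify33

set_option autoImplicit false
set_option linter.style.haveILetI false
set_option linter.unusedSectionVars false

open TensorProduct

universe u

namespace Fermat.Agent.JAC.Grp.RigidifyBc33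

open Fermat.Agent.JAC.Core.Defs36 Fermat.Agent.JAC.Core.Cart36 Fermat.Agent.JAC.Grp.Diag33
  Fermat.Agent.JAC.Grp.Cart33 Fermat.Agent.JAC.Grp.ConstBc33 Fermat.Agent.JAC.Grp.Rigidify33
open CommRing

/-! ### Fibred form -/

section Fibred

variable {B R0 R1 R01 : Type u} [CommRing B] [CommRing R0] [CommRing R1] [CommRing R01]
  [Algebra B R0] [Algebra B R1] [Algebra B R01] [Algebra R0 R01] [Algebra R1 R01]
  [IsScalarTower B R0 R01] [IsScalarTower B R1 R01] {t : R0} {s : R1}
  [IsLocalization.Away t R01] [IsLocalization.Away s R01]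
variable {B' R0' R1' R01' : Type u} [CommRing B'] [CommRing R0'] [CommRing R1'] [CommRing R01']
  [Algebra B' R0'] [Algebra B' R1'] [Algebra B' R01'] [Algebra R0' R01'] [Algebra R1' R01']
  [IsScalarTower B' R0' R01'] [IsScalarTower B' R1' R01'] {t' : R0'} {s' : R1'}
  [IsLocalization.Away t' R01'] [IsLocalization.Away s' R01']
variable (ψ : FamilyHom t s t' s' R01 R01') (β : B →+* B')
  (hβ0 : ∀ b, ψ.ψ0 (algebraMap B R0 b) = algebraMap B' R0' (β b))
  (hβ1 : ∀ b, ψ.ψ1 (algebraMap B R1 b) = algebraMap B' R1' (β b))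

include hβ0 in
theorem familyHom_algebraMap01 (b : B) :
    ψ.ψ01 (algebraMap B R01 b) = algebraMap B' R01' (β b) := by
  rw [IsScalarTower.algebraMap_apply B R0 R01, ψ.comm0, hβ0,
    ← IsScalarTower.algebraMap_apply B' R0' R01']

include hβ0 hβ1 in
/-- `piStar` is natural in the base (fibred form). -/
theorem baseChangeClass_piStar (y : Pic B) :
    baseChangeClass ψ (piStar B t s R01 y) = piStar B' t' s' R01' (Pic.mapRingHom β y) := by
  letI : Algebra R0 R0' := ψ.ψ0.toAlgebra
  letI : Algebra R1 R1' := ψ.ψ1.toAlgebra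
  letI : Algebra R01 R01' := ψ.ψ01.toAlgebra
  letI : Algebra R0 R01' := (ψ.ψ01.comp (algebraMap R0 R01)).toAlgebra
  letI : Algebra R1 R01' := (ψ.ψ01.comp (algebraMap R1 R01)).toAlgebra
  haveI : IsScalarTower R0 R01 R01' := IsScalarTower.of_algebraMap_eq (fun _ => rfl)
  haveI : IsScalarTower R0 R0' R01' := IsScalarTower.of_algebraMap_eq (fun r => ψ.comm0 r)
  haveI : IsScalarTower R1 R01 R01' := IsScalarTower.of_algebraMap_eq (fun _ => rfl)
  haveI : IsScalarTower R1 R1' R01' := IsScalarTower.of_algebraMap_eq (fun r => ψ.comm1 r)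
  letI : Algebra B B' := β.toAlgebra
  letI : Algebra B R0' := ((algebraMap B' R0').comp β).toAlgebra
  letI : Algebra B R1' := ((algebraMap B' R1').comp β).toAlgebra
  letI : Algebra B R01' := ((algebraMap B' R01').comp β).toAlgebra
  haveI : IsScalarTower B B' R0' := IsScalarTower.of_algebraMap_eq (fun _ => rfl)
  haveI : IsScalarTower B B' R1' := IsScalarTower.of_algebraMap_eq (fun _ => rfl)
  haveI : IsScalarTower B B' R01' := IsScalarTower.of_algebraMap_eq (fun _ => rfl)
  haveI : IsScalarTower B R0 R0' := IsScalarTower.of_algebraMap_eq (fun b => (hβ0 b).symm)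
  haveI : IsScalarTower B R1 R1' := IsScalarTower.of_algebraMap_eq (fun b => (hβ1 b).symm)
  haveI : IsScalarTower B R01 R01' :=
    IsScalarTower.of_algebraMap_eq (fun b => (familyHom_algebraMap01 ψ β hβ0 b).symm)
  rw [← baseChangeHom_eq_baseChangeClass ψ rfl rfl rfl]
  exact baseChangeHom_piStar R01' t' s' y

section Section

variable [Algebra R01 B] [Algebra R01' B']
  (hε : ∀ r, β (algebraMap R01 B r) = algebraMap R01' B' (ψ.ψ01 r))

include hε in
/-- `eStar` is natural in the base (fibred form). -/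
theorem eStar_baseChangeClass (x : LineDiag.Classes t s R01) :
    eStar B' t' s' R01' (baseChangeClass ψ x) = Pic.mapRingHom β (eStar B t s R01 x) := by
  letI : Algebra R0 R0' := ψ.ψ0.toAlgebra
  letI : Algebra R1 R1' := ψ.ψ1.toAlgebra
  letI : Algebra R01 R01' := ψ.ψ01.toAlgebra
  letI : Algebra R0 R01' := (ψ.ψ01.comp (algebraMap R0 R01)).toAlgebra
  letI : Algebra R1 R01' := (ψ.ψ01.comp (algebraMap R1 R01)).toAlgebra
  haveI : IsScalarTower R0 R01 R01' := IsScalarTower.of_algebraMap_eq (fun _ => rfl)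
  haveI : IsScalarTower R0 R0' R01' := IsScalarTower.of_algebraMap_eq (fun r => ψ.comm0 r)
  haveI : IsScalarTower R1 R01 R01' := IsScalarTower.of_algebraMap_eq (fun _ => rfl)
  haveI : IsScalarTower R1 R1' R01' := IsScalarTower.of_algebraMap_eq (fun r => ψ.comm1 r)
  letI : Algebra B B' := β.toAlgebra
  letI : Algebra R01 B' := ((algebraMap R01' B').comp ψ.ψ01).toAlgebra
  haveI : IsScalarTower R01 R01' B' := IsScalarTower.of_algebraMap_eq (fun _ => rfl)
  haveI : IsScalarTower R01 B B' := IsScalarTower.of_algebraMap_eq (fun r => (hε r).symm)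
  rw [← baseChangeHom_eq_baseChangeClass ψ rfl rfl rfl]
  exact eStar_baseChangeHom R01' t' s' x

variable [IsScalarTower B R01 B] [IsScalarTower B' R01' B']

include hβ0 hβ1 hε in
/-- `rigidify` is natural in the base (fibred form). -/
theorem baseChangeClass_rigidify (x : LineDiag.Classes t s R01) :
    baseChangeClass ψ (rigidify B t s R01 x) =
      rigidify B' t' s' R01' (baseChangeClass ψ x) := by
  rw [rigidify_apply, rigidify_apply, map_mul, map_inv,
    baseChangeClass_piStar ψ β hβ0 hβ1, eStar_baseChangeClass ψ β hε]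

end Section

end Fibred

/-! ### The constant family -/

section Const

open scoped Fermat.Agent.JAC.Core.ConstFamily36
open Fermat.Agent.JAC.Core.ConstFamily36 Fermat.Agent.JAC.Core.Degree36
  Fermat.Agent.JAC.Core.AlgAtlas36

variable {k : Type u} [Field k] {A0 A1 A01 : Type u} [CommRing A0] [CommRing A1] [CommRing A01]
  [Algebra k A0] [Algebra k A1] [Algebra k A01] [Algebra A0 A01] [Algebra A1 A01]
  [IsScalarTower k A0 A01] [IsScalarTower k A1 A01] {t : A0} {s : A1}
  [IsLocalization.Away t A01] [IsLocalization.Away s A01]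

/-- The composite `B → B ⊗[k] A01 → B` of the structure map and the base point is the identity. -/
theorem isScalarTower_rig (e : A01 →ₐ[k] k) (B : Type u) [CommRing B] [Algebra k B] :
    letI := rigAlgebra B e
    IsScalarTower B (B ⊗[k] A01) B :=
  letI := rigAlgebra B e
  IsScalarTower.of_algebraMap_eq (fun b => by
    show b = rigHom B e (algebraMap B (B ⊗[k] A01) b)
    rw [Algebra.TensorProduct.algebraMap_apply, rigHom_tmul]
    simp)

variable (k A0 A1 A01 t s) in
/-- Pull-back of line bundles from the base `B` to the constant family. -/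
noncomputable def piStarCl (B : Type u) [CommRing B] [Algebra k B] :
    Pic B →* Cl k A0 A1 A01 t s B :=
  piStar B ((1 : B) ⊗ₜ[k] t) ((1 : B) ⊗ₜ[k] s) (B ⊗[k] A01)

variable (A0 A1 t s) in
/-- Restriction of a class to the base point `e`. -/
noncomputable def eStarCl (e : A01 →ₐ[k] k) (B : Type u) [CommRing B] [Algebra k B] :
    Cl k A0 A1 A01 t s B →* Pic B :=
  letI := rigAlgebra B e
  eStar B ((1 : B) ⊗ₜ[k] t) ((1 : B) ⊗ₜ[k] s) (B ⊗[k] A01)

variable (A0 A1 t s) in
/-- The rigidification retraction `x ↦ x * π^*(e^* x)⁻¹` on classes of the constant family. -/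
noncomputable def rigidifyCl (e : A01 →ₐ[k] k) (B : Type u) [CommRing B] [Algebra k B] :
    Cl k A0 A1 A01 t s B →* Cl k A0 A1 A01 t s B :=
  letI := rigAlgebra B e
  haveI := isScalarTower_rig e B
  rigidify B ((1 : B) ⊗ₜ[k] t) ((1 : B) ⊗ₜ[k] s) (B ⊗[k] A01)

variable (e : A01 →ₐ[k] k) {B B' : Type u} [CommRing B] [CommRing B'] [Algebra k B] [Algebra k B']

theorem rigidifyCl_apply (x : Cl k A0 A1 A01 t s B) :
    rigidifyCl A0 A1 t s e B x = x * (piStarCl k A0 A1 A01 t s B (eStarCl A0 A1 t s e B x))⁻¹ :=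
  rfl

theorem isRigidCl_iff_eStarCl (x : Cl k A0 A1 A01 t s B) :
    IsRigidCl e B x ↔ eStarCl A0 A1 t s e B x = 1 := Iff.rfl

theorem eStarCl_piStarCl (y : Pic B) :
    eStarCl A0 A1 t s e B (piStarCl k A0 A1 A01 t s B y) = y := by
  letI := rigAlgebra B e
  haveI := isScalarTower_rig e B
  exact eStar_piStar y

/-- `rigidifyCl` takes values in the rigid classes. -/
theorem isRigidCl_rigidifyCl (x : Cl k A0 A1 A01 t s B) :
    IsRigidCl e B (rigidifyCl A0 A1 t s e B x) := by
  letI := rigAlgebra B e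
  haveI := isScalarTower_rig e B
  exact rigidify_mem x

/-- `rigidifyCl` is the identity on rigid classes. -/
theorem rigidifyCl_of_isRigidCl {x : Cl k A0 A1 A01 t s B} (hx : IsRigidCl e B x) :
    rigidifyCl A0 A1 t s e B x = x := by
  letI := rigAlgebra B e
  haveI := isScalarTower_rig e B
  exact rigidify_of_mem hx

theorem rigidifyCl_rigidifyCl (x : Cl k A0 A1 A01 t s B) :
    rigidifyCl A0 A1 t s e B (rigidifyCl A0 A1 t s e B x) = rigidifyCl A0 A1 t s e B x :=
  rigidifyCl_of_isRigidCl e (isRigidCl_rigidifyCl e x)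

theorem rigidifyCl_piStarCl (y : Pic B) :
    rigidifyCl A0 A1 t s e B (piStarCl k A0 A1 A01 t s B y) = 1 := by
  letI := rigAlgebra B e
  haveI := isScalarTower_rig e B
  exact rigidify_piStar y

/-- Every class is the product of its rigidification and a class pulled back from the base. -/
theorem rigidifyCl_mul_piStarCl (x : Cl k A0 A1 A01 t s B) :
    rigidifyCl A0 A1 t s e B x * piStarCl k A0 A1 A01 t s B (eStarCl A0 A1 t s e B x) = x := by
  letI := rigAlgebra B e
  haveI := isScalarTower_rig e B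
  exact mul_piStar_eStar x

/-- If `Pic B` is trivial (fields, local rings), `rigidifyCl` is the identity. -/
theorem rigidifyCl_eq_self [Subsingleton (Pic B)] (x : Cl k A0 A1 A01 t s B) :
    rigidifyCl A0 A1 t s e B x = x := by
  letI := rigAlgebra B e
  haveI := isScalarTower_rig e B
  exact rigidify_eq_self x

/-- If `Pic B` is trivial (fields, local rings), every class is rigid. -/
theorem isRigidCl_of_subsingleton_pic [Subsingleton (Pic B)] (x : Cl k A0 A1 A01 t s B) :
    IsRigidCl e B x :=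
  Subsingleton.elim _ _

theorem familyHom_algebraMap0 (ψ : B →ₐ[k] B') (b : B) :
    (familyHom ψ t s : FamilyHom ((1 : B) ⊗ₜ[k] t) ((1 : B) ⊗ₜ[k] s) ((1 : B') ⊗ₜ[k] t)
      ((1 : B') ⊗ₜ[k] s) (B ⊗[k] A01) (B' ⊗[k] A01)).ψ0 (algebraMap B (B ⊗[k] A0) b) =
      algebraMap B' (B' ⊗[k] A0) (ψ b) := by
  simp [familyHom, Algebra.TensorProduct.algebraMap_apply]

theorem familyHom_algebraMap1 (ψ : B →ₐ[k] B') (b : B) :
    (familyHom ψ t s : FamilyHom ((1 : B) ⊗ₜ[k] t) ((1 : B) ⊗ₜ[k] s) ((1 : B') ⊗ₜ[k] t)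
      ((1 : B') ⊗ₜ[k] s) (B ⊗[k] A01) (B' ⊗[k] A01)).ψ1 (algebraMap B (B ⊗[k] A1) b) =
      algebraMap B' (B' ⊗[k] A1) (ψ b) := by
  simp [familyHom, Algebra.TensorProduct.algebraMap_apply]

/-- `piStarCl` is natural in `B`. -/
theorem bc_piStarCl (ψ : B →ₐ[k] B') (y : Pic B) :
    bc ψ (piStarCl k A0 A1 A01 t s B y) =
      piStarCl k A0 A1 A01 t s B' (Pic.mapRingHom (ψ : B →+* B') y) := by
  rw [bc_eq_baseChangeClass]
  exact baseChangeClass_piStar (familyHom ψ t s) (ψ : B →+* B') (familyHom_algebraMap0 ψ)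
    (familyHom_algebraMap1 ψ) y

/-- `eStarCl` is natural in `B`. -/
theorem eStarCl_bc (ψ : B →ₐ[k] B') (x : Cl k A0 A1 A01 t s B) :
    eStarCl A0 A1 t s e B' (bc ψ x) = Pic.mapRingHom (ψ : B →+* B') (eStarCl A0 A1 t s e B x) := by
  rw [bc_eq_baseChangeClass]
  letI := rigAlgebra B e
  letI := rigAlgebra B' e
  exact eStar_baseChangeClass (familyHom ψ t s) (ψ : B →+* B') (fun r => rigHom_map e ψ r) x

/-- `rigidifyCl` is natural in `B`. -/
theorem bc_rigidifyCl (ψ : B →ₐ[k] B') (x : Cl k A0 A1 A01 t s B) :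
    bc ψ (rigidifyCl A0 A1 t s e B x) = rigidifyCl A0 A1 t s e B' (bc ψ x) := by
  rw [rigidifyCl_apply, rigidifyCl_apply, map_mul, map_inv, bc_piStarCl, eStarCl_bc]

/-- Classes pulled back from the base have degree zero. -/
theorem isDegZero_piStarCl (y : Pic B) : IsDegZero B (piStarCl k A0 A1 A01 t s B y) := by
  intro K _ _ _ ψ
  rw [bc_piStarCl, Subsingleton.elim (Pic.mapRingHom (ψ : B →+* K) y) 1, map_one]
  exact deg_unit K

/-- Rigidification does not change the degrees of the fibres. -/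
theorem isDegZero_rigidifyCl_iff (x : Cl k A0 A1 A01 t s B) :
    IsDegZero B (rigidifyCl A0 A1 t s e B x) ↔ IsDegZero B x := by
  constructor <;> intro h K _ _ _ ψ
  · have := h K ψ
    rwa [bc_rigidifyCl, rigidifyCl_eq_self] at this
  · rw [bc_rigidifyCl, rigidifyCl_eq_self]
    exact h K ψ

end Const

end Fermat.Agent.JAC.Grp.RigidifyBc33
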