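/-
Programme JAC (S25), chapter Grp.  Owner: helper33.

THE BRICKS (G1), (G2), (G4), (FS) of `Hilb/ChartSpec24` as one-liners from landed work
(`Grp/ConstBc33`, `Zar/Sep39`, `Smooth/AtlasSmoothFinal70`).  The bricks (G3), (G5) are in
`Grp/RigidLocal33`; they are re-exported here so that all (G)-bricks are available from one import.
-/
import Mathlib
import Fermat.Agent.JAC.Grp.RigidLocal33
import Fermat.Agent.JAC.Zar.Sep39
import Fermat.Agent.JAC.Smooth.AtlasSmoothFinal70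

set_option autoImplicit false

universe u

namespace Fermat.Agent.JAC.Grp.Bricks33

open scoped TensorProduct
open Fermat.Agent.JAC.Core.Defs36 Fermat.Agent.JAC.Core.AlgAtlas36 Fermat.Agent.JAC.Grp.ConstBc33
  Fermat.Agent.JAC.Hilb.ChartSpec24 Fermat.Agent.JAC.Hilb.ChartDef24

variable {k : Type u} [Field k] {A0 A1 A01 : Type u} [CommRing A0] [CommRing A1] [CommRing A01]
  [Algebra k A0] [Algebra k A1] [Algebra k A01] [Algebra A0 A01] [Algebra A1 A01]
  [IsScalarTower k A0 A01] [IsScalarTower k A1 A01] {t : A0} {s : A1}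
  [IsLocalization.Away t A01] [IsLocalization.Away s A01]

/-- **Brick (G1)**: functoriality of `bc`. -/
theorem g1 : Brick.G1 k A0 A1 A01 t s :=
  ⟨fun _ _ _ ξ => bc_id_apply ξ, fun _ _ _ _ _ _ _ _ _ ψ ψ' ξ => (bc_bc ψ ψ' ξ).symm⟩

/-- **Brick (G2)**: `bc` is computed by any cartesian morphism. -/
theorem g2 : Brick.G2 k A0 A1 A01 t s :=
  fun _ _ _ _ _ _ ψ N N' => bc_cls_eq_iff ψ N N'

/-- **Brick (G3)** (re-export of `RigidLocal33.g3`). -/
theorem g3 (e : A01 →ₐ[k] k) : Brick.G3 k A0 A1 A01 t s e :=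
  Fermat.Agent.JAC.Grp.RigidLocal33.g3 e

/-- **Brick (G4)**: separatedness, from `H⁰(C, O) = k`. -/
theorem g4 (e : A01 →ₐ[k] k)
    (hH0 : ∀ (a0 : A0) (a1 : A1), algebraMap A0 A01 a0 = algebraMap A1 A01 a1 →
      ∃ c : k, a0 = algebraMap k A0 c ∧ a1 = algebraMap k A1 c) :
    Brick.G4 k A0 A1 A01 t s e :=
  fun B _ _ ξ ξ' hξ hξ' S hS h =>
    Fermat.Agent.JAC.Zar.Sep39.sep_finset e hH0 B ξ ξ' hξ hξ' S hS h

/-- **Brick (G4)** in `CurveHyp` form. -/
theorem g4' (H : CurveHyp k A0 A1 A01 t s) (e : A01 →ₐ[k] k) : Brick.G4 k A0 A1 A01 t s e :=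
  g4 e H.h0

/-- **Brick (G5)** (re-export of `RigidLocal33.g5`). -/
theorem g5 (e : A01 →ₐ[k] k) : Brick.G5 k A0 A1 A01 t s e :=
  Fermat.Agent.JAC.Grp.RigidLocal33.g5 e

/-- **Brick (FS)**: formal smoothness of charts. -/
theorem fs (e : A01 →ₐ[k] k) : Brick.FS k A0 A1 A01 t s e :=
  fun R _ _ x hr hd W W_iff inj mem_iff =>
    Fermat.Agent.JAC.Smooth.AtlasSmoothFinal70.formallySmooth_of_chart R x hr hd W
      (fun K L _ _ _ _ ψ ξ _ _ => W_iff K L ψ ξ) inj mem_iff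

end Fermat.Agent.JAC.Grp.Bricks33
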