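/-
Programme JAC (S25): the hypothesis `DegPackage35.DegLocConst` (local constancy of the degree of
line diagrams in families, fibred form) from helper65's `DegFamily65.exists_locallyConstant_deg`
through the bridge `ConstBc33.bc_eq_baseChangeClass`.
-/
import Mathlib
import Fermat.Agent.JAC.AE0.DegPackage35
import Fermat.Agent.JAC.Frame.DegFamily65
import Fermat.Agent.JAC.Grp.ConstBc33

set_option autoImplicit false
set_option linter.unusedSectionVars false

open TensorProduct Polynomial

universe u

namespace Fermat.Agent.JAC.Grp.DegLocConst33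

open scoped Fermat.Agent.JAC.Core.ConstFamily36
open Fermat.Agent.JAC.Core.Defs36 Fermat.Agent.JAC.Core.ConstFamily36
  Fermat.Agent.JAC.Core.AlgAtlas36 Fermat.Agent.JAC.Core.Degree36
  Fermat.Agent.JAC.Grp.ConstBc33 Fermat.Agent.JAC.AE0.DegPackage35
  Fermat.Agent.JAC.Frame.DegFamily65

variable {k : Type u} [Field k] {A0 A1 A01 : Type u} [CommRing A0] [CommRing A1] [CommRing A01]
  [Algebra k A0] [Algebra k A1] [Algebra k A01] [Algebra A0 A01] [Algebra A1 A01]
  [IsScalarTower k A0 A01] [IsScalarTower k A1 A01] {t : A0} {s : A1}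
  [IsLocalization.Away t A01] [IsLocalization.Away s A01]

/-- **Local constancy of the degree, fibred form**: the input `hlc` of
`DegPackage35.fibreDegree`, from the coordinate form of the CURVE block (`A0` free over `k[t]`,
`A1` free over `k[s]`, `t s = 1`). -/
theorem degLocConst (hts : algebraMap A0 A01 t * algebraMap A1 A01 s = 1)
    {n0 n1 : ℕ} (a0 : Fin n0 → A0)
    (ha0 : Function.Bijective (fun p : Fin n0 → k[X] => ∑ j, Polynomial.aeval t (p j) * a0 j))
    (a1 : Fin n1 → A1)
    (ha1 : Function.Bijective (fun p : Fin n1 → k[X] => ∑ j, Polynomial.aeval s (p j) * a1 j)) :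
    DegLocConst k A0 A1 A01 t s := by
  intro B _ _ ξ
  obtain ⟨d, hd, h⟩ := exists_locallyConstant_deg hts a0 ha0 a1 ha1 (B := B) ξ
  refine ⟨d, hd, fun K _ _ _ ψ => ?_⟩
  rw [← bc_eq_baseChangeClass]
  exact h K ψ

end Fermat.Agent.JAC.Grp.DegLocConst33
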