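/-
Programme JAC (S25), work package A6, part I: lifting along nilpotent thickenings.

`R → S` is a surjective ring map (given as an algebra structure, `hsurj`) whose kernel is a nilpotent
ideal (`hnil`).  Typical use: `R = B ⊗[k] A`, `S = (B ⧸ I) ⊗[k] A` with `I ^ 2 = 0`.

* `ker_mk_one` : the kernel of `M → S ⊗[R] M` is `J • ⊤`, `J` the kernel of `R → S`.
* `isUnit_of_forall_sub_mem`, `isUnit_of_baseChange_eq_id` : an endomorphism which is the identity
  modulo a nilpotent ideal is an automorphism.
* `exists_linearMap_lift` : maps between base changes of projective modules lift.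
* `exists_linearEquiv_lift` : isomorphisms between base changes of projective modules lift.
* `exists_projective_lift` : finite projective `S`-modules lift to finite projective `R`-modules.
* `invertible_of_baseChange` : a projective module with invertible reduction is invertible.
* `exists_invertible_lift` : invertible `S`-modules lift to invertible `R`-modules.
* `nonempty_linearEquiv_of_baseChange` : projective modules with isomorphic reductions are
  isomorphic; `nonempty_linearEquiv_self_of_baseChange`: trivial reduction implies trivial.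
* `pic_mapAlgebra_bijective` : `Pic R → Pic S` is bijective.
-/
import Mathlib

set_option autoImplicit false

open TensorProduct

universe u v w w'

namespace Fermat.Agent.JAC.Grp.Lift33

variable {R : Type u} {S : Type v} [CommRing R] [CommRing S] [Algebra R S]

section Ker

variable (M : Type w) [AddCommGroup M] [Module R M]

theorem ofId_surjective (hsurj : Function.Surjective (algebraMap R S)) :
    Function.Surjective (Algebra.ofId R S) := hsurj

theorem ker_ofId : RingHom.ker (Algebra.ofId R S) = RingHom.ker (algebraMap R S) := by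
  ext x
  simp [RingHom.mem_ker]

/-- The identification `S ⊗[R] M ≃ M ⧸ J • ⊤` for a surjective `R → S` with kernel `J`. -/
noncomputable def tensorEquivQuot (hsurj : Function.Surjective (algebraMap R S)) :
    S ⊗[R] M ≃ₗ[R] M ⧸ (RingHom.ker (algebraMap R S) • (⊤ : Submodule R M)) :=
  (TensorProduct.congr
      (Ideal.quotientKerAlgEquivOfSurjective (ofId_surjective hsurj)).symm.toLinearEquiv
      (LinearEquiv.refl R M)) ≪≫ₗ
    TensorProduct.quotTensorEquivQuotSMul M (RingHom.ker (Algebra.ofId R S)) ≪≫ₗ
    Submodule.quotEquivOfEq _ _ (by rw [ker_ofId])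

theorem tensorEquivQuot_one_tmul (hsurj : Function.Surjective (algebraMap R S)) (m : M) :
    tensorEquivQuot M hsurj (1 ⊗ₜ m) = Submodule.Quotient.mk m := by
  have h1 : (Ideal.quotientKerAlgEquivOfSurjective
      (ofId_surjective (R := R) (S := S) hsurj)).symm.toLinearEquiv (1 : S) = 1 :=
    map_one (Ideal.quotientKerAlgEquivOfSurjective (ofId_surjective (R := R) (S := S) hsurj)).symm
  rw [tensorEquivQuot, LinearEquiv.trans_apply, LinearEquiv.trans_apply,
    TensorProduct.congr_tmul, h1, LinearEquiv.refl_apply,
    TensorProduct.quotTensorEquivQuotSMul_mk_one_tmul, Submodule.quotEquivOfEq_mk]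

/-- The kernel of `M → S ⊗[R] M`. -/
theorem ker_mk_one (hsurj : Function.Surjective (algebraMap R S)) :
    LinearMap.ker (TensorProduct.mk R S M 1) =
      RingHom.ker (algebraMap R S) • (⊤ : Submodule R M) := by
  ext m
  rw [LinearMap.mem_ker, TensorProduct.mk_apply,
    ← (tensorEquivQuot M hsurj).map_eq_zero_iff, tensorEquivQuot_one_tmul,
    Submodule.Quotient.mk_eq_zero]

end Ker

section Unit

variable {M : Type w} [AddCommGroup M] [Module R M]

theorem range_pow_le {J : Ideal R} (n : Module.End R M)
    (h : ∀ x, n x ∈ J • (⊤ : Submodule R M)) (k : ℕ) :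
    LinearMap.range (n ^ k) ≤ J ^ k • (⊤ : Submodule R M) := by
  induction k with
  | zero => simp
  | succ k ih =>
    rw [pow_succ', Module.End.mul_eq_comp, LinearMap.range_comp]
    calc Submodule.map n (LinearMap.range (n ^ k))
        ≤ Submodule.map n (J ^ k • (⊤ : Submodule R M)) := Submodule.map_mono ih
      _ = J ^ k • Submodule.map n ⊤ := Submodule.map_smul'' _ _ _
      _ ≤ J ^ k • (J • (⊤ : Submodule R M)) := by
          refine Submodule.smul_mono le_rfl ?_
          rintro _ ⟨x, -, rfl⟩
          exact h x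
      _ = J ^ (k + 1) • (⊤ : Submodule R M) := by
          rw [← Submodule.mul_smul, ← pow_succ]

/-- An endomorphism congruent to the identity modulo a nilpotent ideal is an automorphism. -/
theorem isUnit_of_forall_sub_mem {J : Ideal R} (hJ : IsNilpotent J) (u : Module.End R M)
    (h : ∀ x, u x - x ∈ J • (⊤ : Submodule R M)) : IsUnit u := by
  obtain ⟨N, hN⟩ := hJ
  have hn : IsNilpotent (u - 1) := by
    refine ⟨N, ?_⟩
    have := range_pow_le (J := J) (u - 1) (fun x => by simpa using h x) N
    rw [hN] at this
    ext x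
    have hx : ((u - 1) ^ N) x ∈ (⊥ : Ideal R) • (⊤ : Submodule R M) := this ⟨x, rfl⟩
    simpa using hx
  have := hn.isUnit_one_add
  simpa using this

/-- An endomorphism of `M` whose base change is the identity is an automorphism. -/
theorem isUnit_of_baseChange_eq_id
    (hsurj : Function.Surjective (algebraMap R S))
    (hnil : IsNilpotent (RingHom.ker (algebraMap R S))) (u : Module.End R M)
    (hu : u.baseChange S = LinearMap.id) : IsUnit u := by
  refine isUnit_of_forall_sub_mem hnil u fun x => ?_
  rw [← ker_mk_one M hsurj, LinearMap.mem_ker, TensorProduct.mk_apply, TensorProduct.tmul_sub,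
    sub_eq_zero, ← LinearMap.baseChange_tmul, hu, LinearMap.id_apply]

end Unit

section Maps

variable {P : Type w} {Q : Type w'} [AddCommGroup P] [Module R P] [AddCommGroup Q] [Module R Q]

/-- Maps between base changes lift, if the source is projective. -/
theorem exists_linearMap_lift [Module.Projective R P]
    (hsurj : Function.Surjective (algebraMap R S))
    (f : S ⊗[R] P →ₗ[S] S ⊗[R] Q) : ∃ g : P →ₗ[R] Q, g.baseChange S = f := by
  obtain ⟨g, hg⟩ := Module.projective_lifting_property (TensorProduct.mk R S Q 1)
    ((f.restrictScalars R).comp (TensorProduct.mk R S P 1))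
    (TensorProduct.mk_surjective R Q S hsurj)
  refine ⟨g, ?_⟩
  apply TensorProduct.AlgebraTensorModule.ext
  intro s x
  have h1 : (1 : S) ⊗ₜ[R] g x = f (1 ⊗ₜ x) := by
    have := congrArg (fun φ => φ x) hg
    simpa using this
  rw [LinearMap.baseChange_tmul]
  calc s ⊗ₜ[R] g x = s • ((1 : S) ⊗ₜ[R] g x) := by
        rw [TensorProduct.smul_tmul', smul_eq_mul, mul_one]
    _ = s • f (1 ⊗ₜ x) := by rw [h1]
    _ = f (s ⊗ₜ x) := by rw [← map_smul, TensorProduct.smul_tmul', smul_eq_mul, mul_one]

/-- Isomorphisms between base changes of projective modules lift to isomorphisms. -/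
theorem exists_linearEquiv_lift [Module.Projective R P] [Module.Projective R Q]
    (hsurj : Function.Surjective (algebraMap R S))
    (hnil : IsNilpotent (RingHom.ker (algebraMap R S)))
    (e : S ⊗[R] P ≃ₗ[S] S ⊗[R] Q) : ∃ g : P ≃ₗ[R] Q, g.baseChange R S P Q = e := by
  obtain ⟨g, hg⟩ := exists_linearMap_lift hsurj e.toLinearMap
  obtain ⟨g', hg'⟩ := exists_linearMap_lift hsurj e.symm.toLinearMap
  have h1 : IsUnit (g' ∘ₗ g : Module.End R P) := by
    apply isUnit_of_baseChange_eq_id hsurj hnil
    rw [LinearMap.baseChange_comp, hg, hg']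
    ext x; simp
  have h2 : IsUnit (g ∘ₗ g' : Module.End R Q) := by
    apply isUnit_of_baseChange_eq_id hsurj hnil
    rw [LinearMap.baseChange_comp, hg, hg']
    ext x; simp
  have hbij : Function.Bijective g := by
    rw [Module.End.isUnit_iff] at h1 h2
    refine ⟨?_, ?_⟩
    · exact Function.Injective.of_comp (f := g') (by simpa using h1.injective)
    · exact Function.Surjective.of_comp (g := g') (by simpa using h2.surjective)
  refine ⟨LinearEquiv.ofBijective g hbij, ?_⟩
  apply LinearEquiv.toLinearMap_injective
  rw [LinearEquiv.coe_baseChange]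
  exact hg

/-- Projective modules with isomorphic reductions are isomorphic. -/
theorem nonempty_linearEquiv_of_baseChange [Module.Projective R P] [Module.Projective R Q]
    (hsurj : Function.Surjective (algebraMap R S))
    (hnil : IsNilpotent (RingHom.ker (algebraMap R S)))
    (e : S ⊗[R] P ≃ₗ[S] S ⊗[R] Q) : Nonempty (P ≃ₗ[R] Q) :=
  let ⟨g, _⟩ := exists_linearEquiv_lift hsurj hnil e
  ⟨g⟩

/-- A projective module whose reduction is free of rank one is free of rank one. -/
theorem nonempty_linearEquiv_self_of_baseChange [Module.Projective R P]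
    (hsurj : Function.Surjective (algebraMap R S))
    (hnil : IsNilpotent (RingHom.ker (algebraMap R S)))
    (e : S ⊗[R] P ≃ₗ[S] S) : Nonempty (P ≃ₗ[R] R) :=
  nonempty_linearEquiv_of_baseChange hsurj hnil
    (e ≪≫ₗ (TensorProduct.AlgebraTensorModule.rid R S S).symm)

end Maps

section Matrix

variable {n : Type*} [Fintype n] [DecidableEq n]

theorem pow_apply_mem {J : Ideal R} (x : Matrix n n R) (hx : ∀ i j, x i j ∈ J) (k : ℕ)
    (hk : 0 < k) : ∀ i j, (x ^ k) i j ∈ J ^ k := by
  induction k, hk using Nat.le_induction with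
  | base => simpa using hx
  | succ k hk ih =>
    intro i j
    have h1 : (x ^ (k + 1)) i j = ∑ l, (x ^ k) i l * x l j := by
      rw [pow_succ x, Matrix.mul_apply]
    rw [h1, pow_succ J]
    exact Ideal.sum_mem _ fun l _ => Ideal.mul_mem_mul (ih i l) (hx l j)

theorem isNilpotent_of_mem_ker_mapMatrix (hnil : IsNilpotent (RingHom.ker (algebraMap R S)))
    (x : Matrix n n R) (hx : x ∈ RingHom.ker (RingHom.mapMatrix (m := n) (algebraMap R S))) :
    IsNilpotent x := by
  obtain ⟨N, hN⟩ := hnil
  have hx' : ∀ i j, x i j ∈ RingHom.ker (algebraMap R S) := by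
    intro i j
    rw [RingHom.mem_ker] at hx ⊢
    have := congrFun (congrFun hx i) j
    simpa using this
  refine ⟨N + 1, ?_⟩
  ext i j
  have := pow_apply_mem x hx' (N + 1) (Nat.succ_pos N) i j
  rw [pow_succ, hN] at this
  simpa using this

/-- Idempotent matrices lift along a surjection with nilpotent kernel. -/
theorem exists_idempotent_matrix_lift (hsurj : Function.Surjective (algebraMap R S))
    (hnil : IsNilpotent (RingHom.ker (algebraMap R S)))
    (E' : Matrix n n S) (hE' : IsIdempotentElem E') :
    ∃ E : Matrix n n R, IsIdempotentElem E ∧ E.map (algebraMap R S) = E' := by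
  have hrange : E' ∈ (RingHom.mapMatrix (m := n) (algebraMap R S)).range := by
    refine ⟨Matrix.of fun i j => (hsurj (E' i j)).choose, ?_⟩
    ext i j
    simpa using (hsurj (E' i j)).choose_spec
  obtain ⟨E, hE, hEE'⟩ := exists_isIdempotentElem_eq_of_ker_isNilpotent
    (RingHom.mapMatrix (m := n) (algebraMap R S))
    (fun x hx => isNilpotent_of_mem_ker_mapMatrix hnil x hx) E' hrange hE'
  exact ⟨E, hE, by simpa using hEE'⟩

/-- Compatibility of `piScalarRight` with matrices. -/
theorem piScalarRight_baseChange_toLin' (E : Matrix n n R) :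
    (TensorProduct.piScalarRight R S S n).toLinearMap ∘ₗ (Matrix.toLin' E).baseChange S =
      Matrix.toLin' (E.map (algebraMap R S)) ∘ₗ
        (TensorProduct.piScalarRight R S S n).toLinearMap := by
  apply TensorProduct.AlgebraTensorModule.ext
  intro s x
  ext i
  simp only [LinearMap.coe_comp, LinearEquiv.coe_coe, Function.comp_apply,
    LinearMap.baseChange_tmul, TensorProduct.piScalarRight_apply,
    TensorProduct.piScalarRightHom_tmul, Matrix.toLin'_apply, Matrix.mulVec, dotProduct,
    Matrix.map_apply]
  rw [Finset.sum_smul]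
  refine Finset.sum_congr rfl fun j _ => ?_
  rw [Algebra.smul_def, Algebra.smul_def, map_mul]
  ring

end Matrix

section Lift

/-- Finite projective modules lift along a surjection with nilpotent kernel. -/
theorem exists_projective_lift (hsurj : Function.Surjective (algebraMap R S))
    (hnil : IsNilpotent (RingHom.ker (algebraMap R S)))
    (P' : Type w) [AddCommGroup P'] [Module S P'] [Module.Finite S P'] [Module.Projective S P'] :
    ∃ (P : Type u) (_ : AddCommGroup P) (_ : Module R P),
      Module.Finite R P ∧ Module.Projective R P ∧ Nonempty (S ⊗[R] P ≃ₗ[S] P') := by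
  obtain ⟨n, f, g, -, -, hfg⟩ := Module.Finite.exists_comp_eq_id_of_projective S P'
  have he' : IsIdempotentElem (g ∘ₗ f : Module.End S (Fin n → S)) := by
    show (g ∘ₗ f) * (g ∘ₗ f) = g ∘ₗ f
    rw [Module.End.mul_eq_comp, LinearMap.comp_assoc, ← LinearMap.comp_assoc f g f, hfg,
      LinearMap.id_comp]
  have hE' : IsIdempotentElem (LinearMap.toMatrix' (g ∘ₗ f)) := by
    show _ * _ = _
    rw [← LinearMap.toMatrix'_mul, he'.eq]
  obtain ⟨E, hE, hEE'⟩ := exists_idempotent_matrix_lift hsurj hnil _ hE'
  have he : (Matrix.toLin' E) ∘ₗ (Matrix.toLin' E) = Matrix.toLin' E := by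
    rw [← Matrix.toLin'_mul, hE.eq]
  -- the lifted module
  let e : (Fin n → R) →ₗ[R] (Fin n → R) := Matrix.toLin' E
  let ι : LinearMap.range e →ₗ[R] (Fin n → R) := (LinearMap.range e).subtype
  let π : (Fin n → R) →ₗ[R] LinearMap.range e := e.rangeRestrict
  have hιπ : ι ∘ₗ π = e := by ext x; rfl
  have hπι : π ∘ₗ ι = LinearMap.id := by
    ext ⟨x, y, rfl⟩ : 1
    apply Subtype.ext
    show e (e y) = e y
    exact congrArg (fun φ => φ y) he
  refine ⟨LinearMap.range e, inferInstance, inferInstance, ?_, ?_, ?_⟩
  · exact Module.Finite.range e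
  · exact Module.Projective.of_split ι π hπι
  · let θ := TensorProduct.piScalarRight R S S (Fin n)
    have hθ : θ.toLinearMap ∘ₗ e.baseChange S = (g ∘ₗ f) ∘ₗ θ.toLinearMap := by
      have := piScalarRight_baseChange_toLin' (S := S) E
      rw [hEE', Matrix.toLin'_toMatrix'] at this
      exact this
    have hθpt : ∀ z, θ (e.baseChange S z) = g (f (θ z)) := fun z =>
      congrArg (fun φ => φ z) hθ
    have hιπpt : ∀ z, ι.baseChange S (π.baseChange S z) = e.baseChange S z := fun z => by
      rw [← LinearMap.comp_apply, ← LinearMap.baseChange_comp, hιπ]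
    have hπιpt : ∀ z, π.baseChange S (ι.baseChange S z) = z := fun z => by
      rw [← LinearMap.comp_apply, ← LinearMap.baseChange_comp, hπι, LinearMap.baseChange_id,
        LinearMap.id_apply]
    have hfgpt : ∀ x, f (g x) = x := fun x => congrArg (fun φ => φ x) hfg
    let α : S ⊗[R] LinearMap.range e →ₗ[S] P' := f ∘ₗ θ.toLinearMap ∘ₗ ι.baseChange S
    let β : P' →ₗ[S] S ⊗[R] LinearMap.range e := π.baseChange S ∘ₗ θ.symm.toLinearMap ∘ₗ g
    refine ⟨LinearEquiv.ofLinearMap α β ?_ ?_⟩
    · refine LinearMap.ext fun x => ?_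
      show f (θ (ι.baseChange S (π.baseChange S (θ.symm (g x))))) = x
      rw [hιπpt, hθpt, LinearEquiv.apply_symm_apply, hfgpt, hfgpt]
    · refine LinearMap.ext fun z => ?_
      show π.baseChange S (θ.symm (g (f (θ (ι.baseChange S z))))) = z
      rw [← hθpt, LinearEquiv.symm_apply_apply, ← hιπpt, hπιpt, hπιpt]

/-- A projective module whose reduction is invertible is invertible. -/
theorem invertible_of_baseChange (hsurj : Function.Surjective (algebraMap R S))
    (hnil : IsNilpotent (RingHom.ker (algebraMap R S)))
    (P : Type w) [AddCommGroup P] [Module R P] [Module.Projective R P]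
    [Module.Invertible S (S ⊗[R] P)] : Module.Invertible R P := by
  obtain ⟨Q, _, _, _, _, ⟨eQ⟩⟩ := exists_projective_lift hsurj hnil (Module.Dual S (S ⊗[R] P))
  let e1 : S ⊗[R] (Q ⊗[R] P) ≃ₗ[S] S ⊗[R] R :=
    TensorProduct.AlgebraTensorModule.distribBaseChange R S Q P ≪≫ₗ
      TensorProduct.congr eQ (LinearEquiv.refl S (S ⊗[R] P)) ≪≫ₗ
      Module.Invertible.linearEquiv S (S ⊗[R] P) ≪≫ₗ
      (TensorProduct.AlgebraTensorModule.rid R S S).symm
  obtain ⟨g, -⟩ := exists_linearEquiv_lift hsurj hnil e1
  exact Module.Invertible.right g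

/-- Invertible modules lift along a surjection with nilpotent kernel. -/
theorem exists_invertible_lift (hsurj : Function.Surjective (algebraMap R S))
    (hnil : IsNilpotent (RingHom.ker (algebraMap R S)))
    (P' : Type w) [AddCommGroup P'] [Module S P'] [Module.Invertible S P'] :
    ∃ (P : Type u) (_ : AddCommGroup P) (_ : Module R P), Module.Invertible R P ∧
      Nonempty (S ⊗[R] P ≃ₗ[S] P') := by
  obtain ⟨P, _, _, _, _, ⟨eP⟩⟩ := exists_projective_lift hsurj hnil P'
  have : Module.Invertible S (S ⊗[R] P) := Module.Invertible.congr eP.symm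
  exact ⟨P, inferInstance, inferInstance, invertible_of_baseChange hsurj hnil P, ⟨eP⟩⟩

end Lift

section Pic

variable {R' : Type u} {S' : Type u} [CommRing R'] [CommRing S'] [Algebra R' S']

open CommRing in
/-- `Pic R → Pic S` is bijective for a surjection with nilpotent kernel. -/
theorem pic_mapAlgebra_bijective (hsurj : Function.Surjective (algebraMap R' S'))
    (hnil : IsNilpotent (RingHom.ker (algebraMap R' S'))) :
    Function.Bijective (Pic.mapAlgebra R' S') := by
  constructor
  · rw [injective_iff_map_eq_one]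
    intro M hM
    rw [Pic.mapAlgebra_apply, Pic.mk_eq_one_iff] at hM
    obtain ⟨e⟩ := hM
    obtain ⟨g⟩ := nonempty_linearEquiv_self_of_baseChange hsurj hnil e
    rw [← Pic.mk_eq_self (M := M), Pic.mk_eq_one_iff]
    exact ⟨g⟩
  · intro N
    obtain ⟨P, _, _, _, ⟨eP⟩⟩ := exists_invertible_lift hsurj hnil N
    refine ⟨Pic.mk R' P, ?_⟩
    rw [Pic.mapAlgebra_apply, Pic.mk_eq_iff]
    exact ⟨TensorProduct.AlgebraTensorModule.congr (LinearEquiv.refl S' S')
      (Pic.mk.linearEquiv R' P) ≪≫ₗ eP⟩

end Pic

end Fermat.Agent.JAC.Grp.Lift33
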