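/-
B6.0 (JAC): projections and points of the fibre powers `fibrePow X n` of `Prop/PowerCurve27`, and
surjectivity of the `n`-fold sum map `X^n ⟶ G`, `(x_1, …, x_n) ↦ f x_1 * ⋯ * f x_n`.
-/
import Mathlib
import Fermat.Agent.JAC.Prop.PowerCurve27
import Fermat.Agent.JAC.Grp.SumMap6
import Fermat.Agent.JAC.Grp.GeomSurj6

universe u

open CategoryTheory CategoryTheory.Limits AlgebraicGeometry MonoidalCategory
  CartesianMonoidalCategory MonObj

namespace Fermat.Agent.JAC.Grp.PowSum6

open Fermat.Agent.JAC.Prop.PowerCurve27 Fermat.Agent.JAC.Grp.SumMap6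
  Fermat.Agent.JAC.Grp.GeomSurj6

variable {S : Scheme.{u}} (X : Over S)

/-- The `i`-th projection `X^n ⟶ X`. -/
noncomputable def proj : ∀ n : ℕ, Fin n → (fibrePow X n ⟶ X)
  | 0 => fun i => i.elim0
  | n + 1 => Fin.lastCases (snd (fibrePow X n) X) (fun j => fst (fibrePow X n) X ≫ proj n j)

@[simp]
theorem proj_last (n : ℕ) : proj X (n + 1) (Fin.last n) = snd (fibrePow X n) X := by
  simp [proj]

@[simp]
theorem proj_castSucc (n : ℕ) (j : Fin n) :
    proj X (n + 1) j.castSucc = fst (fibrePow X n) X ≫ proj X n j := by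
  simp [proj]

variable {X}

/-- The point of `X^n` with prescribed components. -/
noncomputable def liftPow {T : Over S} : ∀ n : ℕ, (Fin n → (T ⟶ X)) → (T ⟶ fibrePow X n)
  | 0 => fun _ => toUnit T
  | n + 1 => fun y => lift (liftPow n fun j => y j.castSucc) (y (Fin.last n))

theorem liftPow_succ {T : Over S} (n : ℕ) (y : Fin (n + 1) → (T ⟶ X)) :
    liftPow (n + 1) y = lift (liftPow n fun j => y j.castSucc) (y (Fin.last n)) := rfl

theorem liftPow_proj {T : Over S} : ∀ (n : ℕ) (y : Fin n → (T ⟶ X)) (i : Fin n),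
    liftPow n y ≫ proj X n i = y i
  | 0 => fun _ i => i.elim0
  | n + 1 => fun y i => by
    refine Fin.lastCases ?_ (fun j => ?_) i
    · rw [proj_last]
      exact lift_snd _ _
    · rw [proj_castSucc]
      have h1 : lift (liftPow n fun j => y j.castSucc) (y (Fin.last n)) ≫
          fst (fibrePow X n) X ≫ proj X n j = y j.castSucc := by
        rw [lift_fst_assoc]
        exact liftPow_proj n _ j
      exact h1

/-- A point of `X^n` is determined by its components. -/
theorem hom_ext_pow {T : Over S} : ∀ (n : ℕ) (p p' : T ⟶ fibrePow X n),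
    (∀ i, p ≫ proj X n i = p' ≫ proj X n i) → p = p'
  | 0 => fun p p' _ => toUnit_unique p p'
  | n + 1 => fun p p' h => by
    have key : ∀ q q' : T ⟶ fibrePow X n ⊗ X,
        (∀ i, q ≫ proj X (n + 1) i = q' ≫ proj X (n + 1) i) → q = q' := by
      intro q q' hq
      apply CartesianMonoidalCategory.hom_ext
      · refine hom_ext_pow n _ _ fun j => ?_
        have := hq j.castSucc
        rw [proj_castSucc] at this
        rw [Category.assoc, Category.assoc]
        exact this
      · have := hq (Fin.last n)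
        rw [proj_last] at this
        exact this
    exact key p p' h

variable {G : Over S} [GrpObj G] [IsCommMonObj G]

/-- The `n`-fold sum map `X^n ⟶ G` of a morphism `f : X ⟶ G` into a commutative group scheme. -/
noncomputable def powSum (n : ℕ) (f : X ⟶ G) : fibrePow X n ⟶ G := sumMap (proj X n) f

theorem liftPow_powSum {T : Over S} (n : ℕ) (f : X ⟶ G) (y : Fin n → (T ⟶ X)) :
    liftPow n y ≫ powSum n f = ∏ i, y i ≫ f :=
  comp_sumMap_of_components _ _ f y (liftPow_proj n y)

/-- **Surjectivity of the `n`-fold sum map**: if every geometric point of `G` is a product of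
`n` values of `f` at geometric points of `X`, then `X^n ⟶ G` is surjective. -/
theorem surjective_powSum (n : ℕ) (f : X ⟶ G)
    (hG : ∀ (K : Type u) [Field K] [IsAlgClosed K] (t : Spec (CommRingCat.of K) ⟶ S)
      (z : Over.mk t ⟶ G), ∃ y : Fin n → (Over.mk t ⟶ X), ∏ i, y i ≫ f = z) :
    Surjective (powSum n f).left :=
  surjective_sumMap (proj X n) f
    (fun _ _ _ _ y => ⟨liftPow n y, liftPow_proj n y⟩) hG

end Fermat.Agent.JAC.Grp.PowSum6
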